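import Fermat.Agent.RT.Wiring.Point
import Fermat.Agent.S54

/-!
# RT10 (helper28): Hecke data versus deformation rings

* `datum_residual_isEquiv` : the residual representation of a Hecke datum is `ρbar ⊗ k_T`;
* `dCond_descend` : a condition satisfied by the datum is satisfied by `ρbar`;
* `exists_surj_of_datum` : `R → T` (S54);
* `exists_lam` : the point of `R` attached to `χ : heckeAlgebra → 𝒪`.
-/

set_option autoImplicit false

open Polynomial IsLocalRing CuspForm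

namespace Fermat.Agent.RT.Wiring

open Fermat.Agent.DefCond Fermat.Agent.UDef

local notation "Γℚ" => (AlgebraicClosure ℚ ≃ₐ[ℚ] AlgebraicClosure ℚ)

section Descend

/-- Descent of the conditions along an isomorphism of (residue) fields. -/
theorem dCond_descend {k k' : Type} [Field k] [Field k'] [Finite k] (i : k →+* k')
    (hi : Function.Bijective i) {ρ : ResidualGaloisRep k} {t : PType} {𝒪 𝒪' : Type} [CommRing 𝒪]
    [CommRing 𝒪'] [Algebra 𝒪 k] [Algebra 𝒪' k'] {p : ℕ} {S Sm : Finset ℕ}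
    (h : dCond t 𝒪' p S Sm (GaloisRepAdic.ofResidualGaloisRep (ρ.baseChangeAlong i))) :
    dCond t 𝒪 p S Sm (GaloisRepAdic.ofResidualGaloisRep ρ) := by
  let e : k ≃+* k' := RingEquiv.ofBijective i hi
  have hloc : IsLocalHom (e.symm : k' →+* k) := inferInstance
  have hk : Finite (ResidueField k) := Finite.of_surjective (residue k) residue_surjective
  have h1 : dCond t 𝒪 p S Sm
      ((GaloisRepAdic.ofResidualGaloisRep (ρ.baseChangeAlong i)).baseChangeAlong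
        (e.symm : k' →+* k) hloc) := dCond_bc _ hloc hk h
  obtain ⟨M, hM⟩ := exists_modelR ρ
  refine dCond_of_isEquiv (𝒪 := 𝒪) (IsModel.isEquiv
    (((hM.baseChangeAlong i).toAdic).baseChangeAlong (e.symm : k' →+* k) hloc) hM.toAdic 1
      isUnit_one fun σ => ?_) h1
  rw [one_mul, mul_one, mapRep_apply, mapRep_apply, Matrix.map_map]
  ext a b
  rw [Matrix.map_apply]
  exact e.symm_apply_apply _

end Descend

section

variable {𝒪 : Type} [CommRing 𝒪] [IsDomain 𝒪] [IsDiscreteValuationRing 𝒪]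
  [IsAdicComplete (maximalIdeal 𝒪) 𝒪]
  {N : ℕ} [NeZero N] {S : Finset ℕ} {θ : heckeAlgebra N 2 (↑S : Set ℕ) →+* ResidueField 𝒪}
  {T : Type} [CommRing T] [IsLocalRing T] [IsNoetherianRing T]
  [IsAdicComplete (maximalIdeal T) T] [Algebra 𝒪 T] [IsLocalHom (algebraMap 𝒪 T)]
  [Module.Finite 𝒪 T] [Module.Free 𝒪 T]

/-- **The residual representation of a Hecke datum.** -/
theorem datum_residual_isEquiv (H : HeckeGaloisRepDatum N (↑S : Set ℕ) 𝒪 θ T)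
    (hNS : ∀ q : ℕ, q.Prime → q ∣ N → q ∈ S) {ρbar : ResidualGaloisRep (ResidueField 𝒪)}
    (habs : ρbar.IsAbsolutelyIrreducible)
    (hfrob : ∀ (ℓ : ℕ) (hℓ : ℓ.Prime) (hℓN : ¬ ℓ ∣ N) (hℓS : ℓ ∉ (↑S : Set ℕ)),
      ∀ A : ValuationSubring (AlgebraicClosure ℚ), A.LiesOverPrime ℓ →
        ∀ σ : Γℚ, A.IsFrobeniusAt σ ℓ → LinearMap.charpoly (ρbar.ρ σ) =
          X ^ 2 - C (θ (heckeAlgebra.T hℓ hℓN hℓS)) * X + C ((ℓ : ResidueField 𝒪))) :
    H.ρ.residual.IsEquiv (ρbar.baseChangeAlong (ResidueField.map (algebraMap 𝒪 T))) := by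
  set i : ResidueField 𝒪 →+* ResidueField T := ResidueField.map (algebraMap 𝒪 T)
  have hcp : ∀ σ : Γℚ, LinearMap.charpoly (H.ρ.residual.ρ σ) =
      (LinearMap.charpoly (ρbar.ρ σ)).map i := by
    intro σ
    have key := FrobCompare.residual_charpoly_map_eq CMP.Density.frobDensity
      (RingHom.id (ResidueField T)) i H.ρ.residual ρbar S (fun ℓ hℓ hℓS A hA τ hτ => by
        have hℓN : ¬ ℓ ∣ N := fun h => hℓS (hNS ℓ hℓ h)
        have hℓS' : ℓ ∉ (↑S : Set ℕ) := fun h => hℓS (Finset.mem_coe.mp h)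
        rw [Polynomial.map_id, EllTate.residual_charpoly,
          H.charpoly_frob ℓ hℓ hℓN hℓS' A hA τ hτ, hfrob ℓ hℓ hℓN hℓS' A hA τ hτ,
          Polynomial.map_add, Polynomial.map_sub, Polynomial.map_mul, Polynomial.map_pow,
          Polynomial.map_X, Polynomial.map_C, Polynomial.map_C, map_natCast (residue T),
          H.residue_π, Polynomial.map_add, Polynomial.map_sub, Polynomial.map_mul,
          Polynomial.map_pow, Polynomial.map_X, Polynomial.map_C, Polynomial.map_C,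
          map_natCast i]) σ
    rwa [Polynomial.map_id] at key
  have hbc : ∀ σ : Γℚ, LinearMap.charpoly ((ρbar.baseChangeAlong i).ρ σ) =
      (LinearMap.charpoly (ρbar.ρ σ)).map i :=
    fun σ => DR.ResidualCompare.charpoly_baseChangeAlong i ρbar σ
  refine BN2.isEquiv_of_charpoly_eq _ _ (fun σ => by rw [hcp, hbc]) ?_
  exact BN2.isAbsolutelyIrreducible_of_charpoly_eq (RingHom.id _) i _ ρbar
    (fun σ => by rw [Polynomial.map_id, hbc]) habs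

/-- A condition satisfied by the representation of a Hecke datum is satisfied by `ρbar`. -/
theorem dCond_ofResidual_of_datum [Finite (ResidueField 𝒪)]
    (H : HeckeGaloisRepDatum N (↑S : Set ℕ) 𝒪 θ T)
    {ρbar : ResidualGaloisRep (ResidueField 𝒪)}
    (hres : H.ρ.residual.IsEquiv (ρbar.baseChangeAlong (ResidueField.map (algebraMap 𝒪 T))))
    {t : PType} {p : ℕ} {S' Sm : Finset ℕ} (h : dCond t 𝒪 p S' Sm H.ρ) :
    dCond t 𝒪 p S' Sm (GaloisRepAdic.ofResidualGaloisRep ρbar) := by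
  have hbij : Function.Bijective (ResidueField.map (algebraMap 𝒪 T)) := by
    refine ⟨RingHom.injective _, fun y => ?_⟩
    obtain ⟨x, hx⟩ := H.residue_surjective y
    exact ⟨residue 𝒪 x, hx⟩
  have hk : Finite (ResidueField T) := Finite.of_surjective _ hbij.2
  have h1 : dCond t T p S' Sm (GaloisRepAdic.ofResidualGaloisRep H.ρ.residual) :=
    dCond_residual (𝒪 := 𝒪) hk h
  obtain ⟨e⟩ := hres
  have h2 : dCond t T p S' Sm (GaloisRepAdic.ofResidualGaloisRep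
      (ρbar.baseChangeAlong (ResidueField.map (algebraMap 𝒪 T)))) :=
    dCond_of_isEquiv (𝒪 := T) ⟨⟨e.toLinearEquiv, e.map_apply⟩⟩ h1
  exact dCond_descend _ hbij h2

/-- **`R → T`** (S54). -/
theorem exists_surj_of_datum {ρbar : ResidualGaloisRep (ResidueField 𝒪)}
    {𝒟 : ∀ ⦃A : Type⦄ [CommRing A] [IsLocalRing A] [Algebra 𝒪 A], GaloisRepAdic A → Prop}
    (D : GaloisRep.DeformationRingData 𝒪 ρbar 𝒟)
    (H : HeckeGaloisRepDatum N (↑S : Set ℕ) 𝒪 θ T) (hNS : ∀ q : ℕ, q.Prime → q ∣ N → q ∈ S)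
    (h𝒟 : 𝒟 H.ρ)
    (hfrob : ∀ (ℓ : ℕ) (hℓ : ℓ.Prime) (hℓN : ¬ ℓ ∣ N) (hℓS : ℓ ∉ (↑S : Set ℕ)),
      ∀ A : ValuationSubring (AlgebraicClosure ℚ), A.LiesOverPrime ℓ →
        ∀ σ : Γℚ, A.IsFrobeniusAt σ ℓ → LinearMap.charpoly (ρbar.ρ σ) =
          X ^ 2 - C (θ (heckeAlgebra.T hℓ hℓN hℓS)) * X + C ((ℓ : ResidueField 𝒪))) :
    ∃ φ : D.R →ₐ[𝒪] T, Function.Surjective φ ∧ ∃ hφ : IsLocalHom (φ : D.R →+* T),
      (D.ρ.baseChangeAlong (φ : D.R →+* T) hφ).IsEquiv H.ρ :=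
  S54.result D H (fun q hq h => Finset.mem_coe.mpr (hNS q hq h)) h𝒟
    (datum_residual_isEquiv H hNS D.absIrr hfrob)

/-- The images of the traces of Frobenius elements under `R → T`. -/
theorem map_trace_frob {ρbar : ResidualGaloisRep (ResidueField 𝒪)}
    {𝒟 : ∀ ⦃A : Type⦄ [CommRing A] [IsLocalRing A] [Algebra 𝒪 A], GaloisRepAdic A → Prop}
    (D : GaloisRep.DeformationRingData 𝒪 ρbar 𝒟)
    (H : HeckeGaloisRepDatum N (↑S : Set ℕ) 𝒪 θ T) (φ : D.R →ₐ[𝒪] T)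
    (hφ : IsLocalHom (φ : D.R →+* T)) (he : (D.ρ.baseChangeAlong (φ : D.R →+* T) hφ).IsEquiv H.ρ)
    {ℓ : ℕ} (hℓ : ℓ.Prime) (hℓN : ¬ ℓ ∣ N) (hℓS : ℓ ∉ (↑S : Set ℕ))
    {A : ValuationSubring (AlgebraicClosure ℚ)} (hA : A.LiesOverPrime ℓ) {σ : Γℚ}
    (hσ : A.IsFrobeniusAt σ ℓ) :
    φ (D.ρ.trace σ) = H.π (heckeAlgebra.T hℓ hℓN hℓS) := by
  obtain ⟨e⟩ := he
  have h1 : (LinearMap.charpoly (D.ρ.ρ σ)).map (φ : D.R →+* T) =
      X ^ 2 - C (H.π (heckeAlgebra.T hℓ hℓN hℓS)) * X + C ((ℓ : T)) := by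
    rw [← charpoly_baseChangeAlong (φ : D.R →+* T) hφ, ← charpoly_equiv e σ]
    exact H.charpoly_frob ℓ hℓ hℓN hℓS A hA σ hσ
  rw [BN2.charpoly_eq_of_finrank_two D.ρ.finrank_eq, Polynomial.map_add, Polynomial.map_sub,
    Polynomial.map_mul, Polynomial.map_pow, Polynomial.map_X, Polynomial.map_C,
    Polynomial.map_C] at h1
  exact CMP.S58Assembly.eq_of_quad h1

/-- **The point of `R` attached to a character of the Hecke algebra.** -/
theorem exists_lam {ρbar : ResidualGaloisRep (ResidueField 𝒪)}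
    {𝒟 : ∀ ⦃A : Type⦄ [CommRing A] [IsLocalRing A] [Algebra 𝒪 A], GaloisRepAdic A → Prop}
    (D : GaloisRep.DeformationRingData 𝒪 ρbar 𝒟)
    (H : HeckeGaloisRepDatum N (↑S : Set ℕ) 𝒪 θ T) (φ : D.R →ₐ[𝒪] T)
    (hφ : IsLocalHom (φ : D.R →+* T)) (he : (D.ρ.baseChangeAlong (φ : D.R →+* T) hφ).IsEquiv H.ρ)
    (χ : heckeAlgebra N 2 (↑S : Set ℕ) →+* 𝒪) (hχ : ∀ t, residue 𝒪 (χ t) = θ t) :
    ∃ ψ : T →ₐ[𝒪] 𝒪, (∀ t, ψ (H.π t) = χ t) ∧
      ∀ (ℓ : ℕ) (hℓ : ℓ.Prime) (hℓN : ¬ ℓ ∣ N) (hℓS : ℓ ∉ (↑S : Set ℕ)),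
        ∀ A : ValuationSubring (AlgebraicClosure ℚ), A.LiesOverPrime ℓ →
          ∀ σ : Γℚ, A.IsFrobeniusAt σ ℓ →
            (ψ.comp φ) (D.ρ.trace σ) = χ (heckeAlgebra.T hℓ hℓN hℓS) := by
  obtain ⟨ψ, hψ⟩ := H.exists_point χ hχ
  exact ⟨ψ, hψ, fun ℓ hℓ hℓN hℓS A hA σ hσ => by
    rw [AlgHom.comp_apply, map_trace_frob D H φ hφ he hℓ hℓN hℓS hA hσ, hψ]⟩

end

/-! ### The two levels for `W` -/

section W

variable {W : WeierstrassCurve ℤ} {p : ℕ} [hp : Fact p.Prime]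

theorem hNS_min : ∀ q : ℕ, q.Prime → q ∣ Nmin W p → q ∈ Sbad W p :=
  fun _ hq h => mem_Sbad_of_dvd_Nmin hp.out hq h

theorem hNS_sig : ∀ q : ℕ, q.Prime → q ∣ Nsig W p → q ∈ Sbad W p :=
  fun _ hq h => mem_Sbad_of_dvd_Nsig hp.out hq h

variable [NeZero (Nmin W p)] [NeZero (Nsig W p)]

/-- The restriction from level `Nsig` to level `Nmin`. -/
noncomputable def restrW (W : WeierstrassCurve ℤ) (p : ℕ) [hp : Fact p.Prime]
    [NeZero (Nmin W p)] [NeZero (Nsig W p)] :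
    heckeAlgebra (Nsig W p) 2 (↑(Sbad W p) : Set ℕ) →+*
      heckeAlgebra (Nmin W p) 2 (↑(Sbad W p) : Set ℕ) :=
  restr (Nmin_dvd_Nsig hp.out) fun q hq h => Finset.mem_coe.mpr (hNS_sig q hq h)

theorem restrW_T {ℓ : ℕ} (hℓ : ℓ.Prime) (hℓN : ¬ ℓ ∣ Nsig W p) (hℓM : ¬ ℓ ∣ Nmin W p)
    (hℓS : ℓ ∉ (↑(Sbad W p) : Set ℕ)) :
    restrW W p (heckeAlgebra.T hℓ hℓN hℓS) = heckeAlgebra.T hℓ hℓM hℓS :=
  restr_T _ _ hℓ hℓN hℓM hℓS

end W

end Fermat.Agent.RT.Wiring
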