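import Fermat.Agent.RT.Wiring.Defs

/-!
# RT10 (helper28): arithmetic of the levels `Nmin W p` and `Nsig W p`
-/

set_option autoImplicit false

namespace Fermat.Agent.RT.Wiring

variable {W : WeierstrassCurve ℤ} {p : ℕ}

theorem factorization_prod_primes {s : Finset ℕ} (hs : ∀ q ∈ s, q.Prime) (k q : ℕ) :
    (∏ r ∈ s, r ^ k).factorization q = if q ∈ s then k else 0 := by
  classical
  rw [Nat.factorization_prod fun r hr => pow_ne_zero k (hs r hr).ne_zero, Finsupp.finsetSum_apply]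
  split_ifs with h
  · rw [Finset.sum_eq_single q]
    · rw [Nat.factorization_pow, Finsupp.smul_apply, (hs q h).factorization,
        Finsupp.single_eq_same, smul_eq_mul, mul_one]
    · intro r hr hrq
      rw [Nat.factorization_pow, Finsupp.smul_apply, (hs r hr).factorization,
        Finsupp.single_eq_of_ne (Ne.symm hrq), smul_zero]
    · intro h'; exact absurd h h'
  · refine Finset.sum_eq_zero fun r hr => ?_
    have hrq : r ≠ q := fun e => h (e ▸ hr)
    rw [Nat.factorization_pow, Finsupp.smul_apply, (hs r hr).factorization,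
      Finsupp.single_eq_of_ne (Ne.symm hrq), smul_zero]

theorem factorization_prod_primes_one {s : Finset ℕ} (hs : ∀ q ∈ s, q.Prime) (q : ℕ) :
    (∏ r ∈ s, r).factorization q = if q ∈ s then 1 else 0 := by
  have := factorization_prod_primes hs 1 q
  simpa using this

theorem factorization_pmin (hp : p.Prime) (q : ℕ) :
    (pmin W p).factorization q =
      if q = p ∧ ((p : ℤ) ∣ W.Δ ∧ ¬ p ∣ padicValInt p W.Δ) then 1 else 0 := by
  rw [pmin]
  by_cases h : (p : ℤ) ∣ W.Δ ∧ ¬ p ∣ padicValInt p W.Δ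
  · rw [if_pos h, hp.factorization, Finsupp.single_apply]
    by_cases hq : p = q
    · rw [if_pos hq, if_pos ⟨hq.symm, h⟩]
    · rw [if_neg hq, if_neg fun h' => hq h'.1.symm]
  · rw [if_neg h, if_neg fun h' => h h'.2]
    simp

theorem factorization_psig (hp : p.Prime) (q : ℕ) :
    (psig W p).factorization q = if q = p ∧ (p : ℤ) ∣ W.Δ then 1 else 0 := by
  rw [psig]
  by_cases h : (p : ℤ) ∣ W.Δ
  · rw [if_pos h, hp.factorization, Finsupp.single_apply]
    by_cases hq : p = q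
    · rw [if_pos hq, if_pos ⟨hq.symm, h⟩]
    · rw [if_neg hq, if_neg fun h' => hq h'.1.symm]
  · rw [if_neg h, if_neg fun h' => h h'.2]
    simp

theorem prod_Sram_ne_zero : (∏ q ∈ Sram W p, q) ≠ 0 :=
  Finset.prod_ne_zero_iff.mpr fun _ hq => (prime_of_mem_Sram hq).ne_zero

theorem prod_Ssig_ne_zero : (∏ q ∈ Ssig W p, q ^ 2) ≠ 0 :=
  Finset.prod_ne_zero_iff.mpr fun _ hq => pow_ne_zero 2 (prime_of_mem_Ssig hq).ne_zero

theorem factorization_Nmin (hp : p.Prime) (q : ℕ) :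
    (Nmin W p).factorization q =
      (if q = p ∧ ((p : ℤ) ∣ W.Δ ∧ ¬ p ∣ padicValInt p W.Δ) then 1 else 0) +
        (if q ∈ Sram W p then 1 else 0) := by
  rw [Nmin, Nat.factorization_mul (pmin_pos hp).ne' prod_Sram_ne_zero, Finsupp.add_apply,
    factorization_pmin hp, factorization_prod_primes_one fun _ h => prime_of_mem_Sram h]

theorem factorization_Nsig (hp : p.Prime) (q : ℕ) :
    (Nsig W p).factorization q =
      (if q = p ∧ (p : ℤ) ∣ W.Δ then 1 else 0) + (if q ∈ Sram W p then 1 else 0) +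
        (if q ∈ Ssig W p then 2 else 0) := by
  rw [Nsig, Nat.factorization_mul (mul_ne_zero (psig_pos hp).ne' prod_Sram_ne_zero)
    prod_Ssig_ne_zero, Nat.factorization_mul (psig_pos hp).ne' prod_Sram_ne_zero,
    Finsupp.add_apply, Finsupp.add_apply, factorization_psig hp,
    factorization_prod_primes_one fun _ h => prime_of_mem_Sram h,
    factorization_prod_primes fun _ h => prime_of_mem_Ssig h]

theorem not_mem_both {q : ℕ} (h1 : q ∈ Sram W p) (h2 : q ∈ Ssig W p) : False :=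
  Finset.disjoint_left.mp (disjoint_Sram_Ssig W p) h1 h2

/-- `Nmin` is squarefree. -/
theorem factorization_Nmin_le (hp : p.Prime) (q : ℕ) : (Nmin W p).factorization q ≤ 1 := by
  rw [factorization_Nmin hp]
  by_cases h1 : q ∈ Sram W p
  · have : q ≠ p := ne_of_mem_Sram h1
    rw [if_neg fun h => this h.1, if_pos h1]
  · rw [if_neg h1]
    split_ifs <;> omega

theorem squarefree_Nmin (hp : p.Prime) : Squarefree (Nmin W p) := by
  rw [Nat.squarefree_iff_factorization_le_one (Nmin_pos hp).ne']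
  exact factorization_Nmin_le hp

theorem not_sq_dvd_Nmin (hp : p.Prime) {q : ℕ} (hq : q.Prime) : ¬ q ^ 2 ∣ Nmin W p := by
  rw [hq.pow_dvd_iff_le_factorization (Nmin_pos hp).ne']
  have := factorization_Nmin_le (W := W) hp q
  omega

theorem factorization_Nsig_le (hp : p.Prime) (q : ℕ) : (Nsig W p).factorization q ≤ 2 := by
  rw [factorization_Nsig hp]
  by_cases h1 : q ∈ Sram W p
  · have : q ≠ p := ne_of_mem_Sram h1
    rw [if_neg fun h => this h.1, if_pos h1, if_neg fun h => not_mem_both h1 h]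
    omega
  · rw [if_neg h1]
    by_cases h2 : q ∈ Ssig W p
    · have : q ≠ p := ne_of_mem_Ssig h2
      rw [if_neg fun h => this h.1, if_pos h2]
    · rw [if_neg h2]
      split_ifs <;> omega

theorem not_cube_dvd_Nsig (hp : p.Prime) {q : ℕ} (hq : q.Prime) : ¬ q ^ 3 ∣ Nsig W p := by
  rw [hq.pow_dvd_iff_le_factorization (Nsig_pos hp).ne']
  have := factorization_Nsig_le (W := W) hp q
  omega

theorem factorization_Nsig_p_le (hp : p.Prime) : (Nsig W p).factorization p ≤ 1 := by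
  rw [factorization_Nsig hp, if_neg (fun h => ne_of_mem_Sram h rfl),
    if_neg (fun h => ne_of_mem_Ssig h rfl)]
  split_ifs <;> omega

theorem not_sq_p_dvd_Nsig (hp : p.Prime) : ¬ p ^ 2 ∣ Nsig W p := by
  rw [hp.pow_dvd_iff_le_factorization (Nsig_pos hp).ne']
  have := factorization_Nsig_p_le (W := W) hp
  omega

theorem dvd_Nmin_iff (hp : p.Prime) {q : ℕ} (hq : q.Prime) :
    q ∣ Nmin W p ↔ (q = p ∧ (p : ℤ) ∣ W.Δ ∧ ¬ p ∣ padicValInt p W.Δ) ∨ q ∈ Sram W p := by
  rw [hq.dvd_iff_one_le_factorization (Nmin_pos hp).ne', factorization_Nmin hp]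
  split_ifs <;> simp_all

theorem dvd_Nsig_iff (hp : p.Prime) {q : ℕ} (hq : q.Prime) :
    q ∣ Nsig W p ↔ (q = p ∧ (p : ℤ) ∣ W.Δ) ∨ q ∈ Sram W p ∨ q ∈ Ssig W p := by
  rw [hq.dvd_iff_one_le_factorization (Nsig_pos hp).ne', factorization_Nsig hp]
  split_ifs <;> simp_all

theorem Nmin_dvd_Nsig (hp : p.Prime) : Nmin W p ∣ Nsig W p := by
  rw [← Nat.factorization_le_iff_dvd (Nmin_pos hp).ne' (Nsig_pos hp).ne']
  intro q
  rw [factorization_Nmin hp, factorization_Nsig hp]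
  have h : (if q = p ∧ (p : ℤ) ∣ W.Δ ∧ ¬ p ∣ padicValInt p W.Δ then 1 else 0) ≤
      (if q = p ∧ (p : ℤ) ∣ W.Δ then 1 else 0) := by
    split_ifs with h1 h2 <;> first | omega | (exact absurd ⟨h1.1, h1.2.1⟩ h2)
  omega

theorem mem_Sbad_of_dvd_Nmin (hp : p.Prime) {q : ℕ} (hq : q.Prime) (h : q ∣ Nmin W p) :
    q ∈ Sbad W p := by
  rw [Sbad_eq, Finset.mem_union, mem_Smin]
  rcases (dvd_Nmin_iff hp hq).mp h with h | h
  · exact Or.inl (Or.inl h.1)
  · exact Or.inl (Or.inr h)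

theorem mem_Smin_of_dvd_Nmin (hp : p.Prime) {q : ℕ} (hq : q.Prime) (h : q ∣ Nmin W p) :
    q ∈ Smin W p := by
  rw [mem_Smin]
  rcases (dvd_Nmin_iff hp hq).mp h with h | h
  · exact Or.inl h.1
  · exact Or.inr h

theorem mem_Sbad_of_dvd_Nsig (hp : p.Prime) {q : ℕ} (hq : q.Prime) (h : q ∣ Nsig W p) :
    q ∈ Sbad W p := by
  rw [Sbad_eq, Finset.mem_union, mem_Smin]
  rcases (dvd_Nsig_iff hp hq).mp h with h | h | h
  · exact Or.inl (Or.inl h.1)
  · exact Or.inl (Or.inr h)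
  · exact Or.inr h

/-- The primes of bad reduction divide `Nsig`. -/
theorem dvd_Nsig_of_dvd_Δ (hΔ : W.Δ ≠ 0) (hp : p.Prime) {q : ℕ} (hq : q.Prime)
    (h : (q : ℤ) ∣ W.Δ) : q ∣ Nsig W p := by
  rw [dvd_Nsig_iff hp hq, mem_Sram hΔ, mem_Ssig hΔ]
  by_cases hqp : q = p
  · subst hqp; exact Or.inl ⟨rfl, h⟩
  · tauto

/-- `p ∣ Nmin` iff the minimal type is `strict`. -/
theorem p_dvd_Nmin_iff (hp : p.Prime) :
    p ∣ Nmin W p ↔ ((p : ℤ) ∣ W.Δ ∧ ¬ p ∣ padicValInt p W.Δ) := by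
  rw [dvd_Nmin_iff hp hp]
  constructor
  · rintro (h | h)
    · exact h.2
    · exact absurd rfl (ne_of_mem_Sram h)
  · intro h; exact Or.inl ⟨rfl, h⟩

theorem p_dvd_Nsig_iff (hp : p.Prime) : p ∣ Nsig W p ↔ (p : ℤ) ∣ W.Δ := by
  rw [dvd_Nsig_iff hp hp]
  constructor
  · rintro (h | h | h)
    · exact h.2
    · exact absurd rfl (ne_of_mem_Sram h)
    · exact absurd rfl (ne_of_mem_Ssig h)
  · intro h; exact Or.inl ⟨rfl, h⟩

end Fermat.Agent.RT.Wiring
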