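import Fermat.Agent.RT.Wiring.BC
import Fermat.Agent.RT.Wiring.Levels
import Fermat.Agent.EllTate.Main
import Fermat.Agent.EllTate.S58Input
import Fermat.Agent.EllFlat.TateFlat
import Fermat.Agent.LOC.TateArith
import Fermat.Agent.LOC.TateRam
import Fermat.Agent.DR.ResidualCompare

/-!
# RT10 (helper28): `T_p E ⊗ 𝒪` in the deformation problems (RT-EDEF)

For `W` semistable, `𝒪` a local `ℤ_p`-algebra:

* `rhoE W hΔ p 𝒪 : GaloisRepAdic 𝒪`, `rhoBar W hΔ p 𝒪 : ResidualGaloisRep (ResidueField 𝒪)`;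
* `rhoE_dCond : dCond (tsig W p) 𝒪 p (Sbad W p) (Smin W p) (rhoE ..)`;
* `rhoE_charpoly_frob`, `rhoBar_charpoly_frob`;
* `rhoBar_isAbsolutelyIrreducible`, `rhoBar_isOdd`, `rhoBar_det`, `rhoBar_split`;
* `rhoBar_isUnramifiedAt_iff`, `mem_Smin_iff` (hypothesis `hmin` of S56).
-/

set_option autoImplicit false

open Polynomial IsLocalRing
open WeierstrassCurve.Affine.Point
open scoped WeierstrassCurve.Affine

namespace Fermat.Agent.RT.Wiring

open Fermat.Agent.DefCond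

local notation "Γℚ" => (AlgebraicClosure ℚ ≃ₐ[ℚ] AlgebraicClosure ℚ)

/-! ### Splitting of quadratic polynomials -/

/-- A quadratic polynomial over `F_p` splits over any field containing a primitive
`(p²-1)`-th root of unity. -/
theorem quad_splits (p : ℕ) [hp : Fact p.Prime] {k : Type} [Field k]
    (hζ : ∃ ζ : k, IsPrimitiveRoot ζ (p ^ 2 - 1)) (φ : ZMod p →+* k) (a b : ZMod p) :
    ∃ α β : k, X ^ 2 - C (φ a) * X + C (φ b) = (X - C α) * (X - C β) := by
  have hchar : CharP k p := charP_of_injective_ringHom (f := φ) φ.injective p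
  obtain ⟨ζ, hζ⟩ := hζ
  let K := AlgebraicClosure k
  let i : k →+* K := algebraMap k K
  have hcharK : CharP K p := charP_of_injective_ringHom (f := i) i.injective p
  -- roots in the algebraic closure
  obtain ⟨α, β, hαβ⟩ : ∃ α β : K, X ^ 2 - C (i (φ a)) * X + C (i (φ b)) =
      (X - C α) * (X - C β) := by
    have hdeg : (X ^ 2 - C (i (φ a)) * X + C (i (φ b)) : K[X]).degree ≠ 0 := by
      have : (X ^ 2 - C (i (φ a)) * X + C (i (φ b)) : K[X]).degree = 2 := by compute_degree!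
      rw [this]; decide
    obtain ⟨α, hα⟩ := IsAlgClosed.exists_root _ hdeg
    refine ⟨α, i (φ a) - α, ?_⟩
    have h1 : α ^ 2 - i (φ a) * α + i (φ b) = 0 := by
      simpa [IsRoot] using hα
    have h2 : i (φ b) = i (φ a) * α - α ^ 2 := by linear_combination h1
    rw [h2]
    simp only [C_sub, C_mul, C_pow]
    ring
  -- each root is in `k`
  have hroot : ∀ γ : K, γ ^ 2 - i (φ a) * γ + i (φ b) = 0 → ∃ c : k, i c = γ := by
    intro γ hγ
    have hfrob : ∀ δ : K, δ ^ 2 - i (φ a) * δ + i (φ b) = 0 →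
        (δ ^ p) ^ 2 - i (φ a) * δ ^ p + i (φ b) = 0 := by
      intro δ hδ
      have h1 := congrArg (fun x => x ^ p) hδ
      have h2 : ∀ x : ZMod p, (i (φ x)) ^ p = i (φ x) := fun x => by
        rw [← map_pow, ← map_pow, ZMod.pow_card]
      simp only [zero_pow hp.out.ne_zero] at h1
      rw [add_pow_char, sub_pow_char, mul_pow, h2, h2, ← pow_mul, mul_comm 2 p, pow_mul] at h1
      exact h1
    have hfac : ∀ δ : K, δ ^ 2 - i (φ a) * δ + i (φ b) = 0 → δ = α ∨ δ = β := by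
      intro δ hδ
      have h1 := congrArg (eval δ) hαβ
      simp only [eval_add, eval_sub, eval_pow, eval_X, eval_mul, eval_C] at h1
      rw [hδ] at h1
      rcases mul_eq_zero.mp h1.symm with h | h
      · exact Or.inl (sub_eq_zero.mp h)
      · exact Or.inr (sub_eq_zero.mp h)
    have hinj : ∀ x y : K, x ^ p = y ^ p → x = y := by
      intro x y hxy
      have : (x - y) ^ p = 0 := by rw [sub_pow_char, hxy, sub_self]
      exact sub_eq_zero.mp (pow_eq_zero_iff hp.out.ne_zero |>.mp this)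
    have hpp : (γ ^ p) ^ p = γ := by
      have h1 := hfrob γ hγ
      have h2 := hfrob _ h1
      rcases hfac _ hγ with h | h <;> rcases hfac _ h1 with h' | h' <;>
        rcases hfac _ h2 with h'' | h''
      · rw [h'', h]
      · have h3 : γ ^ p = γ := h'.trans h.symm
        rw [h3, h3]
      · rw [h'', h]
      · have h3 : γ ^ p = γ := hinj _ _ (h''.trans h'.symm)
        rw [h3, h3]
      · have h3 : γ ^ p = γ := hinj _ _ (h''.trans h'.symm)
        rw [h3, h3]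
      · rw [h'', h]
      · have h3 : γ ^ p = γ := h'.trans h.symm
        rw [h3, h3]
      · rw [h'', h]
    by_cases h0 : γ = 0
    · exact ⟨0, by rw [h0, _root_.map_zero]⟩
    · have hn : 0 < p ^ 2 - 1 := by
        have := hp.out.two_le
        have : 4 ≤ p ^ 2 := by nlinarith
        omega
      have h1 : γ ^ (p ^ 2 - 1) = 1 := by
        have h2 : γ ^ (p ^ 2 - 1) * γ = 1 * γ := by
          rw [← pow_succ, Nat.sub_add_cancel (by omega), one_mul, pow_two, pow_mul]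
          exact hpp
        exact mul_right_cancel₀ h0 h2
      have : NeZero (p ^ 2 - 1) := ⟨hn.ne'⟩
      obtain ⟨j, -, hj⟩ := (hζ.map_of_injective (f := i) i.injective).eq_pow_of_pow_eq_one h1
      exact ⟨ζ ^ j, by rw [map_pow, hj]⟩
  have hev : ∀ δ : K, (δ = α ∨ δ = β) → δ ^ 2 - i (φ a) * δ + i (φ b) = 0 := by
    intro δ hδ
    have h1 := congrArg (eval δ) hαβ
    simp only [eval_add, eval_sub, eval_pow, eval_X, eval_mul, eval_C] at h1
    rw [h1]
    rcases hδ with rfl | rfl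
    · rw [sub_self, zero_mul]
    · rw [sub_self, mul_zero]
  obtain ⟨c, hc⟩ := hroot α (hev α (Or.inl rfl))
  obtain ⟨d, hd⟩ := hroot β (hev β (Or.inr rfl))
  refine ⟨c, d, Polynomial.map_injective i i.injective ?_⟩
  simp only [Polynomial.map_add, Polynomial.map_sub, Polynomial.map_mul, Polynomial.map_pow,
    Polynomial.map_X, Polynomial.map_C]
  rw [hc, hd, hαβ]

section

variable (W : WeierstrassCurve ℤ) (hΔ : W.Δ ≠ 0) (p : ℕ) [hp : Fact p.Prime] (𝒪 : Type)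
  [CommRing 𝒪] [IsLocalRing 𝒪] [Algebra ℤ_[p] 𝒪] [IsLocalHom (algebraMap ℤ_[p] 𝒪)]

/-- `T_p E ⊗ 𝒪`. -/
noncomputable def rhoE : GaloisRepAdic 𝒪 :=
  (EllTate.tate W hΔ p).baseChangeAlong (algebraMap ℤ_[p] 𝒪) inferInstance

/-- `E[p] ⊗ k`, realised as the residual representation of `T_p E ⊗ 𝒪`. -/
noncomputable def rhoBar : ResidualGaloisRep (ResidueField 𝒪) := (rhoE W hΔ p 𝒪).residual

/-- the structure map `ZMod p → k`. -/
noncomputable def zmodToResidue : ZMod p →+* ResidueField 𝒪 :=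
  (ResidueField.map (algebraMap ℤ_[p] 𝒪)).comp
    (PadicInt.residueField (p := p)).symm.toRingHom

variable {W p}

theorem charP_residueField_base : CharP (ResidueField 𝒪) p :=
  charP_of_injective_ringHom (f := zmodToResidue p 𝒪) (zmodToResidue p 𝒪).injective p

theorem rhoE_charpoly_frob {ℓ : ℕ} (hℓ : ℓ.Prime) (hℓp : ℓ ≠ p) (hW : W.IsGoodPrimeFor ℓ)
    (A : ValuationSubring (AlgebraicClosure ℚ)) (hA : A.LiesOverPrime ℓ) {σ : Γℚ}
    (hσ : A.IsFrobeniusAt σ ℓ) :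
    LinearMap.charpoly ((rhoE W hΔ p 𝒪).ρ σ) =
      X ^ 2 - C ((W.apOfModel ℓ : ℤ) : 𝒪) * X + C (ℓ : 𝒪) := by
  rw [rhoE, charpoly_baseChangeAlong, EllTate.tate_charpoly_frob hΔ hℓ hℓp hW A hA hσ,
    Polynomial.map_add, Polynomial.map_sub, Polynomial.map_mul, Polynomial.map_pow,
    Polynomial.map_X, Polynomial.map_C, Polynomial.map_C, map_intCast, map_natCast]

theorem rhoE_detIsCyclotomic : (rhoE W hΔ p 𝒪).DetIsCyclotomic p :=
  detIsCyclotomic_bc _ _ (EllTate.tate_detIsCyclotomic hΔ)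

theorem rhoE_isUnramifiedAt {q : ℕ} (hq : q.Prime) (hqp : q ≠ p) (hqW : W.IsGoodPrimeFor q) :
    (rhoE W hΔ p 𝒪).IsUnramifiedAt q :=
  isUnramifiedAt_bc _ _ (EllTate.tate_isUnramifiedAt hΔ hq hqp hqW)

theorem rhoE_isUnipotentOnInertiaAt (hss : W.IsSemistableModel) {q : ℕ} (hq : q.Prime)
    (hqp : q ≠ p) : (rhoE W hΔ p 𝒪).IsUnipotentOnInertiaAt q :=
  isUnipotentOnInertiaAt_bc _ _ (EllTate.tate_isUnipotentOnInertiaAt hΔ hq hqp (hss q hq))

theorem tate_isFlatAt (hgood : ¬ (p : ℤ) ∣ W.Δ) : (EllTate.tate W hΔ p).IsFlatAt p := by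
  have := EllTate.isElliptic_of_Δ_ne_zero hΔ
  exact EllFlat.ellTate_isFlatAt_of_int W hgood

theorem rhoE_isFlatAt [Finite (ResidueField 𝒪)] (hgood : ¬ (p : ℤ) ∣ W.Δ) :
    (rhoE W hΔ p 𝒪).IsFlatAt p :=
  isFlatAt_baseChange _ _ _ inferInstance (tate_isFlatAt hΔ hgood)

theorem rhoE_isStrictOrdinaryAt (hss : W.IsSemistableModel) (hbad : (p : ℤ) ∣ W.Δ) :
    (rhoE W hΔ p 𝒪).IsStrictOrdinaryAt p :=
  isStrictOrdinaryAt_bc _ _
    (LOC.tate_isStrictOrdinaryAt hΔ (hss p hp.out hbad) hbad)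

include hΔ in
omit hp in
theorem not_mem_Sbad {q : ℕ} (hq : q.Prime) (h : q ∉ Sbad W p) :
    q ≠ p ∧ W.IsGoodPrimeFor q := by
  rw [mem_Sbad hΔ, not_or] at h
  exact ⟨h.1, fun h' => h.2 ⟨hq, h'⟩⟩

/-- `T_p E ⊗ 𝒪` satisfies the flat condition if `E` is good at `p`. -/
theorem rhoE_pCond_flat [Finite (ResidueField 𝒪)] (hgood : ¬ (p : ℤ) ∣ W.Δ) :
    pCond .flat 𝒪 p (Sbad W p) (rhoE W hΔ p 𝒪) :=
  ⟨rhoE_detIsCyclotomic hΔ 𝒪, rhoE_isFlatAt hΔ 𝒪 hgood, fun _ hq hqS =>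
    rhoE_isUnramifiedAt hΔ 𝒪 hq (not_mem_Sbad hΔ hq hqS).1 (not_mem_Sbad hΔ hq hqS).2⟩

/-- `T_p E ⊗ 𝒪` satisfies the strict ordinary condition if `E` is multiplicative at `p`. -/
theorem rhoE_pCond_strict (hss : W.IsSemistableModel) (hbad : (p : ℤ) ∣ W.Δ) :
    pCond .strict 𝒪 p (Sbad W p) (rhoE W hΔ p 𝒪) :=
  ⟨rhoE_detIsCyclotomic hΔ 𝒪, rhoE_isStrictOrdinaryAt hΔ 𝒪 hss hbad, fun _ hq hqS =>
    rhoE_isUnramifiedAt hΔ 𝒪 hq (not_mem_Sbad hΔ hq hqS).1 (not_mem_Sbad hΔ hq hqS).2⟩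

/-- **RT-EDEF**: `T_p E ⊗ 𝒪` is a deformation of the final type. -/
theorem rhoE_dCond [Finite (ResidueField 𝒪)] (hss : W.IsSemistableModel) (Sm : Finset ℕ) :
    dCond (tsig W p) 𝒪 p (Sbad W p) Sm (rhoE W hΔ p 𝒪) := by
  refine ⟨?_, fun q _ hq hqp => rhoE_isUnipotentOnInertiaAt hΔ 𝒪 hss hq hqp⟩
  rw [tsig]
  split_ifs with h1 h2
  · exact GaloisRep.ordinaryCondition_of_strictOrdinaryCondition (𝒪 := 𝒪)
      (rhoE_pCond_strict hΔ 𝒪 hss h1)
  · exact rhoE_pCond_strict hΔ 𝒪 hss h1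
  · exact rhoE_pCond_flat hΔ 𝒪 h1

/-! ### The residual representation -/

theorem rhoBar_charpoly (σ : Γℚ) : LinearMap.charpoly ((rhoBar W hΔ p 𝒪).ρ σ) =
    (LinearMap.charpoly ((EllTate.tate W hΔ p).residual.ρ σ)).map
      (ResidueField.map (algebraMap ℤ_[p] 𝒪)) := by
  rw [rhoBar, EllTate.residual_charpoly, rhoE, charpoly_baseChangeAlong,
    EllTate.residual_charpoly, Polynomial.map_map, Polynomial.map_map]
  rfl

theorem rhoBar_charpoly_frob {ℓ : ℕ} (hℓ : ℓ.Prime) (hℓp : ℓ ≠ p) (hW : W.IsGoodPrimeFor ℓ)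
    (A : ValuationSubring (AlgebraicClosure ℚ)) (hA : A.LiesOverPrime ℓ) {σ : Γℚ}
    (hσ : A.IsFrobeniusAt σ ℓ) :
    LinearMap.charpoly ((rhoBar W hΔ p 𝒪).ρ σ) =
      X ^ 2 - C ((W.apOfModel ℓ : ℤ) : ResidueField 𝒪) * X + C (ℓ : ResidueField 𝒪) := by
  rw [rhoBar, EllTate.residual_charpoly, rhoE_charpoly_frob hΔ 𝒪 hℓ hℓp hW A hA hσ,
    Polynomial.map_add, Polynomial.map_sub, Polynomial.map_mul, Polynomial.map_pow,
    Polynomial.map_X, Polynomial.map_C, Polynomial.map_C, map_intCast, map_natCast]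

theorem rhoBar_isAbsolutelyIrreducible (hp2 : p ≠ 2) (hss : W.IsSemistableModel)
    (hirr : W.ModRepIsIrreducible p) : (rhoBar W hΔ p 𝒪).IsAbsolutelyIrreducible :=
  BN2.isAbsolutelyIrreducible_of_charpoly_eq (RingHom.id _)
    (ResidueField.map (algebraMap ℤ_[p] 𝒪)) _ _
    (fun σ => by rw [Polynomial.map_id, rhoBar_charpoly])
    (CMP.S58Assembly.residual_tate hΔ p hp2 hirr _ (EllTate.isTateOf_tate hΔ hss p)).1

theorem rhoBar_isOdd : (rhoBar W hΔ p 𝒪).IsOdd := by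
  intro c hc hc1
  have h1 := BN2.det_eq_of_charpoly_map_eq (rhoBar W hΔ p 𝒪).finrank_eq
    (EllTate.tate W hΔ p).residual.finrank_eq (RingHom.id _)
    (ResidueField.map (algebraMap ℤ_[p] 𝒪)) _ _
    (by rw [Polynomial.map_id]; exact rhoBar_charpoly hΔ 𝒪 c)
  rw [EllTate.tate_residual_isOdd hΔ c hc hc1, map_neg, map_one, RingHom.id_apply] at h1
  exact h1

/-- the residual representation of `T_p E ⊗ 𝒪` is `E[p] ⊗ k`. -/
theorem rhoBar_isEquiv (hcard : Nat.card (Submodule.torsionBy ℤ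
      ((W.map (Int.castRingHom ℚ))⁄(AlgebraicClosure ℚ)).Point p) = p ^ 2)
    (hker : GaloisFactorsThroughFiniteLevel
      (galoisRepModuleEnd (K := AlgebraicClosure ℚ) ℚ (W.map (Int.castRingHom ℚ)) p))
    (χ : ZMod p →+* ResidueField 𝒪) :
    (rhoBar W hΔ p 𝒪).IsEquiv
      (((W.map (Int.castRingHom ℚ)).residualGaloisRepOf p hcard hker).baseChangeAlong χ) :=
  EllTate.tate_baseChange_residual_isEquiv hΔ hcard hker _ _ χ

/-- `hdet` of S56. -/
theorem rhoBar_det : (GaloisRepAdic.ofResidualGaloisRep (rhoBar W hΔ p 𝒪)).DetIsCyclotomic p := by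
  have h1 : ((rhoE W hΔ p 𝒪).baseChangeAlong (residue 𝒪) inferInstance).DetIsCyclotomic p :=
    detIsCyclotomic_bc _ _ (rhoE_detIsCyclotomic hΔ 𝒪)
  obtain ⟨e⟩ := residual_isEquiv_bc (rhoE W hΔ p 𝒪)
  refine ⟨h1.1, fun n σ a ha => ?_⟩
  have h2 := h1.2 n σ a ha
  rw [← det_equiv e] at h2
  exact h2

/-- `hsplit` of S56. -/
theorem rhoBar_split (hζ : ∃ ζ : ResidueField 𝒪, IsPrimitiveRoot ζ (p ^ 2 - 1)) (σ : Γℚ) :
    ∃ α β : ResidueField 𝒪,
      LinearMap.charpoly ((rhoBar W hΔ p 𝒪).ρ σ) = (X - C α) * (X - C β) := by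
  let e := PadicInt.residueField (p := p)
  have h1 : LinearMap.charpoly ((rhoBar W hΔ p 𝒪).ρ σ) =
      ((LinearMap.charpoly ((EllTate.tate W hΔ p).residual.ρ σ)).map e.toRingHom).map
        (zmodToResidue p 𝒪) := by
    rw [rhoBar_charpoly, Polynomial.map_map]
    congr 1
    ext x
    change _ = ResidueField.map (algebraMap ℤ_[p] 𝒪) (e.symm (e x))
    rw [e.symm_apply_apply]
  rw [h1, BN2.charpoly_eq_of_finrank_two (EllTate.tate W hΔ p).residual.finrank_eq]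
  simp only [Polynomial.map_add, Polynomial.map_sub, Polynomial.map_mul, Polynomial.map_pow,
    Polynomial.map_X, Polynomial.map_C]
  exact quad_splits p hζ _ _ _

include hΔ in
theorem hcard_of : Nat.card (Submodule.torsionBy ℤ
      ((W.map (Int.castRingHom ℚ))⁄(AlgebraicClosure ℚ)).Point p) = p ^ 2 := by
  have := EllTate.isElliptic_of_Δ_ne_zero hΔ
  exact EllTorsion.card_torsionBy_rat (W.map (Int.castRingHom ℚ)) hp.out.ne_zero

include hΔ in
theorem hker_of : GaloisFactorsThroughFiniteLevel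
      (galoisRepModuleEnd (K := AlgebraicClosure ℚ) ℚ (W.map (Int.castRingHom ℚ)) p) := by
  have := EllTate.isElliptic_of_Δ_ne_zero hΔ
  exact EllTorsion.galoisRepModuleEnd_factorsThroughFiniteLevel
      (W.map (Int.castRingHom ℚ)) hp.out.ne_zero

theorem isUnramifiedAt_baseChangeAlong {k k' : Type} [Field k] [Field k'] (ψ : k →+* k')
    (ρ : ResidualGaloisRep k) {q : ℕ} (h : ρ.IsUnramifiedAt q) :
    (ρ.baseChangeAlong ψ).IsUnramifiedAt q := by
  let _ : Algebra k k' := ψ.toAlgebra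
  intro A hA σ hσ
  change (ρ.ρ σ).baseChange k' = 1
  rw [h A hA σ hσ, LinearMap.baseChange_one]

/-- **The ramification criterion** for `E[p] ⊗ k`. -/
theorem rhoBar_isUnramifiedAt_iff (hss : W.IsSemistableModel) {q : ℕ} (hq : q.Prime)
    (hqp : q ≠ p) : (rhoBar W hΔ p 𝒪).IsUnramifiedAt q ↔ p ∣ padicValInt q W.Δ := by
  have hcard := hcard_of (W := W) (p := p) hΔ
  have hker := hker_of (W := W) (p := p) hΔ
  have e := rhoBar_isEquiv hΔ 𝒪 hcard hker (zmodToResidue p 𝒪)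
  have e' : (((W.map (Int.castRingHom ℚ)).residualGaloisRepOf p hcard hker).baseChangeAlong
      (zmodToResidue p 𝒪)).IsEquiv (rhoBar W hΔ p 𝒪) := by
    obtain ⟨e⟩ := e
    exact ⟨⟨e.toLinearEquiv.symm, fun σ y => e.toLinearEquiv.injective (by
      rw [LinearEquiv.apply_symm_apply, e.map_apply, LinearEquiv.apply_symm_apply])⟩⟩
  have hqp' : ¬ q ∣ p := fun h => hqp ((Nat.prime_dvd_prime_iff_eq hq hp.out).mp h)
  have h0 := LOC.galoisRepUnramifiedAt_iff W hΔ hq (hss q hq) hqp'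
    (FrobExists.exists_liesOverPrime (AlgebraicClosure ℚ) hq)
  have h1 : ((W.map (Int.castRingHom ℚ)).residualGaloisRepOf p hcard hker).IsUnramifiedAt q ↔
      GaloisRepUnramifiedAt ℚ (AlgebraicClosure ℚ) (W.map (Int.castRingHom ℚ)) p q := by
    constructor
    · intro h A hA σ hσ x
      exact LinearMap.congr_fun (h A hA σ hσ) x
    · intro h A hA σ hσ
      exact LinearMap.ext fun x => h A hA σ hσ x
  rw [← h0, ← h1]
  constructor
  · intro h
    exact DR.ResidualCompare.isUnramifiedAt_of_baseChangeAlong _ _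
      (DR.ResidualCompare.isUnramifiedAt_of_isEquiv e h)
  · intro h
    exact DR.ResidualCompare.isUnramifiedAt_of_isEquiv e' (isUnramifiedAt_baseChangeAlong _ _ h)

/-- `hmin` of S56. -/
theorem mem_Smin_iff (hss : W.IsSemistableModel) (q : ℕ) (hq : q.Prime) (hqp : q ≠ p) :
    q ∈ Smin W p ↔ ¬ (rhoBar W hΔ p 𝒪).IsUnramifiedAt q := by
  rw [rhoBar_isUnramifiedAt_iff hΔ 𝒪 hss hq hqp, mem_Smin, mem_Sram hΔ]
  constructor
  · rintro (h | h)
    · exact absurd h hqp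
    · exact h.2.2.2
  · intro h
    refine Or.inr ⟨hq, ?_, hqp, h⟩
    by_contra hqΔ
    rw [padicValInt.eq_zero_of_not_dvd hqΔ] at h
    exact h (dvd_zero p)

/-- The residual representation of `T_pE ⊗ 𝒪`, in the form used for points of the deformation
rings. -/
theorem rhoE_residual_isEquiv : (rhoE W hΔ p 𝒪).residual.IsEquiv
    ((rhoBar W hΔ p 𝒪).baseChangeAlong (ResidueField.map (algebraMap 𝒪 𝒪))) := by
  obtain ⟨M, hM⟩ := UDef.exists_modelR (rhoBar W hΔ p 𝒪)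
  refine UDef.IsModelR.isEquiv (M := M) (M' := UDef.mapRep (ResidueField.map (algebraMap 𝒪 𝒪)) M)
    hM (hM.baseChangeAlong _) 1 isUnit_one fun σ => ?_
  rw [one_mul, mul_one, UDef.mapRep_apply]
  ext i j
  have h1 : ∀ x : ResidueField 𝒪, ResidueField.map (algebraMap 𝒪 𝒪) x = x := fun x => by
    obtain ⟨y, rfl⟩ := residue_surjective x
    rfl
  rw [Matrix.map_apply, h1]

/-- The residual representation satisfies the final condition. -/
theorem rhoBar_dCond [Finite (ResidueField 𝒪)] (hss : W.IsSemistableModel) (Sm : Finset ℕ) :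
    dCond (tsig W p) 𝒪 p (Sbad W p) Sm
      (GaloisRepAdic.ofResidualGaloisRep (rhoBar W hΔ p 𝒪)) :=
  dCond_residual (𝒪 := 𝒪) inferInstance (rhoE_dCond hΔ 𝒪 hss Sm)

end

end Fermat.Agent.RT.Wiring
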