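import Mathlib
import Fermat.Prelude.Def_CuspForm_HeckeGaloisRepDatum

/-!
# RT10 (helper28): the trivial bound `|a_q| < q + 1`

`norm_lt_of_heckeTLin_eq` : if `f ≠ 0` is a cusp form of weight two on `Γ₀(N)`, `q ∤ N` prime and
`T_q f = c f` then `‖c‖ < q + 1` (the maximum principle for `|f(τ)| Im τ`).
-/

set_option autoImplicit false

open UpperHalfPlane ModularGroup Filter Topology CongruenceSubgroup
open scoped Modular MatrixGroups ModularForm

namespace Fermat.Agent.RT.Wiring.EigBound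

/-- A continuous non-negative function on `ℍ`, invariant under a subgroup of finite index of
`SL(2,ℤ)` and tending to zero at all the cusps attains its maximum. -/
theorem exists_max {f : ℍ → ℝ} (hf : Continuous f) (h0 : ∀ τ, 0 ≤ f τ)
    (hinf : ∀ g : SL(2, ℤ), Tendsto (fun τ => f (g • τ)) atImInfty (𝓝 0))
    {Γ : Subgroup SL(2, ℤ)} [Γ.FiniteIndex] (hinv : ∀ g ∈ Γ, ∀ τ, f (g • τ) = f τ) :
    ∃ τ₀, ∀ τ, f τ ≤ f τ₀ := by
  by_cases h : ∃ τ₁, 0 < f τ₁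
  swap
  · push Not at h
    exact ⟨I, fun τ => (h τ).trans (h0 _)⟩
  obtain ⟨τ₁, hτ₁⟩ := h
  have : Fintype (SL(2, ℤ) ⧸ Γ) := Subgroup.fintypeQuotientOfFiniteIndex
  have hout : ∀ (g : SL(2, ℤ)) (τ : ℍ),
      f (g⁻¹ • τ) = f ((((g : SL(2, ℤ) ⧸ Γ).out)⁻¹ : SL(2, ℤ)) • τ) := by
    intro g τ
    obtain ⟨j, hj⟩ := QuotientGroup.mk_out_eq_mul Γ g
    rw [hj, mul_inv_rev, mul_smul]
    exact (hinv _ (inv_mem j.2) _).symm
  have hy : ∀ x : SL(2, ℤ) ⧸ Γ, ∃ y : ℝ, ∀ τ : ℍ, y ≤ τ.im → f ((x.out⁻¹ : SL(2, ℤ)) • τ) < f τ₁ := by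
    intro x
    have h1 := (hinf (x.out⁻¹)).eventually (gt_mem_nhds hτ₁)
    rw [atImInfty, eventually_comap, eventually_atTop] at h1
    obtain ⟨y, hy⟩ := h1
    exact ⟨y, fun τ hτ => hy _ hτ τ rfl⟩
  choose y hy using hy
  obtain ⟨Y, hY⟩ : ∃ Y : ℝ, ∀ x, y x ≤ Y :=
    ⟨∑ x, |y x|, fun x => (le_abs_self _).trans
      (Finset.single_le_sum (f := fun x => |y x|) (fun _ _ => abs_nonneg _) (Finset.mem_univ x))⟩
  let K := truncatedFundamentalDomain Y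
  have hK : IsCompact K := isCompact_truncatedFundamentalDomain Y
  let C : Set ℍ := {τ₁} ∪ ⋃ x : SL(2, ℤ) ⧸ Γ, (fun τ : ℍ => (x.out⁻¹ : SL(2, ℤ)) • τ) '' K
  have hC : IsCompact C := isCompact_singleton.union
    (isCompact_iUnion fun x => hK.image (by simp only [sl_moeb]; fun_prop))
  obtain ⟨τ₀, -, hτ₀⟩ := hC.exists_isMaxOn ⟨τ₁, Or.inl rfl⟩ hf.continuousOn
  have h1 : f τ₁ ≤ f τ₀ := hτ₀ (Or.inl rfl)
  refine ⟨τ₀, fun τ => ?_⟩
  obtain ⟨g, hg⟩ := exists_smul_mem_fd τ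
  have h2 : f τ = f ((((g : SL(2, ℤ) ⧸ Γ).out)⁻¹ : SL(2, ℤ)) • (g • τ)) := by
    rw [← hout, inv_smul_smul]
  rw [h2]
  rcases le_total Y (g • τ).im with h3 | h3
  · exact (hy _ _ ((hY _).trans h3)).le.trans h1
  · exact hτ₀ (Or.inr (Set.mem_iUnion.mpr ⟨(g : SL(2, ℤ) ⧸ Γ), ⟨g • τ, ⟨hg, h3⟩, rfl⟩⟩))

/-- `|f(τ)| Im(τ)`. -/
noncomputable def G (f : ℍ → ℂ) (τ : ℍ) : ℝ := ‖f τ‖ * τ.im

theorem G_nonneg (f : ℍ → ℂ) (τ : ℍ) : 0 ≤ G f τ := mul_nonneg (norm_nonneg _) τ.im_pos.le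

theorem sq_G (f : ℍ → ℂ) (τ : ℍ) : G f τ ^ 2 = ‖petersson 2 f f τ‖ := by
  rw [G, petersson, norm_mul, norm_mul, RCLike.norm_conj, norm_zpow, Complex.norm_real,
    Real.norm_of_nonneg τ.im_pos.le]
  norm_cast
  ring

theorem norm_σ (g : GL (Fin 2) ℝ) (z : ℂ) : ‖σ g z‖ = ‖z‖ := by
  rw [σ]
  split_ifs
  · rfl
  · exact RCLike.norm_conj z

/-- `G` is compatible with the weight two slash action. -/
theorem G_slash (f : ℍ → ℂ) (g : GL (Fin 2) ℝ) (τ : ℍ) : G (f ∣[(2 : ℤ)] g) τ = G f (g • τ) := by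
  have h1 : G (f ∣[(2 : ℤ)] g) τ ^ 2 = G f (g • τ) ^ 2 := by
    rw [sq_G, sq_G, petersson_slash, sub_self, zpow_zero, one_mul, norm_σ]
  exact (pow_left_inj₀ (G_nonneg _ _) (G_nonneg _ _) two_ne_zero).mp h1

theorem continuous_G {f : ℍ → ℂ} (hf : Continuous f) : Continuous (G f) :=
  hf.norm.mul continuous_im

theorem G_smul (c : ℂ) (f : ℍ → ℂ) (τ : ℍ) : G (c • f) τ = ‖c‖ * G f τ := by
  rw [G, G, Pi.smul_apply, smul_eq_mul, norm_mul, mul_assoc]

theorem G_add_le (f g : ℍ → ℂ) (τ : ℍ) : G (f + g) τ ≤ G f τ + G g τ := by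
  rw [G, G, G, Pi.add_apply, ← add_mul]
  exact mul_le_mul_of_nonneg_right (norm_add_le _ _) τ.im_pos.le

theorem G_sum_le {ι : Type*} (s : Finset ι) (f : ι → ℍ → ℂ) (τ : ℍ) :
    G (∑ i ∈ s, f i) τ ≤ ∑ i ∈ s, G (f i) τ := by
  classical
  induction s using Finset.induction_on with
  | empty => simp [G]
  | insert a s ha ih =>
    rw [Finset.sum_insert ha, Finset.sum_insert ha]
    exact (G_add_le _ _ τ).trans (add_le_add le_rfl ih)

open ConjAct Pointwise in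
theorem tendsto_G {Γ : Subgroup (GL (Fin 2) ℝ)} [Γ.IsArithmetic] (f : CuspForm Γ 2)
    (g : SL(2, ℤ)) : Tendsto (fun τ => G f (g • τ)) atImInfty (𝓝 0) := by
  have : ((ConjAct.toConjAct (g : GL (Fin 2) ℝ)⁻¹) • Γ).IsArithmetic := by
    simpa [(show Rat.castHom ℝ = algebraMap ℚ ℝ by rfl), map_inv,
      Matrix.SpecialLinearGroup.map_mapGL]
      using! Subgroup.IsArithmetic.conj Γ (Matrix.SpecialLinearGroup.mapGL ℚ g)⁻¹
  have h1 : Tendsto (fun τ => petersson 2 f f (g • τ)) atImInfty (𝓝 0) := by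
    simp_rw [← UpperHalfPlane.petersson_slash_SL]
    exact (CuspFormClass.zero_at_infty <| CuspForm.translate f g).petersson_isZeroAtImInfty_left 2 _
      (ModularForm.translate f g)
  have h2 : (fun τ => G f (g • τ)) = fun τ => Real.sqrt ‖petersson 2 f f (g • τ)‖ := by
    ext τ
    rw [← sq_G, Real.sqrt_sq (G_nonneg _ _)]
  rw [h2]
  have h3 := (continuous_norm.tendsto (0 : ℂ)).comp h1
  have h4 := (Real.continuous_sqrt.tendsto ‖(0 : ℂ)‖).comp h3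
  simpa [Function.comp_def] using h4

theorem G_smul_Gamma0 {N : ℕ} (f : CuspForm (Gamma0 N) 2) {g : SL(2, ℤ)} (hg : g ∈ Gamma0 N)
    (τ : ℍ) : G f (g • τ) = G f τ := by
  have h1 := G_slash (⇑f) (Matrix.SpecialLinearGroup.mapGL ℝ g) τ
  rw [SlashInvariantFormClass.slash_action_eq f _ (Subgroup.mem_map_of_mem _ hg)] at h1
  exact h1.symm

/-- **The trivial bound.** -/
theorem norm_lt_of_heckeT_eq {N : ℕ} [NeZero N] {f : CuspForm (Gamma0 N) 2} (hf : f ≠ 0)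
    {q : ℕ} (hq : q ≠ 0) (hq1 : q ≠ 1) {c : ℂ} (hc : ModularForm.heckeT 2 q ⇑f = c • ⇑f) :
    ‖c‖ < q + 1 := by
  by_contra hcon
  push Not at hcon
  have hcont : Continuous (G f) := continuous_G (CuspFormClass.holo f).continuous
  obtain ⟨τ₀, hτ₀⟩ := exists_max hcont (G_nonneg _) (fun g => tendsto_G f g)
    (Γ := Gamma0 N) (fun g hg τ => G_smul_Gamma0 f hg τ)
  set M := G f τ₀ with hM
  have hMpos : 0 < M := by
    by_contra h
    apply hf
    apply DFunLike.coe_injective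
    funext τ
    have h1 : G f τ = 0 := le_antisymm ((hτ₀ τ).trans (not_lt.mp h)) (G_nonneg _ _)
    rw [G, mul_eq_zero, norm_eq_zero] at h1
    exact h1.resolve_right τ.im_pos.ne'
  -- the translate by `diag(q,1)` is again a maximum
  have key : ∀ τ, G f τ = M → G f (ModularForm.heckeDiagMatrix q • τ) = M := by
    intro τ hτ
    refine le_antisymm (hτ₀ _) ?_
    have h1 : G (ModularForm.heckeT 2 q ⇑f) τ ≤
        q * M + G f (ModularForm.heckeDiagMatrix q • τ) := by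
      rw [ModularForm.heckeT_def]
      refine (G_add_le _ _ τ).trans (add_le_add ?_ (G_slash _ _ _).le)
      refine (G_sum_le _ _ τ).trans ?_
      calc ∑ i ∈ Finset.range q, G (⇑f ∣[(2 : ℤ)] ModularForm.heckeMatrix q i) τ
          ≤ ∑ _i ∈ Finset.range q, M := Finset.sum_le_sum fun i _ => by
            rw [G_slash]; exact hτ₀ _
        _ = q * M := by rw [Finset.sum_const, Finset.card_range, nsmul_eq_mul]
    rw [hc, G_smul, hτ] at h1
    nlinarith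
  have hiter : ∀ n : ℕ, ∃ τ : ℍ, G f τ = M ∧ τ.im = q ^ n * τ₀.im := by
    intro n
    induction n with
    | zero => exact ⟨τ₀, rfl, by rw [pow_zero, one_mul]⟩
    | succ n ih =>
      obtain ⟨τ, hτ, him⟩ := ih
      refine ⟨ModularForm.heckeDiagMatrix q • τ, key τ hτ, ?_⟩
      rw [← UpperHalfPlane.coe_im, ModularForm.coe_heckeDiagMatrix_smul hq,
        Complex.mul_im, Complex.natCast_re, Complex.natCast_im, zero_mul, add_zero,
        UpperHalfPlane.coe_im, him, pow_succ]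
      ring
  have h2 := tendsto_G f 1
  simp only [one_smul] at h2
  have h3 := h2.eventually (gt_mem_nhds hMpos)
  rw [atImInfty, eventually_comap, eventually_atTop] at h3
  obtain ⟨y, hy⟩ := h3
  have hq2 : (1 : ℝ) < q := by
    have : 2 ≤ q := by omega
    exact_mod_cast this
  obtain ⟨n, hn⟩ := pow_unbounded_of_one_lt (y / τ₀.im) hq2
  obtain ⟨τ, hτ, him⟩ := hiter n
  have h4 := hy τ.im (by
    rw [him, ← div_le_iff₀ τ₀.im_pos]; exact hn.le) τ rfl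
  exact absurd h4 (by rw [hτ]; exact lt_irrefl _)

/-- **The trivial bound** for `heckeTLin`. -/
theorem norm_lt_of_heckeTLin_eq {N : ℕ} [NeZero N] {f : CuspForm (Gamma0 N) 2} (hf : f ≠ 0)
    {q : ℕ} (hq : q.Prime) (hqN : ¬ q ∣ N) {c : ℂ} (hc : CuspForm.heckeTLin 2 hq hqN f = c • f) :
    ‖c‖ < q + 1 := by
  refine norm_lt_of_heckeT_eq hf hq.ne_zero hq.ne_one ?_
  have h1 := congrArg (fun F : CuspForm (Gamma0 N) 2 => (⇑F : ℍ → ℂ)) hc
  rw [CuspForm.coe_heckeTLin_apply] at h1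
  exact h1

/-- `(q + 1)² - c² ≠ 0`. -/
theorem sq_ne_of_norm_lt {q : ℕ} {c : ℂ} (h : ‖c‖ < q + 1) : ((q : ℂ) + 1) ^ 2 - c ^ 2 ≠ 0 := by
  intro h0
  have h1 : c ^ 2 = ((q : ℂ) + 1) ^ 2 := (sub_eq_zero.mp h0).symm
  have h2 : ‖c‖ ^ 2 = (q + 1 : ℝ) ^ 2 := by
    rw [← norm_pow, h1, norm_pow]
    congr 1
    have : ((q : ℂ) + 1) = ((q + 1 : ℝ) : ℂ) := by push_cast; rfl
    rw [this, Complex.norm_real, Real.norm_of_nonneg (by positivity)]
  nlinarith [norm_nonneg c]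

/-- If `A` is a root of `X² - c X + q` with `|c| < q + 1` then `A² ≠ 1`. -/
theorem sq_ne_one_of_norm_lt {q : ℕ} {c A : ℂ} (h : ‖c‖ < q + 1)
    (hA : A ^ 2 - c * A + q = 0) : A ^ 2 ≠ 1 := by
  intro h1
  refine sq_ne_of_norm_lt h ?_
  have h2 : c * A = 1 + q := by linear_combination h1 - hA
  have h3 : c ^ 2 = (1 + q) ^ 2 := by
    have : c ^ 2 * A ^ 2 = (1 + q) ^ 2 := by rw [← mul_pow, h2]
    rwa [h1, mul_one] at this
  rw [h3]; ring

end Fermat.Agent.RT.Wiring.EigBound
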