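import Fermat.Prelude.Def_GaloisRep_DeformationRingData
import Fermat.Prelude.Def_GaloisRep_LocalConditions
import Fermat.Prelude.Def_GaloisRep_StrictOrdinary
import Fermat.Prelude.Def_GaloisRep_Flat
import Fermat.Prelude.Def_GaloisRep_Residual
import Fermat.Prelude.Def_CuspForm_HeckeGaloisRepDatum
import Fermat.Prelude.Def_FLTPrelim_ModularRep

/-!
# RT10 (helper28): sets of primes, levels, deformation problems and the main intermediate Props

Everything is explicit in terms of the valuations of `Δ(W)`.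

* `Sbad W p = {p} ∪ {q ∣ Δ}`
* `Sram W p = {q ∣ Δ, q ≠ p, p ∤ v_q(Δ)}` : the primes `≠ p` where `E[p]` is ramified;
* `Ssig W p = {q ∣ Δ, q ≠ p, p ∣ v_q(Δ)}` : the set `Σ`;
* `Smin W p = {p} ∪ Sram W p`;
* `Nmin W p = (p if p ∣ Δ and p ∤ v_p(Δ), else 1) * ∏_{q ∈ Sram} q`;
* `Nsig W p = (p if p ∣ Δ, else 1) * ∏_{q ∈ Sram} q * ∏_{q ∈ Ssig} q²`;
* `PType` (`flat`, `strict`, `ord`), `dCond t 𝒪 p S Smin` : the deformation conditions;
* `tmin W p`, `tsig W p` : the types at `p` of the minimal and of the final problem;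
* `LevelOpt` : level optimisation; `MLT` : the modularity lifting statement at `Nsig`.
-/

set_option autoImplicit false

open Polynomial IsLocalRing CongruenceSubgroup

namespace Fermat.Agent.RT.Wiring

/-! ### Sets of primes and levels -/

section Sets

variable (W : WeierstrassCurve ℤ) (p : ℕ)

/-- `{p} ∪ {q ∣ Δ}` -/
def Sbad : Finset ℕ := insert p W.Δ.natAbs.primeFactors

/-- The primes `q ≠ p` at which `E[p]` is ramified. -/
def Sram : Finset ℕ :=
  W.Δ.natAbs.primeFactors.filter fun q => q ≠ p ∧ ¬ p ∣ padicValInt q W.Δ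

/-- The primes `q ≠ p` of bad reduction at which `E[p]` is unramified. -/
def Ssig : Finset ℕ :=
  W.Δ.natAbs.primeFactors.filter fun q => q ≠ p ∧ p ∣ padicValInt q W.Δ

/-- `{p} ∪ Sram` -/
def Smin : Finset ℕ := insert p (Sram W p)

/-- `p` if `E` is multiplicative at `p` and `E[p]` is très ramifiée at `p`, else `1`. -/
def pmin : ℕ := if (p : ℤ) ∣ W.Δ ∧ ¬ p ∣ padicValInt p W.Δ then p else 1

/-- `p` if `E` is multiplicative at `p`, else `1`. -/
def psig : ℕ := if (p : ℤ) ∣ W.Δ then p else 1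

/-- The minimal level. -/
def Nmin : ℕ := pmin W p * ∏ q ∈ Sram W p, q

/-- The final level. -/
def Nsig : ℕ := psig W p * (∏ q ∈ Sram W p, q) * ∏ q ∈ Ssig W p, q ^ 2

variable {W p}

theorem mem_Sram {q : ℕ} (hΔ : W.Δ ≠ 0) :
    q ∈ Sram W p ↔ q.Prime ∧ (q : ℤ) ∣ W.Δ ∧ q ≠ p ∧ ¬ p ∣ padicValInt q W.Δ := by
  rw [Sram, Finset.mem_filter, Nat.mem_primeFactors, ← Int.natCast_dvd]
  have := Int.natAbs_ne_zero.mpr hΔ
  tauto

theorem mem_Ssig {q : ℕ} (hΔ : W.Δ ≠ 0) :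
    q ∈ Ssig W p ↔ q.Prime ∧ (q : ℤ) ∣ W.Δ ∧ q ≠ p ∧ p ∣ padicValInt q W.Δ := by
  rw [Ssig, Finset.mem_filter, Nat.mem_primeFactors, ← Int.natCast_dvd]
  have := Int.natAbs_ne_zero.mpr hΔ
  tauto

theorem mem_Sbad {q : ℕ} (hΔ : W.Δ ≠ 0) :
    q ∈ Sbad W p ↔ q = p ∨ (q.Prime ∧ (q : ℤ) ∣ W.Δ) := by
  rw [Sbad, Finset.mem_insert, Nat.mem_primeFactors, ← Int.natCast_dvd]
  have := Int.natAbs_ne_zero.mpr hΔ
  tauto

theorem mem_Smin {q : ℕ} : q ∈ Smin W p ↔ q = p ∨ q ∈ Sram W p := Finset.mem_insert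

theorem Sbad_eq (W : WeierstrassCurve ℤ) (p : ℕ) : Sbad W p = Smin W p ∪ Ssig W p := by
  ext q
  simp only [Sbad, Smin, Sram, Ssig, Finset.mem_insert, Finset.mem_union, Finset.mem_filter]
  tauto

theorem disjoint_Sram_Ssig (W : WeierstrassCurve ℤ) (p : ℕ) :
    Disjoint (Sram W p) (Ssig W p) := by
  rw [Finset.disjoint_left]
  intro q h1 h2
  exact (Finset.mem_filter.mp h1).2.2 (Finset.mem_filter.mp h2).2.2

theorem p_mem_Sbad : p ∈ Sbad W p := Finset.mem_insert_self _ _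

theorem p_mem_Smin : p ∈ Smin W p := Finset.mem_insert_self _ _

theorem Smin_subset_Sbad : Smin W p ⊆ Sbad W p := by
  rw [Sbad_eq]; exact Finset.subset_union_left

theorem prime_of_mem_Sram {q : ℕ} (hq : q ∈ Sram W p) : q.Prime :=
  Nat.prime_of_mem_primeFactors (Finset.mem_of_mem_filter q hq)

theorem prime_of_mem_Ssig {q : ℕ} (hq : q ∈ Ssig W p) : q.Prime :=
  Nat.prime_of_mem_primeFactors (Finset.mem_of_mem_filter q hq)

theorem ne_of_mem_Sram {q : ℕ} (hq : q ∈ Sram W p) : q ≠ p := (Finset.mem_filter.mp hq).2.1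

theorem ne_of_mem_Ssig {q : ℕ} (hq : q ∈ Ssig W p) : q ≠ p := (Finset.mem_filter.mp hq).2.1

theorem prime_of_mem_Sbad (hp : p.Prime) {q : ℕ} (hq : q ∈ Sbad W p) : q.Prime := by
  rw [Sbad, Finset.mem_insert] at hq
  rcases hq with rfl | hq
  · exact hp
  · exact Nat.prime_of_mem_primeFactors hq

theorem pmin_pos (hp : p.Prime) : 0 < pmin W p := by
  rw [pmin]; split_ifs
  · exact hp.pos
  · exact one_pos

theorem psig_pos (hp : p.Prime) : 0 < psig W p := by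
  rw [psig]; split_ifs
  · exact hp.pos
  · exact one_pos

theorem Nmin_pos (hp : p.Prime) : 0 < Nmin W p :=
  Nat.mul_pos (pmin_pos hp) (Finset.prod_pos fun _ hq => (prime_of_mem_Sram hq).pos)

theorem Nsig_pos (hp : p.Prime) : 0 < Nsig W p :=
  Nat.mul_pos (Nat.mul_pos (psig_pos hp) (Finset.prod_pos fun _ hq => (prime_of_mem_Sram hq).pos))
    (Finset.prod_pos fun _ hq => pow_pos (prime_of_mem_Ssig hq).pos 2)

end Sets

/-! ### Deformation problems -/

/-- The type at `p` of a deformation problem. -/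
inductive PType
  | flat
  | strict
  | ord

/-- The condition at `p` and outside `S`. -/
def pCond (t : PType) (𝒪 : Type) [CommRing 𝒪] (p : ℕ) (S : Finset ℕ) :
    ∀ ⦃A : Type⦄ [CommRing A] [IsLocalRing A] [Algebra 𝒪 A], GaloisRepAdic A → Prop :=
  match t with
  | .flat => GaloisRep.flatCondition 𝒪 p S
  | .strict => GaloisRep.strictOrdinaryCondition 𝒪 p S
  | .ord => GaloisRep.ordinaryCondition 𝒪 p S

/-- The deformation condition: type `t` at `p`, unramified outside `S`, inertia at the primes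
`q ≠ p` of `Sm` is unipotent. -/
def dCond (t : PType) (𝒪 : Type) [CommRing 𝒪] (p : ℕ) (S Sm : Finset ℕ) :
    ∀ ⦃A : Type⦄ [CommRing A] [IsLocalRing A] [Algebra 𝒪 A], GaloisRepAdic A → Prop :=
  fun _A _ _ _ ρ => pCond t 𝒪 p S ρ ∧ ∀ q ∈ Sm, q.Prime → q ≠ p → ρ.IsUnipotentOnInertiaAt q

/-- The type at `p` of the minimal problem: `strict` if `E` is multiplicative at `p` and `E[p]`
is très ramifiée, `flat` otherwise. -/
def tmin (W : WeierstrassCurve ℤ) (p : ℕ) : PType :=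
  if (p : ℤ) ∣ W.Δ ∧ ¬ p ∣ padicValInt p W.Δ then .strict else .flat

/-- The type at `p` of the final problem: `flat` if `E` is good at `p`, `strict` if `E` is
multiplicative at `p` and `E[p]` is très ramifiée, `ord` if `E` is multiplicative at `p` and
`E[p]` is peu ramifiée. -/
def tsig (W : WeierstrassCurve ℤ) (p : ℕ) : PType :=
  if (p : ℤ) ∣ W.Δ then (if p ∣ padicValInt p W.Δ then .ord else .strict) else .flat

/-! ### The two main intermediate statements -/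

/-- **Level optimisation** (RT8): from the hypotheses of S59 to the minimal level. -/
def LevelOpt : Prop :=
  ∀ (p : ℕ), p = 3 ∨ p = 5 → ∀ W : WeierstrassCurve ℤ, W.Δ ≠ 0 → W.IsSemistableModel →
    W.ModRepIsIrreducible p → ∀ (M₀ : ℕ) [NeZero M₀], W.IsResiduallyModularOfLevel p M₀ →
    ¬ p ^ 2 ∣ M₀ → (∀ q : ℕ, q.Prime → q ≠ p → ¬ q ^ 3 ∣ M₀) →
    W.IsResiduallyModularOfLevel p (Nmin W p)

/-- **Modularity lifting** at the level `Nsig`: a point `χ₀` of the Hecke algebra of the minimal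
level `Nmin` with values in `𝒪` which is congruent to the eigensystem of `W` gives a point `χ` of
the Hecke algebra of the level `Nsig`, with the eigenvalues of `W`. -/
def MLT : Prop :=
  ∀ (p : ℕ) [Fact p.Prime], p = 3 ∨ p = 5 → ∀ W : WeierstrassCurve ℤ, W.Δ ≠ 0 →
    W.IsSemistableModel → W.ModRepIsIrreducible p →
    ∀ [NeZero (Nmin W p)] [NeZero (Nsig W p)]
      (𝒪 : Type) [CommRing 𝒪] [IsDomain 𝒪] [IsDiscreteValuationRing 𝒪]
      [IsAdicComplete (maximalIdeal 𝒪) 𝒪] [Finite (ResidueField 𝒪)] [CharZero 𝒪]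
      [Algebra ℤ_[p] 𝒪] [Module.Finite ℤ_[p] 𝒪] [IsLocalHom (algebraMap ℤ_[p] 𝒪)],
      (p : 𝒪) ∈ maximalIdeal 𝒪 → (∃ ζ : ResidueField 𝒪, IsPrimitiveRoot ζ (p ^ 2 - 1)) →
      ∀ χ₀ : CuspForm.heckeAlgebra (Nmin W p) 2 (↑(Sbad W p) : Set ℕ) →+* 𝒪,
      (∀ (ℓ : ℕ) (hℓ : ℓ.Prime) (hℓN : ¬ ℓ ∣ Nmin W p) (hℓS : ℓ ∉ (↑(Sbad W p) : Set ℕ)),
        residue 𝒪 (χ₀ (CuspForm.heckeAlgebra.T hℓ hℓN hℓS)) = (W.apOfModel ℓ : ResidueField 𝒪)) →
      ∃ χ : CuspForm.heckeAlgebra (Nsig W p) 2 (↑(Sbad W p) : Set ℕ) →+* 𝒪,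
        ∀ (ℓ : ℕ) (hℓ : ℓ.Prime) (hℓN : ¬ ℓ ∣ Nsig W p) (hℓS : ℓ ∉ (↑(Sbad W p) : Set ℕ)),
          χ (CuspForm.heckeAlgebra.T hℓ hℓN hℓS) = (W.apOfModel ℓ : 𝒪)

end Fermat.Agent.RT.Wiring
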