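import Fermat.Agent.DefCond.Rings
import Fermat.Agent.DefRing.Dictionary
import Fermat.Agent.RT.Wiring.Defs

/-!
# RT10 (helper28): functoriality of the deformation conditions

Base change along arbitrary local homomorphisms, invariance under equivalence, monotonicity in the
sets of primes, and the residual representation.
-/

set_option autoImplicit false

open Polynomial IsLocalRing

namespace Fermat.Agent.RT.Wiring

open Fermat.Agent.DefCond

local notation "Γℚ" => (AlgebraicClosure ℚ ≃ₐ[ℚ] AlgebraicClosure ℚ)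

section BaseChange

variable {A B : Type} [CommRing A] [IsLocalRing A] [CommRing B] [IsLocalRing B]
  (φ : A →+* B) (hφ : IsLocalHom φ) {ρ : GaloisRepAdic A}

theorem isUnramifiedAt_bc {q : ℕ} (h : ρ.IsUnramifiedAt q) :
    (ρ.baseChangeAlong φ hφ).IsUnramifiedAt q := fun P hP σ hσ => by
  refine ext_inc _ hφ ρ _ _ fun v => ?_
  rw [rho_inc, h P hP σ hσ]
  rfl

theorem isUnipotentOnInertiaAt_bc {q : ℕ} (h : ρ.IsUnipotentOnInertiaAt q) :
    (ρ.baseChangeAlong φ hφ).IsUnipotentOnInertiaAt q := fun P hP σ hσ => by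
  rw [charpoly_baseChangeAlong, h P hP σ hσ]
  simp

theorem detIsCyclotomic_bc {p : ℕ} (h : ρ.DetIsCyclotomic p) :
    (ρ.baseChangeAlong φ hφ).DetIsCyclotomic p := by
  refine ⟨natCast_mem_maximalIdeal_of_hom' _ hφ h.1, fun n σ a ha => ?_⟩
  rw [det_baseChangeAlong]
  have h1 := Ideal.mem_map_of_mem (φ : A →+* B) (h.2 n σ a ha)
  rw [Ideal.map_span, Set.image_singleton, map_sub, map_natCast, map_natCast] at h1
  exact h1

theorem isOrdinaryAt_bc {p : ℕ} (h : ρ.IsOrdinaryAt p) :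
    (ρ.baseChangeAlong φ hφ).IsOrdinaryAt p := by
  rw [isOrdinaryAt_iff] at h ⊢
  intro P hP
  obtain ⟨b, hb⟩ := h P hP
  exact ⟨_, ordBasis_baseChange φ hφ ρ hb⟩

theorem isStrictOrdinaryAt_bc {p : ℕ} (h : ρ.IsStrictOrdinaryAt p) :
    (ρ.baseChangeAlong φ hφ).IsStrictOrdinaryAt p := by
  rw [isStrictOrdinaryAt_iff] at h ⊢
  refine ⟨natCast_mem_maximalIdeal_of_hom' _ hφ h.1, fun P hP => ?_⟩
  obtain ⟨b, hb, hs⟩ := h.2 P hP
  exact ⟨_, ordBasis_baseChange φ hφ ρ hb, strictBasis_baseChange φ hφ ρ hs⟩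

theorem pCond_bc {t : PType} {𝒪 𝒪' : Type} [CommRing 𝒪] [CommRing 𝒪'] [Algebra 𝒪 A]
    [Algebra 𝒪' B] {p : ℕ} {S : Finset ℕ} (hk : Finite (ResidueField B))
    (h : pCond t 𝒪 p S ρ) : pCond t 𝒪' p S (ρ.baseChangeAlong φ hφ) := by
  cases t with
  | flat => exact ⟨detIsCyclotomic_bc φ hφ h.1, isFlatAt_baseChange φ hφ ρ hk h.2.1,
      fun q hq hqS => isUnramifiedAt_bc φ hφ (h.2.2 q hq hqS)⟩
  | strict => exact ⟨detIsCyclotomic_bc φ hφ h.1, isStrictOrdinaryAt_bc φ hφ h.2.1,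
      fun q hq hqS => isUnramifiedAt_bc φ hφ (h.2.2 q hq hqS)⟩
  | ord => exact ⟨detIsCyclotomic_bc φ hφ h.1, isOrdinaryAt_bc φ hφ h.2.1,
      fun q hq hqS => isUnramifiedAt_bc φ hφ (h.2.2 q hq hqS)⟩

theorem dCond_bc {t : PType} {𝒪 𝒪' : Type} [CommRing 𝒪] [CommRing 𝒪'] [Algebra 𝒪 A]
    [Algebra 𝒪' B] {p : ℕ} {S Sm : Finset ℕ} (hk : Finite (ResidueField B))
    (h : dCond t 𝒪 p S Sm ρ) : dCond t 𝒪' p S Sm (ρ.baseChangeAlong φ hφ) :=
  ⟨pCond_bc φ hφ hk h.1, fun q hq hqp hqp' => isUnipotentOnInertiaAt_bc φ hφ (h.2 q hq hqp hqp')⟩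

end BaseChange

section Equiv

variable {A : Type} [CommRing A] [IsLocalRing A] {ρ ρ' : GaloisRepAdic A}

theorem pCond_of_isEquiv {t : PType} {𝒪 𝒪' : Type} [CommRing 𝒪] [CommRing 𝒪'] [Algebra 𝒪 A]
    [Algebra 𝒪' A] {p : ℕ} {S : Finset ℕ} (e : ρ.IsEquiv ρ') (h : pCond t 𝒪 p S ρ) :
    pCond t 𝒪' p S ρ' := by
  obtain ⟨e⟩ := e
  have hdet : ρ.DetIsCyclotomic p → ρ'.DetIsCyclotomic p := fun h => by
    refine ⟨h.1, fun n σ a ha => ?_⟩
    rw [det_equiv e]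
    exact h.2 n σ a ha
  have hunr : (∀ q : ℕ, q.Prime → q ∉ S → ρ.IsUnramifiedAt q) →
      ∀ q : ℕ, q.Prime → q ∉ S → ρ'.IsUnramifiedAt q := fun h q hq hqS P hP σ hσ => by
    rw [equiv_conj e σ, h q hq hqS P hP σ hσ]
    ext y
    simp
  cases t with
  | flat => exact ⟨hdet h.1, isFlatAt_of_isEquiv e h.2.1, hunr h.2.2⟩
  | strict =>
    refine ⟨hdet h.1, ?_, hunr h.2.2⟩
    have h1 : ρ.IsStrictOrdinaryAt p := h.2.1
    rw [isStrictOrdinaryAt_iff] at h1 ⊢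
    refine ⟨h1.1, fun P hP => ?_⟩
    obtain ⟨b, hb, hs⟩ := h1.2 P hP
    exact ⟨_, ordBasis_equiv e hb, strictBasis_equiv e hs⟩
  | ord =>
    refine ⟨hdet h.1, ?_, hunr h.2.2⟩
    have h1 : ρ.IsOrdinaryAt p := h.2.1
    rw [isOrdinaryAt_iff] at h1 ⊢
    intro P hP
    obtain ⟨b, hb⟩ := h1 P hP
    exact ⟨_, ordBasis_equiv e hb⟩

theorem isUnipotentOnInertiaAt_of_isEquiv {q : ℕ} (e : ρ.IsEquiv ρ')
    (h : ρ.IsUnipotentOnInertiaAt q) : ρ'.IsUnipotentOnInertiaAt q := by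
  obtain ⟨e⟩ := e
  intro P hP σ hσ
  rw [charpoly_equiv e, h P hP σ hσ]

theorem isUnramifiedAt_of_isEquiv {q : ℕ} (e : ρ.IsEquiv ρ')
    (h : ρ.IsUnramifiedAt q) : ρ'.IsUnramifiedAt q := by
  obtain ⟨e⟩ := e
  intro P hP σ hσ
  rw [equiv_conj e σ, h P hP σ hσ]
  ext y
  simp

theorem dCond_of_isEquiv {t : PType} {𝒪 𝒪' : Type} [CommRing 𝒪] [CommRing 𝒪'] [Algebra 𝒪 A]
    [Algebra 𝒪' A] {p : ℕ} {S Sm : Finset ℕ} (e : ρ.IsEquiv ρ') (h : dCond t 𝒪 p S Sm ρ) :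
    dCond t 𝒪' p S Sm ρ' :=
  ⟨pCond_of_isEquiv e h.1, fun q hq hqp hqp' => isUnipotentOnInertiaAt_of_isEquiv e
    (h.2 q hq hqp hqp')⟩

end Equiv

section Mono

variable {A : Type} [CommRing A] [IsLocalRing A] {ρ : GaloisRepAdic A}
  {𝒪 : Type} [CommRing 𝒪] [Algebra 𝒪 A] {p : ℕ}

theorem pCond_mono {t : PType} {S S' : Finset ℕ} (hS : S ⊆ S') (h : pCond t 𝒪 p S ρ) :
    pCond t 𝒪 p S' ρ := by
  cases t with
  | flat => exact ⟨h.1, h.2.1, fun q hq hqS => h.2.2 q hq fun h' => hqS (hS h')⟩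
  | strict => exact ⟨h.1, h.2.1, fun q hq hqS => h.2.2 q hq fun h' => hqS (hS h')⟩
  | ord => exact ⟨h.1, h.2.1, fun q hq hqS => h.2.2 q hq fun h' => hqS (hS h')⟩

theorem dCond_mono {t : PType} {S S' Sm Sm' : Finset ℕ} (hS : S ⊆ S') (hSm : Sm' ⊆ Sm)
    (h : dCond t 𝒪 p S Sm ρ) : dCond t 𝒪 p S' Sm' ρ :=
  ⟨pCond_mono hS h.1, fun q hq hqp hqp' => h.2 q (hSm hq) hqp hqp'⟩

theorem pCond_det {t : PType} {S : Finset ℕ} (h : pCond t 𝒪 p S ρ) : ρ.DetIsCyclotomic p := by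
  cases t with
  | flat => exact h.1
  | strict => exact h.1
  | ord => exact h.1

theorem pCond_unr {t : PType} {S : Finset ℕ} (h : pCond t 𝒪 p S ρ) {q : ℕ} (hq : q.Prime)
    (hqS : q ∉ S) : ρ.IsUnramifiedAt q := by
  cases t with
  | flat => exact h.2.2 q hq hqS
  | strict => exact h.2.2 q hq hqS
  | ord => exact h.2.2 q hq hqS

theorem dCond_det {t : PType} {S Sm : Finset ℕ} (h : dCond t 𝒪 p S Sm ρ) :
    ρ.DetIsCyclotomic p := pCond_det h.1

theorem dCond_unr {t : PType} {S Sm : Finset ℕ} (h : dCond t 𝒪 p S Sm ρ) {q : ℕ}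
    (hq : q.Prime) (hqS : q ∉ S) : ρ.IsUnramifiedAt q := pCond_unr h.1 hq hqS

theorem dCond_ord_of_strict {S Sm : Finset ℕ} (h : dCond .strict 𝒪 p S Sm ρ) :
    dCond .ord 𝒪 p S Sm ρ :=
  ⟨GaloisRep.ordinaryCondition_of_strictOrdinaryCondition (𝒪 := 𝒪) h.1, h.2⟩

end Mono

section Good

variable (𝒪 : Type) [CommRing 𝒪] {p : ℕ} (S Sm : Finset ℕ)

theorem good_dCond (t : PType) (hp : p.Prime) (hp2 : p ≠ 2) : Good 𝒪 (dCond t 𝒪 p S Sm) := by
  cases t with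
  | flat => exact (good_flatCondition 𝒪 S hp).and (good_unipotent 𝒪 p Sm)
  | strict => exact (good_strictOrdinaryCondition 𝒪 S hp hp2).and (good_unipotent 𝒪 p Sm)
  | ord => exact (good_ordinaryCondition 𝒪 S hp hp2).and (good_unipotent 𝒪 p Sm)

theorem isDeformationCondition_dCond (t : PType) (hp : p.Prime) (hp2 : p ≠ 2) :
    GaloisRep.IsDeformationCondition 𝒪 (dCond t 𝒪 p S Sm) :=
  (good_dCond 𝒪 S Sm t hp hp2).isDeformationCondition

end Good

/-- **Existence of the deformation rings** for all types. -/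
theorem nonempty_ringData_dCond (𝒪 : Type) [CommRing 𝒪] [IsDomain 𝒪]
    [IsDiscreteValuationRing 𝒪] [IsAdicComplete (maximalIdeal 𝒪) 𝒪] [Finite (ResidueField 𝒪)]
    (ρbar : ResidualGaloisRep (ResidueField 𝒪)) (habs : ρbar.IsAbsolutelyIrreducible)
    {p : ℕ} (hp : p.Prime) (hp2 : p ≠ 2) (t : PType) (S Sm : Finset ℕ)
    (hbar : dCond t 𝒪 p S Sm (GaloisRepAdic.ofResidualGaloisRep ρbar)) :
    Nonempty (GaloisRep.DeformationRingData 𝒪 ρbar (dCond t 𝒪 p S Sm)) :=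
  Fermat.Agent.S53.result 𝒪 ρbar _ habs (isDeformationCondition_dCond 𝒪 S Sm t hp hp2) hbar
    (tangentFinite_of_imp 𝒪 ρbar S _ fun _ _ _ _ _ h _ hq hqS => dCond_unr h hq hqS)

section Residual

variable {A : Type} [CommRing A] [IsLocalRing A]

theorem isLocalHom_residue : IsLocalHom (residue A) := inferInstance

/-- `ρ.residual` is the base change to the residue field. -/
theorem residual_isEquiv_bc (ρ : GaloisRepAdic A) :
    (ρ.baseChangeAlong (residue A) inferInstance).IsEquiv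
      (GaloisRepAdic.ofResidualGaloisRep ρ.residual) := by
  obtain ⟨M, hM⟩ := UDef.exists_model ρ
  exact (hM.baseChangeAlong (residue A) inferInstance).isEquiv hM.residual.toAdic 1 isUnit_one
    fun σ => by rw [one_mul, mul_one]

theorem dCond_residual {t : PType} {𝒪 𝒪' : Type} [CommRing 𝒪] [CommRing 𝒪'] [Algebra 𝒪 A]
    [Algebra 𝒪' (ResidueField A)] {p : ℕ} {S Sm : Finset ℕ} (hk : Finite (ResidueField A))
    {ρ : GaloisRepAdic A} (h : dCond t 𝒪 p S Sm ρ) :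
    dCond t 𝒪' p S Sm (GaloisRepAdic.ofResidualGaloisRep ρ.residual) := by
  have hk' : Finite (ResidueField (ResidueField A)) :=
    Finite.of_surjective (residue (ResidueField A)) residue_surjective
  exact dCond_of_isEquiv (𝒪 := 𝒪') (residual_isEquiv_bc ρ) (dCond_bc _ _ hk' h)

/-- Two representations with the same model have equivalent residual representations (base
change). -/
theorem residual_isEquiv_baseChangeAlong {B : Type} [CommRing B] [IsLocalRing B] (φ : A →+* B)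
    (hφ : IsLocalHom φ) (ρ : GaloisRepAdic A) :
    (ρ.baseChangeAlong φ hφ).residual.IsEquiv
      (ρ.residual.baseChangeAlong (ResidueField.map φ)) := by
  obtain ⟨M, hM⟩ := UDef.exists_model ρ
  refine (hM.baseChangeAlong φ hφ).residual.isEquiv (hM.residual.baseChangeAlong _) 1 isUnit_one
    fun σ => ?_
  rw [one_mul, mul_one]
  rfl

theorem charpoly_ofResidual {k : Type} [Field k] (ρ : ResidualGaloisRep k) (σ : Γℚ) :
    LinearMap.charpoly ((GaloisRepAdic.ofResidualGaloisRep ρ).ρ σ) =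
      LinearMap.charpoly (ρ.ρ σ) := rfl

end Residual

end Fermat.Agent.RT.Wiring
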