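import Fermat.Agent.RT.Wiring.TWPrimes
import Fermat.Agent.RT.HTW

/-!
# RT10 (helper28): the hypothesis `hTW` of S56 for `ρbar = E[p] ⊗ k`
-/

set_option autoImplicit false

open Polynomial IsLocalRing

namespace Fermat.Agent.RT.Wiring

/-- No line of `ρbar ⊗ K` is stable under a subgroup of index two. -/
theorem rhoBar_HTW (W : WeierstrassCurve ℤ) (hΔ : W.Δ ≠ 0) (hss : W.IsSemistableModel)
    (p : ℕ) [hp : Fact p.Prime] (hp2 : p ≠ 2) (hirr : W.ModRepIsIrreducible p) (𝒪 : Type)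
    [CommRing 𝒪] [IsLocalRing 𝒪] [Algebra ℤ_[p] 𝒪] [IsLocalHom (algebraMap ℤ_[p] 𝒪)] :
    HTW (rhoBar W hΔ p 𝒪) := fun K _ _ G hG V hV =>
  Fermat.Agent.RT.HTW.stable_eq_bot_or_top
    (rhoBar_isEquiv (W := W) (p := p) hΔ 𝒪 (hcard_of (W := W) (p := p) hΔ)
      (hker_of (W := W) (p := p) hΔ) (zmodToResidue p 𝒪)) hΔ hss hp2 hirr K G hG V hV

end Fermat.Agent.RT.Wiring
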