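import Fermat.Agent.RT.TWBase
import Fermat.Agent.RT.DatumGal
import Fermat.Agent.RT.Wiring.HTWW
import Fermat.Agent.RT.Num.Main
import Fermat.Agent.Petersson.Reduced

/-!
# The context of the modularity lifting theorem for `W` (team RT, helper28)

`W` semistable, `θ` a character of a Hecke algebra with values in `k = 𝒪/𝔪` congruent to the
eigensystem of `W`.
-/

set_option autoImplicit false
set_option linter.unusedSectionVars false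

open Polynomial IsLocalRing CuspForm CongruenceSubgroup

noncomputable section

namespace Fermat.Agent.RT.Wiring

open Fermat.Agent.DefCond Fermat.Agent.UDef Fermat.Agent.RT.TWBase Fermat.Agent.RT.MSHecke

local notation "Γℚ" => (AlgebraicClosure ℚ ≃ₐ[ℚ] AlgebraicClosure ℚ)

section

variable {p : ℕ} [hp : Fact p.Prime] {W : WeierstrassCurve ℤ} (hΔ : W.Δ ≠ 0)
  {𝒪 : Type} [CommRing 𝒪] [IsDomain 𝒪] [IsDiscreteValuationRing 𝒪]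
  [IsAdicComplete (maximalIdeal 𝒪) 𝒪] [Finite (ResidueField 𝒪)] [CharZero 𝒪]
  [Algebra ℤ_[p] 𝒪] [IsLocalHom (algebraMap ℤ_[p] 𝒪)]

/-- the character `θ` is congruent to the eigensystem of `W`. -/
def ThetaW (W : WeierstrassCurve ℤ) {N : ℕ} [NeZero N] {S : Set ℕ}
    (θ : heckeAlgebra N 2 S →+* ResidueField 𝒪) : Prop :=
  ∀ (ℓ : ℕ) (hℓ : ℓ.Prime) (hℓN : ¬ ℓ ∣ N) (hℓS : ℓ ∉ S),
    θ (heckeAlgebra.T hℓ hℓN hℓS) = (W.apOfModel ℓ : ResidueField 𝒪)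

/-- change of level and of `S`. -/
theorem ThetaW.chg {N M : ℕ} [NeZero N] [NeZero M] {S S' : Set ℕ}
    {θ : heckeAlgebra M 2 S →+* ResidueField 𝒪} (h : ThetaW W θ) (hMN : M ∣ N) (hS : S ⊆ S')
    (hN : ∀ q : ℕ, q.Prime → q ∣ N → q ∈ S') : ThetaW W (θ.comp (chg hMN hS hN)) :=
  fun ℓ hℓ hℓN hℓS => by
    rw [RingHom.comp_apply, chg_T hMN hS hN hℓ hℓN hℓS (fun h' => hℓN (h'.trans hMN))
      (fun h' => hℓS (hS h')), h]

variable {N : ℕ} [NeZero N] {S : Finset ℕ} {θ : heckeAlgebra N 2 (↑S : Set ℕ) →+* ResidueField 𝒪}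

include hΔ

/-- the Frobenius polynomials of `ρbar` in terms of `θ`. -/
theorem ThetaW.charpoly_frob (h : ThetaW W θ) (hS : Sbad W p ⊆ S) (ℓ : ℕ) (hℓ : ℓ.Prime)
    (hℓN : ¬ ℓ ∣ N) (hℓS : ℓ ∉ (↑S : Set ℕ)) (A : ValuationSubring (AlgebraicClosure ℚ))
    (hA : A.LiesOverPrime ℓ) (σ : Γℚ) (hσ : A.IsFrobeniusAt σ ℓ) :
    LinearMap.charpoly ((rhoBar W hΔ p 𝒪).ρ σ) =
      X ^ 2 - C (θ (heckeAlgebra.T hℓ hℓN hℓS)) * X + C ((ℓ : ResidueField 𝒪)) := by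
  obtain ⟨hℓp, hgood⟩ := not_mem_Sbad (p := p) hΔ hℓ fun h' => hℓS (Finset.mem_coe.mpr (hS h'))
  rw [rhoBar_charpoly_frob hΔ 𝒪 hℓ hℓp hgood A hA hσ, h]

/-- non-Eisenstein primes. -/
theorem exists_nonEis_W (hp2 : p ≠ 2) (hss : W.IsSemistableModel) (hirr : W.ModRepIsIrreducible p)
    (hp𝒪 : (p : 𝒪) ∈ maximalIdeal 𝒪) (D : ℕ) [NeZero D] (S' : Finset ℕ) :
    ∃ ℓ₀ : ℕ, ℓ₀.Prime ∧ ℓ₀ ∉ S' ∧ ((ℓ₀ : ℕ) : ZMod D) = 1 ∧
      (W.apOfModel ℓ₀ : ResidueField 𝒪) ≠ 1 + (ℓ₀ : ResidueField 𝒪) := by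
  have hp0 : (p : ResidueField 𝒪) = 0 := by
    rw [← map_natCast (residue 𝒪) p]; exact (residue_eq_zero_iff _).mpr hp𝒪
  exact exists_nonEis (p := p) hp0 (rhoBar W hΔ p 𝒪)
    (rhoBar_isAbsolutelyIrreducible hΔ 𝒪 hp2 hss hirr) (Sbad W p)
    (fun ℓ => (W.apOfModel ℓ : ResidueField 𝒪)) (fun ℓ hℓ hℓS A hA σ hσ => by
      obtain ⟨hℓp, hgood⟩ := not_mem_Sbad (p := p) hΔ hℓ hℓS
      exact rhoBar_charpoly_frob hΔ 𝒪 hℓ hℓp hgood A hA hσ) D S'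

/-- **The Galois representation over `heckeLocal`.** -/
theorem exists_datum_W (h30 : Datum.S30Statement) (hp2 : p ≠ 2) (hss : W.IsSemistableModel)
    (hirr : W.ModRepIsIrreducible p) (hp𝒪 : (p : 𝒪) ∈ maximalIdeal 𝒪)
    [Fact (HasIntegralStructure N 2)]
    (h : ThetaW W θ) (hS : Sbad W p ⊆ S) (hNS : ∀ q : ℕ, q.Prime → q ∣ N → q ∈ S) :
    ∃ d : HeckeGaloisRepDatum N (↑S : Set ℕ) 𝒪 θ (heckeLocal N (↑S : Set ℕ) 𝒪 θ),
      d.π = heckeLocal.π N (↑S : Set ℕ) 𝒪 θ ∧ d.ρ.DetIsCyclotomic p :=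
  DatumGal.exists_datum_of_S30 hp2 N S (hS p_mem_Sbad) hNS 𝒪 hp𝒪 θ (RingHom.id _) (RingHom.id _)
    (rhoBar W hΔ p 𝒪) (rhoBar_isAbsolutelyIrreducible hΔ 𝒪 hp2 hss hirr)
    (fun ℓ hℓ hℓN hℓS A hA σ hσ => by
      rw [Polynomial.map_id, Polynomial.map_id]
      exact h.charpoly_frob hΔ hS ℓ hℓ hℓN hℓS A hA σ hσ)
    CMP.Density.frobDensity h30

omit hΔ in
/-- `heckeLocal` is reduced. -/
theorem isReduced_heckeLocal_W [Fact (HasIntegralStructure N 2)] (hNS : ∀ q : ℕ, q.Prime → q ∣ N → q ∈ S) :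
    IsReduced (heckeLocal N (↑S : Set ℕ) 𝒪 θ) :=
  HeckeLocalFields.isReduced N (↑S : Set ℕ) 𝒪 θ
    (Petersson.isReduced_heckeAlgebra (fun q hq hqN => by simpa using hNS q hq hqN))
    (IntStr.moduleFinite_heckeAlgebra N 2 _)

end

end Fermat.Agent.RT.Wiring
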