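import Fermat.Agent.RT.Wiring.Frozen
import Fermat.Agent.RT.TypeInputs
import Fermat.Agent.S56

/-!
# `MLT` from S36 (team RT)
-/

set_option autoImplicit false

namespace Fermat.Agent.RT.Wiring

open Fermat.Agent.CMP Fermat.Agent.CMP.S58Assembly

theorem s56Prop : S56Prop := S56.result

/-- **Modularity lifting** from S36. -/
theorem mlt_of_s36 (h36 : S36Prop) : MLT := mlt_of_frozen Typ.inputs h36 s56Prop

/-- **S59** from level optimisation and S36. -/
theorem s59_of_s36_levelOpt (h36 : S36Prop) (hLevel : LevelOpt) : S59Prop :=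
  s59_of_frozen Typ.inputs h36 s56Prop hLevel

end Fermat.Agent.RT.Wiring
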