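import Fermat.Agent.RT.Wiring.Ctx
import Fermat.Agent.RT.TW.Defs
import Fermat.Agent.RT.Num.Sigma

/-!
# The inputs of the final assembly of `MLT` as explicit Props (team RT, helper28)
-/

set_option autoImplicit false
set_option linter.unusedSectionVars false

open Polynomial IsLocalRing CuspForm CongruenceSubgroup

noncomputable section

namespace Fermat.Agent.RT.Wiring

open Fermat.Agent.DefCond Fermat.Agent.UDef Fermat.Agent.RT.TWBase Fermat.Agent.RT.MSHecke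
  Fermat.Agent.LR

local notation "Γℚ" => (AlgebraicClosure ℚ ≃ₐ[ℚ] AlgebraicClosure ℚ)

/-- **RT-TYPE** at the minimal level. -/
def TypeMinProp : Prop :=
  ∀ (p : ℕ) [Fact p.Prime], p ≠ 2 → ∀ (W : WeierstrassCurve ℤ), W.Δ ≠ 0 →
    W.IsSemistableModel → W.ModRepIsIrreducible p →
    ∀ [NeZero (Nmin W p)] [Fact (HasIntegralStructure (Nmin W p) 2)]
      (𝒪 : Type) [CommRing 𝒪] [IsDomain 𝒪] [IsDiscreteValuationRing 𝒪]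
      [IsAdicComplete (maximalIdeal 𝒪) 𝒪] [Finite (ResidueField 𝒪)] [CharZero 𝒪]
      [Algebra ℤ_[p] 𝒪] [Module.Finite ℤ_[p] 𝒪] [IsLocalHom (algebraMap ℤ_[p] 𝒪)],
      (p : 𝒪) ∈ maximalIdeal 𝒪 →
      ∀ θ : heckeAlgebra (Nmin W p) 2 (↑(Sbad W p) : Set ℕ) →+* ResidueField 𝒪, ThetaW W θ →
      ∀ H : HeckeGaloisRepDatum (Nmin W p) (↑(Sbad W p) : Set ℕ) 𝒪 θ
          (heckeLocal (Nmin W p) (↑(Sbad W p) : Set ℕ) 𝒪 θ),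
        H.π = heckeLocal.π (Nmin W p) (↑(Sbad W p) : Set ℕ) 𝒪 θ → H.ρ.DetIsCyclotomic p →
        dCond (tmin W p) 𝒪 p (Smin W p) (Smin W p) H.ρ

/-- **RT-TYPE** at the final level. -/
def TypeSigProp : Prop :=
  ∀ (p : ℕ) [Fact p.Prime], p ≠ 2 → ∀ (W : WeierstrassCurve ℤ), W.Δ ≠ 0 →
    W.IsSemistableModel → W.ModRepIsIrreducible p →
    ∀ [NeZero (Nsig W p)] [Fact (HasIntegralStructure (Nsig W p) 2)]
      (𝒪 : Type) [CommRing 𝒪] [IsDomain 𝒪] [IsDiscreteValuationRing 𝒪]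
      [IsAdicComplete (maximalIdeal 𝒪) 𝒪] [Finite (ResidueField 𝒪)] [CharZero 𝒪]
      [Algebra ℤ_[p] 𝒪] [Module.Finite ℤ_[p] 𝒪] [IsLocalHom (algebraMap ℤ_[p] 𝒪)],
      (p : 𝒪) ∈ maximalIdeal 𝒪 →
      ∀ θ : heckeAlgebra (Nsig W p) 2 (↑(Sbad W p) : Set ℕ) →+* ResidueField 𝒪, ThetaW W θ →
      ∀ H : HeckeGaloisRepDatum (Nsig W p) (↑(Sbad W p) : Set ℕ) 𝒪 θ
          (heckeLocal (Nsig W p) (↑(Sbad W p) : Set ℕ) 𝒪 θ),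
        H.π = heckeLocal.π (Nsig W p) (↑(Sbad W p) : Set ℕ) 𝒪 θ → H.ρ.DetIsCyclotomic p →
        dCond (tsig W p) 𝒪 p (Sbad W p) (Smin W p) H.ρ

/-- **The Hecke side input at the Taylor–Wiles levels.** -/
def TWInputProp : Prop :=
  ∀ (p : ℕ) [Fact p.Prime], p ≠ 2 → ∀ (W : WeierstrassCurve ℤ) (hΔ : W.Δ ≠ 0),
    W.IsSemistableModel → W.ModRepIsIrreducible p →
    ∀ [NeZero (Nmin W p)]
      (𝒪 : Type) [CommRing 𝒪] [IsDomain 𝒪] [IsDiscreteValuationRing 𝒪]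
      [IsAdicComplete (maximalIdeal 𝒪) 𝒪] [Finite (ResidueField 𝒪)] [CharZero 𝒪]
      [Algebra ℤ_[p] 𝒪] [Module.Finite ℤ_[p] 𝒪] [IsLocalHom (algebraMap ℤ_[p] 𝒪)],
      (p : 𝒪) ∈ maximalIdeal 𝒪 → (∃ ζ : ResidueField 𝒪, IsPrimitiveRoot ζ (p ^ 2 - 1)) →
      ∀ χ₀ : heckeAlgebra (Nmin W p) 2 (↑(Sbad W p) : Set ℕ) →+* 𝒪,
      ThetaW W ((residue 𝒪).comp χ₀) →
      ∀ (D₁ : GaloisRep.DeformationRingData 𝒪 (rhoBar W hΔ p 𝒪)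
          (dCond (tmin W p) 𝒪 p (Smin W p) (Smin W p)))
        (Ψ : D₁.R →ₐ[𝒪] Module.End 𝒪 (Num.Mmin (↑(Sbad W p) : Set ℕ) (tOf χ₀) (Nmin W p))),
        (∀ ℓ : ℕ, ℓ.Prime → ℓ ∉ Sbad W p → ∀ A : ValuationSubring (AlgebraicClosure ℚ),
          A.LiesOverPrime ℓ → ∀ σ : Γℚ, A.IsFrobeniusAt σ ℓ →
            ∀ x : Num.Mmin (↑(Sbad W p) : Set ℕ) (tOf χ₀) (Nmin W p),
              (Ψ (D₁.ρ.trace σ) x : Pairs 𝒪) = heckeT ℓ x) →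
        ∃ S : Finset ℕ, Sbad W p ⊆ S ∧ (∀ q ∈ S, q.Prime) ∧
          @TW.TWInput 𝒪 _ _ _ _ (rhoBar W hΔ p 𝒪) (tmin W p) p S (Smin W p) D₁
            (Num.Mmin (↑(Sbad W p) : Set ℕ) (tOf χ₀) (Nmin W p)) _
            (Module.compHom _ (Ψ : D₁.R →+* Module.End 𝒪
              (Num.Mmin (↑(Sbad W p) : Set ℕ) (tOf χ₀) (Nmin W p))))

/-- `Mb` and helper41's module coincide. -/
theorem Mb_eq_MP {𝒪 : Type} [CommRing 𝒪] {S : Set ℕ} {t u : ℕ → 𝒪} {N : ℕ} {ε : ℤ} :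
    Mb N ε S t = Num.MP S t ∅ u N ε := by
  ext x
  rw [mem_Mb, Num.mem_MP]
  simp

end Fermat.Agent.RT.Wiring
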