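import Fermat.Agent.RT.TypeLevels
import Fermat.Agent.RT.Wiring.MLTDefs

/-!
# `TypeMinProp` and `TypeSigProp` from RT-TYPE (team RT, helper28)
-/

set_option autoImplicit false
set_option linter.unusedSectionVars false

open Polynomial IsLocalRing CuspForm CongruenceSubgroup

noncomputable section

namespace Fermat.Agent.RT.Wiring

open Fermat.Agent.DefCond Fermat.Agent.UDef Fermat.Agent.RT.TWBase Fermat.Agent.RT.MSHecke
  Fermat.Agent.LR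

local notation "Γℚ" => (AlgebraicClosure ℚ ≃ₐ[ℚ] AlgebraicClosure ℚ)

/-- An element `τ` of inertia at `p` moves `E[p]` if `W` is multiplicative at `p` and
`p ∤ v_p(Δ)`. -/
def TauProp : Prop :=
  ∀ (p : ℕ) [Fact p.Prime], p ≠ 2 → ∀ (W : WeierstrassCurve ℤ) (hΔ : W.Δ ≠ 0),
    W.IsSemistableModel → W.ModRepIsIrreducible p →
    ∀ (𝒪 : Type) [CommRing 𝒪] [IsLocalRing 𝒪] [Algebra ℤ_[p] 𝒪]
      [IsLocalHom (algebraMap ℤ_[p] 𝒪)],
      Typ.TauInput hΔ (p := p) 𝒪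

theorem typeMinProp_of (I : Typ.Inputs) (hτ : TauProp) : TypeMinProp := by
  intro p hpf hp2 W hΔ hss hirr hN0 _ 𝒪 _ _ _ _ _ _ _ _ _ hp𝒪 θ hθ H hHπ hHdet
  have hp : p.Prime := hpf.out
  have hNS : ∀ q : ℕ, q.Prime → q ∣ Nmin W p → q ∈ Sbad W p := hNS_min
  have habs := rhoBar_isAbsolutelyIrreducible (W := W) (p := p) hΔ 𝒪 hp2 hss hirr
  have hres := Typ.residual_isEquiv hNS habs (Typ.resAttached_rhoBar hΔ 𝒪 subset_rfl hθ) H
  refine Typ.dCond_of_datum p_mem_Sbad hNS hp𝒪 H I hp2 hres (tmin W p) (Smin W p) (Smin W p)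
    p_mem_Smin ?_ ?_ (Typ.atP_tmin hΔ 𝒪 hss (hτ p hp2 W hΔ hss hirr 𝒪) (NeZero.ne _) rfl)
  · intro q hq hqN hqS
    refine absurd ?_ hqS
    rcases (dvd_Nmin_iff hp hq).mp hqN with h3 | h3
    · exact h3.1 ▸ p_mem_Smin
    · exact mem_Smin.mpr (Or.inr h3)
  · intro q hqS hq hqp h
    rw [Typ.sq_dvd_iff (NeZero.ne _) hq] at h
    have := factorization_Nmin_le (W := W) hp q
    omega

theorem typeSigProp_of (I : Typ.Inputs) (hτ : TauProp) : TypeSigProp := by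
  intro p hpf hp2 W hΔ hss hirr hN0 _ 𝒪 _ _ _ _ _ _ _ _ _ hp𝒪 θ hθ H hHπ hHdet
  have hp : p.Prime := hpf.out
  have hNS : ∀ q : ℕ, q.Prime → q ∣ Nsig W p → q ∈ Sbad W p := hNS_sig
  have habs := rhoBar_isAbsolutelyIrreducible (W := W) (p := p) hΔ 𝒪 hp2 hss hirr
  have hres := Typ.residual_isEquiv hNS habs (Typ.resAttached_rhoBar hΔ 𝒪 subset_rfl hθ) H
  refine Typ.dCond_of_datum p_mem_Sbad hNS hp𝒪 H I hp2 hres (tsig W p) (Sbad W p) (Smin W p)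
    p_mem_Sbad ?_ ?_ (Typ.atP_tsig hΔ 𝒪 hss (hτ p hp2 W hΔ hss hirr 𝒪) (NeZero.ne _) rfl)
  · intro q hq hqN hqS
    exact absurd (hNS q hq hqN) hqS
  · intro q hqS hq hqp h
    have hR : Typ.AuxOK W p ℚ 1 ∅ := Typ.auxOK_one W p ℚ ∅
    refine Typ.not_sq_dvd_sigLevel hΔ hR hq hqS hqp ?_
    rwa [Typ.sigLevel, one_mul]

end Fermat.Agent.RT.Wiring
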