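import Fermat.Agent.RT.Wiring.PartsDefs
import Fermat.Agent.RT.Wiring.TypeOf
import Fermat.Agent.RT.UnitRoot.Newform
import Fermat.Agent.RT.CoeffMem

/-!
# The newform of `χ₀` has level exactly `Nmin` (team RT, helper49)

`newformProp_of : Typ.Inputs → TauProp → NewformProp`.

Let `g` be the newform of `χ₀`, of level `M ∣ Nmin`. If `q ∣ Nmin`, `q ≠ p`, `q ∤ M` then the
representation of `χ₀` is unramified at `q`, hence `E[p]` is, contradiction. If `q = p ∣ Nmin`,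
`p ∤ M` then the representation is strictly ordinary: Frobenius acts on the unramified quotient by
`z` with `z² = 1`, and `z² - a_p(g) z + p = 0` (unit root relation), so `a_p(g)² = (p + 1)²`,
contradiction.
-/

set_option autoImplicit false
set_option linter.unusedSectionVars false
set_option linter.style.haveILetI false

open Polynomial IsLocalRing CuspForm CongruenceSubgroup ModularFormClass

noncomputable section

namespace Fermat.Agent.RT.Wiring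

open Fermat.Agent.DefCond Fermat.Agent.UDef Fermat.Agent.RT.TWBase Fermat.Agent.RT.MSHecke
  Fermat.Agent.LR

local notation "Γℚ" => (AlgebraicClosure ℚ ≃ₐ[ℚ] AlgebraicClosure ℚ)

namespace NewformOf

theorem rho_eq_one {k : Type} [Field k] {ρ ρ' : ResidualGaloisRep k}
    (h : ρ.IsEquiv ρ') {σ : Γℚ} (h1 : ρ.ρ σ = 1) : ρ'.ρ σ = 1 := by
  obtain ⟨e⟩ := h
  refine LinearMap.ext fun y => ?_
  have h2 := e.map_apply σ (e.toLinearEquiv.symm y)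
  rw [h1, LinearEquiv.apply_symm_apply] at h2
  rw [← h2]
  exact e.toLinearEquiv.apply_symm_apply y

section Gen

variable {p : ℕ} {𝒪 : Type} [CommRing 𝒪] [IsDomain 𝒪] [IsDiscreteValuationRing 𝒪]
  [IsAdicComplete (maximalIdeal 𝒪) 𝒪] [Finite (ResidueField 𝒪)]
  {N : ℕ} [NeZero N] {S : Finset ℕ} {θ : heckeAlgebra N 2 (↑S : Set ℕ) →+* ResidueField 𝒪}
  {T : Type} [CommRing T] [IsLocalRing T] [IsNoetherianRing T]
  [IsAdicComplete (maximalIdeal T) T] [Algebra 𝒪 T] [IsLocalHom (algebraMap 𝒪 T)]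
  [Module.Finite 𝒪 T] [Module.Free 𝒪 T]

theorem attached_point (H : HeckeGaloisRepDatum N (↑S : Set ℕ) 𝒪 θ T)
    (hNS : ∀ q : ℕ, q.Prime → q ∣ N → q ∈ S) (χ₀ : heckeAlgebra N 2 (↑S : Set ℕ) →+* 𝒪)
    (ψ : T →ₐ[𝒪] 𝒪) (hψ : ∀ t, ψ (H.π t) = χ₀ t) (hloc : IsLocalHom (ψ : T →+* 𝒪)) :
    Point.Attached S (tOf χ₀) (H.ρ.baseChangeAlong (ψ : T →+* 𝒪) hloc) := by
  intro ℓ hℓ hℓS A hA σ hσ
  have hℓN : ¬ ℓ ∣ N := fun h => hℓS (hNS ℓ hℓ h)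
  have hℓS' : ℓ ∉ (↑S : Set ℕ) := fun h => hℓS (Finset.mem_coe.mp h)
  rw [DefCond.charpoly_baseChangeAlong, H.charpoly_frob ℓ hℓ hℓN hℓS' A hA σ hσ,
    Polynomial.map_add, Polynomial.map_sub, Polynomial.map_mul, Polynomial.map_pow,
    Polynomial.map_X, Polynomial.map_C, Polynomial.map_C, map_natCast (ψ : T →+* 𝒪),
    tOf_eq χ₀ hℓ hℓN hℓS', ← hψ]
  rfl

/-- A character of the Hecke algebra with values in `𝒪` gives a representation over `𝒪`. -/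
theorem exists_rho_gen (H : HeckeGaloisRepDatum N (↑S : Set ℕ) 𝒪 θ T)
    (hNS : ∀ q : ℕ, q.Prime → q ∣ N → q ∈ S) (χ₀ : heckeAlgebra N 2 (↑S : Set ℕ) →+* 𝒪)
    (hχ₀ : ∀ t, residue 𝒪 (χ₀ t) = θ t) {ρbar : ResidualGaloisRep (ResidueField 𝒪)}
    (habs : ρbar.IsAbsolutelyIrreducible)
    (hfrob : ∀ (ℓ : ℕ) (hℓ : ℓ.Prime) (hℓN : ¬ ℓ ∣ N) (hℓS : ℓ ∉ (↑S : Set ℕ)),
      ∀ A : ValuationSubring (AlgebraicClosure ℚ), A.LiesOverPrime ℓ →
        ∀ σ : Γℚ, A.IsFrobeniusAt σ ℓ → LinearMap.charpoly (ρbar.ρ σ) =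
          X ^ 2 - C (θ (heckeAlgebra.T hℓ hℓN hℓS)) * X + C ((ℓ : ResidueField 𝒪)))
    {t : PType} {S' Sm : Finset ℕ} (hd : dCond t 𝒪 p S' Sm H.ρ) :
    ∃ ρ : GaloisRepAdic 𝒪, Point.Attached S (tOf χ₀) ρ ∧ dCond t 𝒪 p S' Sm ρ ∧
      ρ.residual.IsEquiv ρbar ∧ ρ.residual.IsAbsolutelyIrreducible := by
  obtain ⟨ψ, hψ⟩ := H.exists_point χ₀ hχ₀
  have hloc : IsLocalHom (ψ : T →+* 𝒪) := Num.isLocalHom_algHom (𝒪 := 𝒪) (fun x => by
    obtain ⟨y, rfl⟩ := residue_surjective x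
    exact ⟨y, rfl⟩) ψ
  have hatt := attached_point H hNS χ₀ ψ hψ hloc
  have hd' : dCond t 𝒪 p S' Sm (H.ρ.baseChangeAlong (ψ : T →+* 𝒪) hloc) :=
    dCond_bc _ hloc inferInstance hd
  generalize H.ρ.baseChangeAlong (ψ : T →+* 𝒪) hloc = ρ at hatt hd'
  have hcp : ∀ σ : Γℚ, LinearMap.charpoly (ρ.residual.ρ σ) = LinearMap.charpoly (ρbar.ρ σ) := by
    intro σ
    have key := FrobCompare.residual_charpoly_map_eq CMP.Density.frobDensity
      (RingHom.id (ResidueField 𝒪)) (RingHom.id (ResidueField 𝒪)) ρ.residual ρbar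
      S (fun ℓ hℓ hℓS A hA τ hτ' => by
        have hℓN : ¬ ℓ ∣ N := fun h => hℓS (hNS ℓ hℓ h)
        have hℓS' : ℓ ∉ (↑S : Set ℕ) := fun h => hℓS (Finset.mem_coe.mp h)
        rw [Polynomial.map_id, Polynomial.map_id, EllTate.residual_charpoly,
          hatt ℓ hℓ hℓS A hA τ hτ', hfrob ℓ hℓ hℓN hℓS' A hA τ hτ',
          Polynomial.map_add, Polynomial.map_sub, Polynomial.map_mul, Polynomial.map_pow,
          Polynomial.map_X, Polynomial.map_C, Polynomial.map_C, map_natCast (residue 𝒪),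
          tOf_eq χ₀ hℓ hℓN hℓS', hχ₀]) σ
    rwa [Polynomial.map_id, Polynomial.map_id] at key
  exact ⟨ρ, hatt, hd', BN2.isEquiv_of_charpoly_eq _ _ hcp habs,
    BN2.isAbsolutelyIrreducible_of_charpoly_eq (RingHom.id _) (RingHom.id _) _ ρbar
      (fun σ => by rw [hcp]) habs⟩

end Gen

section

variable {p : ℕ} [hp : Fact p.Prime] {W : WeierstrassCurve ℤ} (hΔ : W.Δ ≠ 0)
  [NeZero (Nmin W p)]
  {𝒪 : Type} [CommRing 𝒪] [IsDomain 𝒪] [IsDiscreteValuationRing 𝒪]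
  [IsAdicComplete (maximalIdeal 𝒪) 𝒪] [Finite (ResidueField 𝒪)] [CharZero 𝒪]
  [Algebra ℤ_[p] 𝒪] [Module.Finite ℤ_[p] 𝒪] [IsLocalHom (algebraMap ℤ_[p] 𝒪)]

/-- The Galois representation of `χ₀`. -/
theorem exists_rho (I : Typ.Inputs) (hτ : TauProp) (hp2 : p ≠ 2) (hss : W.IsSemistableModel)
    (hirr : W.ModRepIsIrreducible p) (hp𝒪 : (p : 𝒪) ∈ maximalIdeal 𝒪)
    (χ₀ : heckeAlgebra (Nmin W p) 2 (↑(Sbad W p) : Set ℕ) →+* 𝒪)
    (hθ : ThetaW W ((residue 𝒪).comp χ₀)) :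
    ∃ ρ : GaloisRepAdic 𝒪, Point.Attached (Sbad W p) (tOf χ₀) ρ ∧
      dCond (tmin W p) 𝒪 p (Smin W p) (Smin W p) ρ ∧
      ρ.residual.IsEquiv (rhoBar W hΔ p 𝒪) ∧ ρ.residual.IsAbsolutelyIrreducible := by
  have hI : Fact (HasIntegralStructure (Nmin W p) 2) := ⟨IntStr.hasIntegralStructure _ 2⟩
  obtain ⟨H, hHπ, hHdet⟩ :=
    exists_datum_W hΔ I.s30 hp2 hss hirr hp𝒪 hθ subset_rfl (hNS_min (W := W) (p := p))
  exact exists_rho_gen H (hNS_min (W := W) (p := p)) χ₀ (fun _ => rfl)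
    (rhoBar_isAbsolutelyIrreducible (W := W) (p := p) hΔ 𝒪 hp2 hss hirr)
    (hθ.charpoly_frob hΔ (p := p) subset_rfl)
    (typeMinProp_of I hτ p hp2 W hΔ hss hirr 𝒪 hp𝒪 _ hθ H hHπ hHdet)

include hΔ in
/-- The primes dividing `Nmin` divide the level of the newform. -/
theorem dvd_level (I : Typ.Inputs) (hτ : TauProp) (hp2 : p ≠ 2) (hss : W.IsSemistableModel)
    (hirr : W.ModRepIsIrreducible p) (hp𝒪 : (p : 𝒪) ∈ maximalIdeal 𝒪)
    (χ₀ : heckeAlgebra (Nmin W p) 2 (↑(Sbad W p) : Set ℕ) →+* 𝒪)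
    (hθ : ThetaW W ((residue 𝒪).comp χ₀)) {M : ℕ} [NeZero M] (hMN : M ∣ Nmin W p)
    {g : CuspForm (Gamma0 M) 2} (hg : g.IsNewform) {j : 𝒪 →+* ℂ} (hj : Function.Injective j)
    (hga : ∀ ℓ : ℕ, ℓ.Prime → ℓ ∉ Sbad W p → qCoeff ⇑g ℓ = j (tOf χ₀ ℓ)) {q : ℕ}
    (hq : q.Prime) (hqN : q ∣ Nmin W p) : q ∣ M := by
  obtain ⟨ρ, hatt, hd, hres, habsρ⟩ := exists_rho hΔ I hτ hp2 hss hirr hp𝒪 χ₀ hθ
  have hMS : ∀ r : ℕ, r.Prime → r ∣ M → r ∈ Sbad W p :=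
    fun r hr h => hNS_min r hr (h.trans hMN)
  by_contra hqM
  rcases (dvd_Nmin_iff hp.out hq).mp hqN with ⟨rfl, hbad, hndvd⟩ | hqS
  · -- the case `q = p`
    have ht : tmin W q = .strict := by rw [tmin, if_pos ⟨hbad, hndvd⟩]
    rw [ht] at hd
    have hdet : ρ.DetIsCyclotomic q := dCond_det hd
    have hord : ρ.IsOrdinaryAt q := (dCond_ord_of_strict hd).1.2.1
    obtain ⟨P, hP⟩ := FrobExists.exists_liesOverPrime (AlgebraicClosure ℚ) hq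
    obtain ⟨φ, hφ⟩ := FrobExists.exists_isFrobeniusAt P hq hP
    obtain ⟨τ, hτ1, hτ2⟩ := hτ q hp2 W hΔ hss hirr 𝒪 hbad hndvd P hP
    obtain ⟨d⟩ := PStep.exists_ordData hord hP
    have hunit : IsUnit (d.y τ) := by
      by_contra hcon
      exact hτ2 (rho_eq_one hres (d.residual_eq_one hdet hq hτ1 hcon))
    have hφD : φ ∈ P.decompositionSubgroup ℚ := hφ.mem_decompositionSubgroup
    have hz := d.sq_sub_one_mul_eq_zero inferInstance hdet hq hP hτ1 hφD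
    rw [hunit.mul_left_eq_zero, sub_eq_zero] at hz
    obtain ⟨a, ha, hrel⟩ := UnitRoot.exists_unitRoot hq hp2 hp𝒪 j hj hatt habsρ hg.1 hqM hga hP
      hφ hφD d
    have h1 : a ^ 2 = ((q : 𝒪) + 1) ^ 2 := by
      have h2 : a * d.z φ = (q : 𝒪) + 1 := by linear_combination -hrel + hz
      have h3 : a ^ 2 * d.z φ ^ 2 = ((q : 𝒪) + 1) ^ 2 := by rw [← mul_pow, h2]
      rwa [hz, mul_one] at h3
    refine Point.sq_qCoeff_ne hg hq hqM ?_
    rw [← ha, ← map_pow, h1, map_pow, map_add, map_natCast, map_one]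
  · -- the case `q ≠ p`
    have hqp : q ≠ p := ne_of_mem_Sram hqS
    have hunr := Point.isUnramifiedAt I.s30 hp𝒪 hg p_mem_Sbad hMS hj hga hatt habsρ hq hqM hqp
    have hunr' : ρ.residual.IsUnramifiedAt q := by
      intro A hA σ hσ
      change (ρ.ρ σ).baseChange (ResidueField 𝒪) = 1
      rw [hunr A hA σ hσ, LinearMap.baseChange_one]
    have h1 := (rhoBar_isUnramifiedAt_iff hΔ 𝒪 hss hq hqp).mp
      (DR.ResidualCompare.isUnramifiedAt_of_isEquiv hres hunr')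
    exact ((mem_Sram hΔ).mp hqS).2.2.2 h1

end

end NewformOf

/-- **(A)**: the newform of `χ₀` has level exactly `Nmin` and its eigenvalues lie in `𝒪`. -/
theorem newformProp_of (I : Typ.Inputs) (hτ : TauProp) : NewformProp := by
  intro p hp hp2 W hΔ hss hirr _ 𝒪 _ _ _ _ _ _ _ _ _ hp𝒪 χ₀ hθ
  obtain ⟨j, hj⟩ := Point.exists_embedding_complex 𝒪
  obtain ⟨M, hM0, g, hMN, hg, hga⟩ := Point.exists_newform j χ₀
  have hNS : ∀ q : ℕ, q.Prime → q ∣ Nmin W p → q ∈ Sbad W p := hNS_min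
  have hga' : ∀ ℓ : ℕ, ℓ.Prime → ℓ ∉ Sbad W p → qCoeff ⇑g ℓ = j (tOf χ₀ ℓ) := by
    intro ℓ hℓ hℓS
    have hℓN : ¬ ℓ ∣ Nmin W p := fun h => hℓS (hNS ℓ hℓ h)
    have hℓS' : ℓ ∉ (↑(Sbad W p) : Set ℕ) := fun h => hℓS (Finset.mem_coe.mp h)
    rw [hga ℓ hℓ hℓN hℓS', tOf_eq χ₀ hℓ hℓN hℓS']
  have hNM : Nmin W p ∣ M := by
    rw [← Nat.prod_primeFactors_of_squarefree (squarefree_Nmin (W := W) hp.out)]
    refine (Finset.prod_dvd_prod_of_subset _ _ _ fun q hq => ?_).trans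
      (Nat.prod_primeFactors_dvd M)
    obtain ⟨hq1, hq2, -⟩ := Nat.mem_primeFactors.mp hq
    exact Nat.mem_primeFactors.mpr ⟨hq1, NewformOf.dvd_level hΔ I hτ hp2 hss hirr hp𝒪 χ₀ hθ hMN
      hg hj hga' hq1 hq2, NeZero.ne M⟩
  obtain rfl : M = Nmin W p := Nat.dvd_antisymm hMN hNM
  obtain ⟨a, ha1, ha2⟩ := CoeffMem.exists_coeff hj hg (Sbad W p).finite_toSet
    (fun q hq h => Finset.mem_coe.mpr (hNS q hq h))
    (fun ℓ hℓ hℓS => (hga' ℓ hℓ fun h => hℓS (Finset.mem_coe.mpr h)).symm)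
    (Point.nonEis_of_isNewform hg (Sbad W p).finite_toSet (NeZero.ne _)
      fun q hq h => Finset.mem_coe.mpr (hNS q hq h))
  exact ⟨g, j, a, hg, hj, ha1, fun ℓ hℓ hℓS => ha2 ℓ hℓ fun h => hℓS (Finset.mem_coe.mp h)⟩

end Fermat.Agent.RT.Wiring
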