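import Fermat.Agent.RT.Wiring.PartsDefs
import Fermat.Agent.RT.SelReady
import Fermat.Agent.RT.TW.Traces
import Fermat.Agent.RT.UnitRoot.Newform
import Fermat.Agent.RT.TypeLevels

/-!
# The length inequality of `MLT`, from flat to ordinary at `p` (team RT, helper35)

* `repAt D κ` : the Galois representation at a point `κ : D.R → 𝒪`;
* `point_ext` : a point is determined by its Frobenius traces;
* `attached_repAt`, `trace_point` : the traces of `repAt D κ` at all primes `q ∤ N p`;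
* `exists_frobData` : the data of the numerical criterion, `c_q = cq a q`;
* `pstep` : the inputs of `MLT` in the peu ramifié multiplicative case.
-/

set_option autoImplicit false
set_option linter.unusedSectionVars false

open Polynomial IsLocalRing CuspForm CongruenceSubgroup ModularFormClass

noncomputable section

namespace Fermat.Agent.RT.Wiring.PStepW

open Fermat.Agent.DefCond Fermat.Agent.UDef Fermat.Agent.RT.SelMain Fermat.Agent.RT.Point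
  Fermat.Agent.RT.SelStep Fermat.Agent.RT.Num

local notation "Γℚ" => (AlgebraicClosure ℚ ≃ₐ[ℚ] AlgebraicClosure ℚ)

section Points

variable {𝒪 : Type} [CommRing 𝒪] [IsDomain 𝒪] [IsDiscreteValuationRing 𝒪]
  [IsAdicComplete (maximalIdeal 𝒪) 𝒪] {ρbar : ResidualGaloisRep (ResidueField 𝒪)}
  {𝒟 : ∀ ⦃A : Type⦄ [CommRing A] [IsLocalRing A] [Algebra 𝒪 A], GaloisRepAdic A → Prop}

omit [IsDomain 𝒪] [IsDiscreteValuationRing 𝒪] [IsAdicComplete (maximalIdeal 𝒪) 𝒪] in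
theorem isLocalHom_point [IsLocalRing 𝒪] {R : Type*} [CommRing R] [IsLocalRing R] [Algebra 𝒪 R]
    (κ : R →ₐ[𝒪] 𝒪) : IsLocalHom (κ : R →+* 𝒪) := by
  have : IsLocalHom (algebraMap 𝒪 𝒪) := by
    rw [Algebra.algebraMap_self]; infer_instance
  exact Num.isLocalHom_algHom (𝒪 := 𝒪) (B := 𝒪) (fun x => residue_surjective x) κ

/-- The representation at a point of a deformation ring. -/
def repAt (D : GaloisRep.DeformationRingData 𝒪 ρbar 𝒟) (κ : D.R →ₐ[𝒪] 𝒪) : GaloisRepAdic 𝒪 :=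
  D.ρ.baseChangeAlong (κ : D.R →+* 𝒪) (isLocalHom_point κ)

theorem charpoly_repAt (D : GaloisRep.DeformationRingData 𝒪 ρbar 𝒟) (κ : D.R →ₐ[𝒪] 𝒪) (σ : Γℚ) :
    LinearMap.charpoly ((repAt D κ).ρ σ) =
      (LinearMap.charpoly (D.ρ.ρ σ)).map (κ : D.R →+* 𝒪) :=
  charpoly_baseChangeAlong _ _ _ σ

theorem attached_repAt (D : GaloisRep.DeformationRingData 𝒪 ρbar 𝒟) {p : ℕ} (hp : p.Prime)
    (hdet : D.ρ.DetIsCyclotomic p) {S : Finset ℕ} (hpS : p ∈ S) {t : ℕ → 𝒪} {κ : D.R →ₐ[𝒪] 𝒪}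
    (hκ : ∀ ℓ : ℕ, ℓ.Prime → ℓ ∉ S → ∀ A : ValuationSubring (AlgebraicClosure ℚ),
      A.LiesOverPrime ℓ → ∀ σ : Γℚ, A.IsFrobeniusAt σ ℓ → κ (D.ρ.trace σ) = t ℓ) :
    Attached S t (repAt D κ) := by
  intro ℓ hℓ hℓS A hA σ hσ
  rw [charpoly_repAt, TW.charpoly_frob hdet hp hℓ (fun h => hℓS (h ▸ hpS)) hA hσ,
    Polynomial.map_add, Polynomial.map_sub, Polynomial.map_mul, Polynomial.map_pow,
    Polynomial.map_X, Polynomial.map_C, Polynomial.map_C, map_natCast]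
  congr 3
  exact congrArg C (hκ ℓ hℓ hℓS A hA σ hσ)

/-- The residual representation at a point. -/
theorem residual_repAt (D : GaloisRep.DeformationRingData 𝒪 ρbar 𝒟)
    (h : ρbar.IsAbsolutelyIrreducible) (κ : D.R →ₐ[𝒪] 𝒪) :
    (repAt D κ).residual.IsAbsolutelyIrreducible := by
  refine UnitRoot.isAbsolutelyIrreducible_bc _ _ ?_
  obtain ⟨e⟩ := D.residual_isEquiv
  refine BN2.isAbsolutelyIrreducible_of_charpoly_eq (RingHom.id _)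
    (ResidueField.map (algebraMap 𝒪 D.R)) _ ρbar (fun σ => ?_) h
  rw [Polynomial.map_id, ← DR.ResidualCompare.charpoly_baseChangeAlong]
  have h1 := LinearEquiv.charpoly_conj e.toLinearEquiv (D.ρ.residual.ρ σ)
  rw [← h1]
  congr 1
  refine LinearMap.ext fun x => ?_
  have h2 := e.map_apply σ (e.toLinearEquiv.symm x)
  rw [LinearEquiv.apply_symm_apply] at h2
  exact h2

/-- A point of a deformation ring is determined by its Frobenius traces. -/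
theorem point_ext (D : GaloisRep.DeformationRingData 𝒪 ρbar 𝒟) (hg : DefCond.Good 𝒪 𝒟) {p : ℕ}
    (hp : p.Prime) (hdet : D.ρ.DetIsCyclotomic p) (S : Finset ℕ) {κ κ' : D.R →ₐ[𝒪] 𝒪}
    (h : ∀ ℓ : ℕ, ℓ.Prime → ℓ ∉ S → ∀ A : ValuationSubring (AlgebraicClosure ℚ),
      A.LiesOverPrime ℓ → ∀ σ : Γℚ, A.IsFrobeniusAt σ ℓ →
        κ (D.ρ.trace σ) = κ' (D.ρ.trace σ)) : κ = κ' := by
  have h1 := TW.end_eq_of_frob D hg.baseChange hp hdet S (M := 𝒪)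
    ((Algebra.lmul 𝒪 𝒪).comp κ) ((Algebra.lmul 𝒪 𝒪).comp κ') fun ℓ hℓ hℓS A hA σ hσ => by
      rw [AlgHom.comp_apply, AlgHom.comp_apply, h ℓ hℓ hℓS A hA σ hσ]
  ext x
  have h2 := LinearMap.congr_fun (congrArg (fun F => F x) h1) (1 : 𝒪)
  have h3 : κ x * 1 = κ' x * 1 := h2
  rwa [mul_one, mul_one] at h3

theorem trace_of_isEquiv {A B : Type} [CommRing A] [IsLocalRing A] [CommRing B] [IsLocalRing B]
    {φ : A →+* B} {hφ : IsLocalHom φ} {ρ : GaloisRepAdic A} {ρ' : GaloisRepAdic B}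
    (h : (ρ.baseChangeAlong φ hφ).IsEquiv ρ') (σ : Γℚ) : φ (ρ.trace σ) = ρ'.trace σ := by
  obtain ⟨e⟩ := h
  have h1 := charpoly_equiv e σ
  rw [charpoly_baseChangeAlong] at h1
  exact BN2.trace_eq_of_charpoly_map_eq ρ.finrank_eq ρ'.finrank_eq φ (RingHom.id B) _ _
    (by rw [Polynomial.map_id]; exact h1.symm)

end Points

section Newform

variable {p : ℕ} [Fact p.Prime] {N : ℕ} [NeZero N] {g : CuspForm (Gamma0 N) 2}
  {𝒪 : Type} [CommRing 𝒪] [IsDomain 𝒪] [IsDiscreteValuationRing 𝒪]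
  [IsAdicComplete (maximalIdeal 𝒪) 𝒪] [Finite (ResidueField 𝒪)] [CharZero 𝒪]
  {S : Finset ℕ} {a : ℕ → 𝒪} {j : 𝒪 →+* ℂ} {ρbar : ResidualGaloisRep (ResidueField 𝒪)}
  {𝒟 : ∀ ⦃A : Type⦄ [CommRing A] [IsLocalRing A] [Algebra 𝒪 A], GaloisRepAdic A → Prop}

/-- The traces at a point attached to a newform, at all primes `q ∤ N p`. -/
theorem trace_point (h30 : Datum.S30Statement) (hp𝒪 : (p : 𝒪) ∈ maximalIdeal 𝒪)
    (hj : Function.Injective j) (hg : g.IsNewform) (hpS : p ∈ S)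
    (hNS : ∀ q : ℕ, q.Prime → q ∣ N → q ∈ S)
    (ha : ∀ ℓ : ℕ, ℓ.Prime → ¬ ℓ ∣ N → j (a ℓ) = qCoeff ⇑g ℓ)
    (D : GaloisRep.DeformationRingData 𝒪 ρbar 𝒟) (hdet : D.ρ.DetIsCyclotomic p)
    {κ : D.R →ₐ[𝒪] 𝒪}
    (hκ : ∀ ℓ : ℕ, ℓ.Prime → ℓ ∉ S → ∀ A : ValuationSubring (AlgebraicClosure ℚ),
      A.LiesOverPrime ℓ → ∀ σ : Γℚ, A.IsFrobeniusAt σ ℓ → κ (D.ρ.trace σ) = a ℓ)
    {q : ℕ} (hq : q.Prime) (hqN : ¬ q ∣ N) (hqp : q ≠ p)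
    {P : ValuationSubring (AlgebraicClosure ℚ)} (hP : P.LiesOverPrime q) {φ : Γℚ}
    (hφ : P.IsFrobeniusAt φ q) : κ (D.ρ.trace φ) = a q := by
  obtain ⟨a', ha', h⟩ := Point.exists_trace_eq h30 hp𝒪 hg hpS hNS hj
    (fun ℓ hℓ hℓS => (ha ℓ hℓ fun h => hℓS (hNS ℓ hℓ h)).symm)
    (attached_repAt D Fact.out hdet hpS hκ) hq hqN hqp
  have h1 : a' = a q := hj (by rw [ha', ha q hq hqN])
  have h2 := h P hP φ hφ
  have h3 : (repAt D κ).trace φ = a' := by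
    rw [BN2.charpoly_eq_of_finrank_two (repAt D κ).finrank_eq] at h2
    have h4 := congrArg (fun P => P.coeff 1) h2
    have h5 : LinearMap.trace 𝒪 (repAt D κ).V ((repAt D κ).ρ φ) = a' := by
      simpa [coeff_X, coeff_C] using h4
    exact h5
  rw [← h1, ← h3]
  exact trace_of_isEquiv ⟨GaloisRepAdic.Equiv.refl _⟩ φ

/-- **The data of the numerical criterion at the primes of `Q`.** -/
theorem exists_frobData (h30 : Datum.S30Statement) (hp𝒪 : (p : 𝒪) ∈ maximalIdeal 𝒪)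
    (hj : Function.Injective j) (hg : g.IsNewform) (hpS : p ∈ S)
    (hNS : ∀ q : ℕ, q.Prime → q ∣ N → q ∈ S)
    (ha : ∀ ℓ : ℕ, ℓ.Prime → ¬ ℓ ∣ N → j (a ℓ) = qCoeff ⇑g ℓ)
    (D : GaloisRep.DeformationRingData 𝒪 ρbar 𝒟) (hdet : D.ρ.DetIsCyclotomic p)
    {κ : D.R →ₐ[𝒪] 𝒪}
    (hκ : ∀ ℓ : ℕ, ℓ.Prime → ℓ ∉ S → ∀ A : ValuationSubring (AlgebraicClosure ℚ),
      A.LiesOverPrime ℓ → ∀ σ : Γℚ, A.IsFrobeniusAt σ ℓ → κ (D.ρ.trace σ) = a ℓ)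
    (Q : Finset ℕ) (hQ : ∀ q ∈ Q, q.Prime ∧ ¬ q ∣ N ∧ q ≠ p) :
    ∃ F : FrobData Q D.ρ (κ : D.R →+* 𝒪), ∀ q ∈ Q, F.c q = Num.cq a q := by
  have hex : ∀ q : ℕ, ∃ (P : ValuationSubring (AlgebraicClosure ℚ)) (φ : Γℚ),
      q ∈ Q → P.LiesOverPrime q ∧ P.IsFrobeniusAt φ q := by
    intro q
    by_cases hq : q ∈ Q
    · obtain ⟨P, hP⟩ := FrobExists.exists_liesOverPrime (AlgebraicClosure ℚ) (hQ q hq).1
      obtain ⟨φ, hφ⟩ := FrobExists.exists_isFrobeniusAt P (hQ q hq).1 hP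
      exact ⟨P, φ, fun _ => ⟨hP, hφ⟩⟩
    · exact ⟨⊤, 1, fun h => absurd h hq⟩
  choose P φ hPφ using hex
  have htr : ∀ q ∈ Q, (κ : D.R →+* 𝒪) (D.ρ.trace (φ q)) = a q := fun q hq =>
    trace_point h30 hp𝒪 hj hg hpS hNS ha D hdet hκ (hQ q hq).1 (hQ q hq).2.1 (hQ q hq).2.2
      (hPφ q hq).1 (hPφ q hq).2
  have hc : ∀ q ∈ Q, eul q ((κ : D.R →+* 𝒪) (D.ρ.trace (φ q))) = Num.cq a q := fun q hq => by
    rw [htr q hq]; rfl
  refine ⟨⟨P, fun q hq => (hPφ q hq).1, φ, fun q hq => (hPφ q hq).2, fun q hq => ?_⟩, hc⟩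
  rw [hc q hq]
  have hPT := Point.ptData_of_isNewform' (j := j) (a := a) (ε := 1) hg S.finite_toSet
    (fun q hq h => Finset.mem_coe.mpr (hNS q hq h)) ha (by norm_num)
  exact hPT.cq_ne_zero (hQ q hq).1 (hQ q hq).2.1

end Newform

section Main

variable {p : ℕ} [hpf : Fact p.Prime] {W : WeierstrassCurve ℤ} (hΔ : W.Δ ≠ 0)
  {𝒪 : Type} [CommRing 𝒪] [IsDomain 𝒪] [IsDiscreteValuationRing 𝒪]
  [IsAdicComplete (maximalIdeal 𝒪) 𝒪] [Finite (ResidueField 𝒪)] [CharZero 𝒪]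
  [Algebra ℤ_[p] 𝒪] [IsLocalHom (algebraMap ℤ_[p] 𝒪)]

theorem Ssig_facts {q : ℕ} (hq : q ∈ Ssig W p) : q.Prime ∧ ¬ q ∣ Nmin W p ∧ q ≠ p :=
  ⟨prime_of_mem_Ssig hq, (adm_Ssig q hq).2.1, ne_of_mem_Ssig hq⟩

theorem Ssig_facts' {q : ℕ} (hq : q ∈ Ssig W p) : q.Prime ∧ q ≠ p ∧ q ∉ Smin W p := by
  refine ⟨prime_of_mem_Ssig hq, ne_of_mem_Ssig hq, fun h => ?_⟩
  rcases mem_Smin.mp h with h | h
  · exact ne_of_mem_Ssig hq h
  · exact not_mem_both h hq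

/-- `κ' = κ ∘ π`. -/
theorem comp_eq {ρbar : ResidualGaloisRep (ResidueField 𝒪)}
    {𝒟 𝒟' : ∀ ⦃A : Type⦄ [CommRing A] [IsLocalRing A] [Algebra 𝒪 A], GaloisRepAdic A → Prop}
    (D : GaloisRep.DeformationRingData 𝒪 ρbar 𝒟) (D' : GaloisRep.DeformationRingData 𝒪 ρbar 𝒟')
    (hg : DefCond.Good 𝒪 𝒟') (hdet : D'.ρ.DetIsCyclotomic p) {S : Finset ℕ} {a : ℕ → 𝒪}
    {κ : D.R →ₐ[𝒪] 𝒪} {κ' : D'.R →ₐ[𝒪] 𝒪}
    (hκ : ∀ ℓ : ℕ, ℓ.Prime → ℓ ∉ S → ∀ A : ValuationSubring (AlgebraicClosure ℚ),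
      A.LiesOverPrime ℓ → ∀ σ : Γℚ, A.IsFrobeniusAt σ ℓ → κ (D.ρ.trace σ) = a ℓ)
    (hκ' : ∀ ℓ : ℕ, ℓ.Prime → ℓ ∉ S → ∀ A : ValuationSubring (AlgebraicClosure ℚ),
      A.LiesOverPrime ℓ → ∀ σ : Γℚ, A.IsFrobeniusAt σ ℓ → κ' (D'.ρ.trace σ) = a ℓ)
    {π : D'.R →ₐ[𝒪] D.R} {hπ : IsLocalHom (π : D'.R →+* D.R)}
    (hπe : (D'.ρ.baseChangeAlong (π : D'.R →+* D.R) hπ).IsEquiv D.ρ) : κ' = κ.comp π := by
  refine point_ext D' hg hpf.out hdet S fun ℓ hℓ hℓS A hA σ hσ => ?_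
  rw [hκ' ℓ hℓ hℓS A hA σ hσ, AlgHom.comp_apply]
  have h1 : π (D'.ρ.trace σ) = D.ρ.trace σ := trace_of_isEquiv hπe σ
  rw [h1, hκ ℓ hℓ hℓS A hA σ hσ]

variable [NeZero (Nmin W p)] {g : CuspForm (Gamma0 (Nmin W p)) 2} {j : 𝒪 →+* ℂ} {a : ℕ → 𝒪}

/-- **The step at `p`**: from flat to ordinary. -/
theorem pstep (h30 : Datum.S30Statement) (hp2 : p ≠ 2) (hss : W.IsSemistableModel)
    (hirr : W.ModRepIsIrreducible p) (hp𝒪 : (p : 𝒪) ∈ maximalIdeal 𝒪)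
    (h1 : (p : ℤ) ∣ W.Δ) (h2 : p ∣ padicValInt p W.Δ) (hg : g.IsNewform)
    (hj : Function.Injective j) (ha : ∀ ℓ : ℕ, ℓ.Prime → ¬ ℓ ∣ Nmin W p → j (a ℓ) = qCoeff ⇑g ℓ)
    {t t' : PType} (ht : t = .flat) (ht' : t' = .ord) {T : Finset ℕ}
    (hT : T = Smin W p ∪ Ssig W p)
    (D : GaloisRep.DeformationRingData 𝒪 (rhoBar W hΔ p 𝒪)
      (dCond t 𝒪 p (Smin W p) (Smin W p)))
    (D' : GaloisRep.DeformationRingData 𝒪 (rhoBar W hΔ p 𝒪)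
      (dCond t' 𝒪 p T (Smin W p)))
    (κ : D.R →ₐ[𝒪] 𝒪) (κ' : D'.R →ₐ[𝒪] 𝒪)
    (hκ : ∀ ℓ : ℕ, ℓ.Prime → ℓ ∉ T → ∀ A : ValuationSubring (AlgebraicClosure ℚ),
      A.LiesOverPrime ℓ → ∀ σ : Γℚ, A.IsFrobeniusAt σ ℓ → κ (D.ρ.trace σ) = a ℓ)
    (hκ' : ∀ ℓ : ℕ, ℓ.Prime → ℓ ∉ T → ∀ A : ValuationSubring (AlgebraicClosure ℚ),
      A.LiesOverPrime ℓ → ∀ σ : Γℚ, A.IsFrobeniusAt σ ℓ → κ' (D'.ρ.trace σ) = a ℓ) :
    ∃ A : 𝒪, IsUnit A ∧ A ^ 2 - a p * A + p = 0 ∧ A ^ 2 - 1 ≠ 0 ∧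
      Module.length 𝒪 (RingHom.ker κ').Cotangent ≤
        Module.length 𝒪 (RingHom.ker κ).Cotangent +
          (Ring.ord 𝒪 (A ^ 2 - 1) + ∑ q ∈ Ssig W p, Ring.ord 𝒪 (Num.cq a q)) := by
  subst ht ht' hT
  have hp : p.Prime := hpf.out
  have habs := rhoBar_isAbsolutelyIrreducible hΔ 𝒪 hp2 hss hirr
  have hord := Typ.rhoBar_isOrdinaryAt hΔ 𝒪 hss h1
  have hpT : p ∈ Smin W p ∪ Ssig W p := Finset.mem_union_left _ p_mem_Smin
  have hNT : ∀ q : ℕ, q.Prime → q ∣ Nmin W p → q ∈ Smin W p ∪ Ssig W p := fun q hq h => by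
    rw [← Sbad_eq]; exact hNS_min q hq h
  have hpN : ¬ p ∣ Nmin W p := fun h => ((p_dvd_Nmin_iff hp).mp h).2 h2
  obtain ⟨π, hπ, hπe, -, hlen⟩ := sel_flat_ord (Smin := Smin W p) (S := Smin W p)
    (Q := Ssig W p) hp hp2 inferInstance (fun q hq => Ssig_facts' hq) hord D D'
  have hdet : D.ρ.DetIsCyclotomic p := D.isOfType.1.1
  have hdet' : D'.ρ.DetIsCyclotomic p := D'.isOfType.1.1
  have hflat : D.ρ.IsFlatAt p := D.isOfType.1.2.1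
  have hcomp : κ' = κ.comp π := comp_eq D D' (good_ordCond (Smin W p) _ hp hp2) hdet' hκ hκ' hπe
  obtain ⟨F, hF⟩ := exists_frobData h30 hp𝒪 hj hg hpT hNT ha D hdet hκ (Ssig W p)
    fun q hq => Ssig_facts hq
  -- the point is ordinary at `p`
  have hord₁ : D.ρ.IsOrdinaryAt p :=
    FlatOrd.Cyc.isOrdinaryAt_of_isFlatAt_of_detIsCyclotomic D.ρ hp hp2 hflat hdet
      (isOrdinaryAt_residual hord _ D.residual_isEquiv)
  have hord₂ : (repAt D κ).IsOrdinaryAt p := isOrdinaryAt_baseChange _ _ hord₁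
  obtain ⟨P, hP⟩ := FrobExists.exists_liesOverPrime (AlgebraicClosure ℚ) hp
  obtain ⟨φ, hφ⟩ := FrobExists.exists_isFrobeniusAt P hp hP
  obtain ⟨d⟩ := PStep.exists_ordData hord₂ hP
  have hrel := UnitRoot.unitRoot_of_coeff hp hp2 hp𝒪 j hj (attached_repAt D hp hdet hpT hκ)
    (residual_repAt D habs κ) hg.1 hpN hNT ha hP hφ hφ.mem_decompositionSubgroup d
  have hne : d.z φ ^ 2 - 1 ≠ 0 := by
    intro h0
    have hb : ‖j (a p)‖ < p + 1 := by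
      rw [ha p hp hpN]; exact Point.norm_qCoeff_lt hg hp hpN
    refine EigBound.sq_ne_one_of_norm_lt (A := j (d.z φ)) hb ?_ ?_
    · have h3 := congrArg j hrel
      simpa using h3
    · have h3 := congrArg j (sub_eq_zero.mp h0)
      simpa using h3
  refine ⟨d.z φ, UnitRoot.isUnit_z d hφ.mem_decompositionSubgroup, hrel, hne, ?_⟩
  have key := hlen κ (isLocalHom_point κ) (repAt D κ) ⟨GaloisRepAdic.Equiv.refl _⟩ P hP d φ
    hφ.mem_decompositionSubgroup hne F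
  rw [hcomp]
  rw [Finset.sum_congr rfl fun q hq => congrArg (Ring.ord 𝒪) (hF q hq)] at key
  exact key

/-- **No step at `p`**: the flat case. -/
theorem len_flat (h30 : Datum.S30Statement) (hp𝒪 : (p : 𝒪) ∈ maximalIdeal 𝒪)
    (hg : g.IsNewform) (hj : Function.Injective j)
    (ha : ∀ ℓ : ℕ, ℓ.Prime → ¬ ℓ ∣ Nmin W p → j (a ℓ) = qCoeff ⇑g ℓ)
    {t t' : PType} (ht : t = .flat) (ht' : t' = .flat) {T : Finset ℕ}
    (hT : T = Smin W p ∪ Ssig W p)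
    (D : GaloisRep.DeformationRingData 𝒪 (rhoBar W hΔ p 𝒪)
      (dCond t 𝒪 p (Smin W p) (Smin W p)))
    (D' : GaloisRep.DeformationRingData 𝒪 (rhoBar W hΔ p 𝒪)
      (dCond t' 𝒪 p T (Smin W p)))
    (κ : D.R →ₐ[𝒪] 𝒪) (κ' : D'.R →ₐ[𝒪] 𝒪)
    (hκ : ∀ ℓ : ℕ, ℓ.Prime → ℓ ∉ T → ∀ A : ValuationSubring (AlgebraicClosure ℚ),
      A.LiesOverPrime ℓ → ∀ σ : Γℚ, A.IsFrobeniusAt σ ℓ → κ (D.ρ.trace σ) = a ℓ)
    (hκ' : ∀ ℓ : ℕ, ℓ.Prime → ℓ ∉ T → ∀ A : ValuationSubring (AlgebraicClosure ℚ),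
      A.LiesOverPrime ℓ → ∀ σ : Γℚ, A.IsFrobeniusAt σ ℓ → κ' (D'.ρ.trace σ) = a ℓ) :
    Module.length 𝒪 (RingHom.ker κ').Cotangent ≤
      Module.length 𝒪 (RingHom.ker κ).Cotangent +
        ∑ q ∈ Ssig W p, Ring.ord 𝒪 (Num.cq a q) := by
  subst ht ht' hT
  have hp : p.Prime := hpf.out
  have hpT : p ∈ Smin W p ∪ Ssig W p := Finset.mem_union_left _ p_mem_Smin
  have hNT : ∀ q : ℕ, q.Prime → q ∣ Nmin W p → q ∈ Smin W p ∪ Ssig W p := fun q hq h => by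
    rw [← Sbad_eq]; exact hNS_min q hq h
  obtain ⟨π, hπ, hπe, -, hlen⟩ := sel_flat (Smin := Smin W p) (S := Smin W p)
    (Q := Ssig W p) hp (fun q hq => Ssig_facts' hq) D D'
  have hcomp : κ' = κ.comp π :=
    comp_eq D D' (good_flatCond (Smin W p) _ hp) D'.isOfType.1.1 hκ hκ' hπe
  obtain ⟨F, hF⟩ := exists_frobData h30 hp𝒪 hj hg hpT hNT ha D D.isOfType.1.1 hκ (Ssig W p)
    fun q hq => Ssig_facts hq
  have key := hlen κ F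
  rw [hcomp]
  rw [Finset.sum_congr rfl fun q hq => congrArg (Ring.ord 𝒪) (hF q hq)] at key
  exact key

/-- **No step at `p`**: the strict case. -/
theorem len_strict (h30 : Datum.S30Statement) (hp2 : p ≠ 2) (hp𝒪 : (p : 𝒪) ∈ maximalIdeal 𝒪)
    (hg : g.IsNewform) (hj : Function.Injective j)
    (ha : ∀ ℓ : ℕ, ℓ.Prime → ¬ ℓ ∣ Nmin W p → j (a ℓ) = qCoeff ⇑g ℓ)
    {t t' : PType} (ht : t = .strict) (ht' : t' = .strict) {T : Finset ℕ}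
    (hT : T = Smin W p ∪ Ssig W p)
    (D : GaloisRep.DeformationRingData 𝒪 (rhoBar W hΔ p 𝒪)
      (dCond t 𝒪 p (Smin W p) (Smin W p)))
    (D' : GaloisRep.DeformationRingData 𝒪 (rhoBar W hΔ p 𝒪)
      (dCond t' 𝒪 p T (Smin W p)))
    (κ : D.R →ₐ[𝒪] 𝒪) (κ' : D'.R →ₐ[𝒪] 𝒪)
    (hκ : ∀ ℓ : ℕ, ℓ.Prime → ℓ ∉ T → ∀ A : ValuationSubring (AlgebraicClosure ℚ),
      A.LiesOverPrime ℓ → ∀ σ : Γℚ, A.IsFrobeniusAt σ ℓ → κ (D.ρ.trace σ) = a ℓ)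
    (hκ' : ∀ ℓ : ℕ, ℓ.Prime → ℓ ∉ T → ∀ A : ValuationSubring (AlgebraicClosure ℚ),
      A.LiesOverPrime ℓ → ∀ σ : Γℚ, A.IsFrobeniusAt σ ℓ → κ' (D'.ρ.trace σ) = a ℓ) :
    Module.length 𝒪 (RingHom.ker κ').Cotangent ≤
      Module.length 𝒪 (RingHom.ker κ).Cotangent +
        ∑ q ∈ Ssig W p, Ring.ord 𝒪 (Num.cq a q) := by
  subst ht ht' hT
  have hp : p.Prime := hpf.out
  have hpT : p ∈ Smin W p ∪ Ssig W p := Finset.mem_union_left _ p_mem_Smin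
  have hNT : ∀ q : ℕ, q.Prime → q ∣ Nmin W p → q ∈ Smin W p ∪ Ssig W p := fun q hq h => by
    rw [← Sbad_eq]; exact hNS_min q hq h
  obtain ⟨π, hπ, hπe, -, hlen⟩ := sel_strict (Smin := Smin W p) (S := Smin W p)
    (Q := Ssig W p) hp hp2 (fun q hq => Ssig_facts' hq) D D'
  have hcomp : κ' = κ.comp π :=
    comp_eq D D' (good_strictCond (Smin W p) _ hp hp2) D'.isOfType.1.1 hκ hκ' hπe
  obtain ⟨F, hF⟩ := exists_frobData h30 hp𝒪 hj hg hpT hNT ha D D.isOfType.1.1 hκ (Ssig W p)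
    fun q hq => Ssig_facts hq
  have key := hlen κ F
  rw [hcomp]
  rw [Finset.sum_congr rfl fun q hq => congrArg (Ring.ord 𝒪) (hF q hq)] at key
  exact key

end Main

/-- **(C).** -/
theorem lenOrdProp (h30 : Datum.S30Statement) : LenOrdProp := by
  intro p hp hp2 W hΔ hss hirr _ 𝒪 _ _ _ _ _ _ _ _ _ hp𝒪 χ₀ hθ g j a h D D' κ κ' hκ hκ' h1 h2 hpN
  have ht : tmin W p = .flat := by rw [tmin, if_neg fun h => h.2 h2]
  have ht' : tsig W p = .ord := by rw [tsig, if_pos h1, if_pos h2]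
  obtain ⟨A, hA, hrel, -, hlen⟩ := pstep hΔ h30 hp2 hss hirr hp𝒪 h1 h2 h.isNewform h.inj
    (fun ℓ hℓ _ => h.coeff ℓ hℓ) ht ht' (Sbad_eq W p) D D' κ κ' hκ hκ'
  exact ⟨A, hA, hrel, fun _ => hlen⟩

/-- **(B).** -/
theorem lenFlatProp (h30 : Datum.S30Statement) : LenFlatProp := by
  intro p hp hp2 W hΔ hss hirr _ 𝒪 _ _ _ _ _ _ _ _ _ hp𝒪 χ₀ hθ g j a h D D' κ κ' hκ hκ' hc
  by_cases h1 : (p : ℤ) ∣ W.Δ
  · have h2 : ¬ p ∣ padicValInt p W.Δ := fun h2 => hc ⟨h1, h2⟩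
    have ht : tmin W p = .strict := by rw [tmin, if_pos ⟨h1, h2⟩]
    have ht' : tsig W p = .strict := by rw [tsig, if_pos h1, if_neg h2]
    exact len_strict hΔ h30 hp2 hp𝒪 h.isNewform h.inj
      (fun ℓ hℓ _ => h.coeff ℓ hℓ) ht ht' (Sbad_eq W p) D D' κ κ' hκ hκ'
  · have ht : tmin W p = .flat := by rw [tmin, if_neg fun h => h1 h.1]
    have ht' : tsig W p = .flat := by rw [tsig, if_neg h1]
    exact len_flat hΔ h30 hp𝒪 h.isNewform h.inj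
      (fun ℓ hℓ _ => h.coeff ℓ hℓ) ht ht' (Sbad_eq W p) D D' κ κ' hκ hκ'

/-- `PartsProp` from the conductor statement (A). -/
theorem partsProp_of_newformProp (h30 : Datum.S30Statement) (hA : NewformProp) : PartsProp :=
  partsProp_of hA (lenFlatProp h30) (lenOrdProp h30)

end Fermat.Agent.RT.Wiring.PStepW
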