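import Fermat.Agent.RT.Wiring.Main
import Fermat.Agent.RT.Wiring.PStepW
import Fermat.Agent.RT.Wiring.NewformOf

/-!
# `MLT` from the frozen statements S30, S32, S33, S34, S35, S36, S56 (team RT, helper28)
-/

set_option autoImplicit false

namespace Fermat.Agent.RT.Wiring

open Fermat.Agent.CMP Fermat.Agent.CMP.S58Assembly

/-- **`PartsProp`.** -/
theorem partsProp (I : Typ.Inputs) : PartsProp :=
  PStepW.partsProp_of_newformProp I.s30 (newformProp_of I tauProp)

/-- **`MLT`** from S30, S32, S33, S34, S35, S36, S56. -/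
theorem mlt_of_frozen (I : Typ.Inputs) (h36 : S36Prop) (h56 : S56Prop) : MLT :=
  mlt_of_inputs I h36 h56 (partsProp I)

/-- **S59** from level optimisation and S30, S32, S33, S34, S35, S36, S56. -/
theorem s59_of_frozen (I : Typ.Inputs) (h36 : S36Prop) (h56 : S56Prop) (hLevel : LevelOpt) :
    S59Prop :=
  s59_of hLevel (mlt_of_frozen I h36 h56) I.s35 h36

end Fermat.Agent.RT.Wiring
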