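import Fermat.Agent.CMP.OrderDVR
import Fermat.Agent.CMP.EigenCharOn
import Fermat.Prelude.Def_FLTPrelim_ModularRep

/-!
# RT10 (helper28): the base ring `𝒪` (RT-BASE)

* `exists_base` : if `W` is residually modular of level `N` there is a complete DVR `𝒪`, finite
  over `ℤ_p`, whose residue field contains a primitive `(p²-1)`-th root of unity, and a character
  `χ₀ : heckeAlgebra N 2 S → 𝒪` with `χ₀(T_ℓ) ≡ a_ℓ(W)`.
-/

set_option autoImplicit false

open Polynomial IsLocalRing CongruenceSubgroup ModularFormClass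

namespace Fermat.Agent.RT.Wiring

open Fermat.Agent.CMP

/-- The residue of a primitive `n`-th root of unity is primitive if `n` is prime to the residue
characteristic. -/
theorem isPrimitiveRoot_residue {A : Type} [CommRing A] [IsLocalRing A] [IsDomain A] {ζ : A}
    {n : ℕ} (hζ : IsPrimitiveRoot ζ n) (hn : (n : ResidueField A) ≠ 0) :
    IsPrimitiveRoot (residue A ζ) n := by
  have hn0 : n ≠ 0 := by rintro rfl; simp at hn
  obtain ⟨m, rfl⟩ := Nat.exists_eq_succ_of_ne_zero hn0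
  have hprod := hζ.prod_one_sub_pow_eq_order
  refine IsPrimitiveRoot.mk_of_lt _ (Nat.succ_pos m) ?_ ?_
  · rw [← map_pow, hζ.pow_eq_one, map_one]
  · intro l hl hlm h
    apply hn
    have h1 := congrArg (residue A) hprod
    rw [map_prod, Finset.prod_eq_zero (i := l - 1) (Finset.mem_range.mpr (by omega))] at h1
    · rw [map_add, map_natCast, map_one] at h1
      rw [Nat.succ_eq_add_one, Nat.cast_add, Nat.cast_one]
      exact h1.symm
    · rw [map_sub, map_pow, map_one, Nat.sub_add_cancel hl, h, sub_self]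

/-- A finite set of complex algebraic integers generates an order. -/
theorem exists_order {N : ℕ} [NeZero N] {S : Set ℕ} (χ : CuspForm.heckeAlgebra N 2 S →+* ℂ)
    {n : ℕ} (hn : n ≠ 0) :
    ∃ (R : Subalgebra ℤ ℂ), Module.Finite ℤ R ∧ (∀ t, χ t ∈ R) ∧
      ∃ ζ ∈ R, IsPrimitiveRoot ζ n := by
  have hfin : Module.Finite ℤ χ.range := EigenCharOn.finite_range_of_heckeAlgebra χ
  let j : χ.range →ₗ[ℤ] ℂ := χ.range.subtype.toIntAlgHom.toLinearMap
  obtain ⟨s, hs⟩ := hfin.fg_top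
  have hζ := Complex.isPrimitiveRoot_exp n hn
  set ζ := Complex.exp (2 * Real.pi * Complex.I / n) with hζdef
  let T : Set ℂ := insert ζ (j '' (↑s : Set χ.range))
  have hTfin : T.Finite := (s.finite_toSet.image _).insert _
  have hint : ∀ x ∈ T, IsIntegral ℤ x := by
    intro x hx
    rcases hx with rfl | ⟨y, -, rfl⟩
    · exact hζ.isIntegral (Nat.pos_of_ne_zero hn)
    · have h1 : IsIntegral ℤ y := Algebra.IsIntegral.isIntegral y
      exact h1.map χ.range.subtype.toIntAlgHom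
  refine ⟨Algebra.adjoin ℤ T, Algebra.finite_adjoin_of_finite_of_isIntegral hTfin hint, ?_,
    ζ, Algebra.subset_adjoin (Set.mem_insert _ _), hζ⟩
  intro t
  have h1 : (⟨χ t, ⟨t, rfl⟩⟩ : χ.range) ∈ Submodule.span ℤ (↑s : Set χ.range) := by
    rw [hs]; exact Submodule.mem_top
  have h2 : j ⟨χ t, ⟨t, rfl⟩⟩ ∈ (Submodule.span ℤ (↑s : Set χ.range)).map j := ⟨_, h1, rfl⟩
  rw [Submodule.map_span] at h2
  have h3 : Submodule.span ℤ (j '' (↑s : Set χ.range)) ≤
      Subalgebra.toSubmodule (Algebra.adjoin ℤ T) := by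
    rw [Submodule.span_le]
    intro x hx
    exact Algebra.subset_adjoin (Set.mem_insert_of_mem _ hx)
  exact h3 h2

/-- **RT-BASE.** -/
theorem exists_base (p : ℕ) [hpf : Fact p.Prime] (W : WeierstrassCurve ℤ) {N : ℕ} [NeZero N]
    (hres : W.IsResiduallyModularOfLevel p N) (S : Finset ℕ) (hpS : p ∈ S)
    (hΔS : ∀ q : ℕ, q.Prime → (q : ℤ) ∣ W.Δ → q ∈ S) :
    ∃ (𝒪 : Type) (_ : CommRing 𝒪) (_ : IsDomain 𝒪) (_ : IsDiscreteValuationRing 𝒪)
      (_ : IsAdicComplete (maximalIdeal 𝒪) 𝒪) (_ : Finite (ResidueField 𝒪))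
      (_ : CharZero 𝒪) (_ : Algebra ℤ_[p] 𝒪) (_ : Module.Finite ℤ_[p] 𝒪)
      (_ : IsLocalHom (algebraMap ℤ_[p] 𝒪)),
      Function.Injective (algebraMap ℤ_[p] 𝒪) ∧ (p : 𝒪) ∈ maximalIdeal 𝒪 ∧
      (∃ ζ : ResidueField 𝒪, IsPrimitiveRoot ζ (p ^ 2 - 1)) ∧
      ∃ χ₀ : CuspForm.heckeAlgebra N 2 (↑S : Set ℕ) →+* 𝒪,
        ∀ (ℓ : ℕ) (hℓ : ℓ.Prime) (hℓN : ¬ ℓ ∣ N) (hℓS : ℓ ∉ (↑S : Set ℕ)),
          residue 𝒪 (χ₀ (CuspForm.heckeAlgebra.T hℓ hℓN hℓS)) =
            (W.apOfModel ℓ : ResidueField 𝒪) := by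
  classical
  obtain ⟨f, 𝔪, hf, h𝔪, hp𝔪, hfa⟩ := hres
  have hn : p ^ 2 - 1 ≠ 0 := by
    have h2 := hpf.out.two_le
    have : 4 ≤ p ^ 2 := by nlinarith
    omega
  let χ := EigenCharOn.eigenCharOn (↑S : Set ℕ) hf
  obtain ⟨R, hRfin, hχR, ζ, hζR, hζ⟩ := exists_order χ hn
  have hRint : ∀ x : R, IsIntegral ℤ (x : ℂ) := fun x => by
    have h1 : IsIntegral ℤ x := Algebra.IsIntegral.isIntegral x
    exact h1.map R.val
  let j : R →+* integralClosure ℤ ℂ := (R.val : R →+* ℂ).codRestrict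
    (integralClosure ℤ ℂ).toSubring fun x => hRint x
  have hj : ∀ x : R, ((j x : integralClosure ℤ ℂ) : ℂ) = x := fun x => rfl
  let 𝔫 : Ideal R := 𝔪.comap j
  have hp𝔫 : (p : R) ∈ 𝔫 := by
    rw [Ideal.mem_comap, map_natCast]; exact hp𝔪
  have hprime : 𝔫.IsPrime := Ideal.IsPrime.comap j
  have htf : Module.IsTorsionFree ℤ R := inferInstance
  have hmax : 𝔫.IsMaximal := by
    have hdom : IsDomain (R ⧸ 𝔫) := Ideal.Quotient.isDomain 𝔫
    have hfin : Finite (R ⧸ 𝔫) := by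
      have hc : CharP (R ⧸ 𝔫) p := by
        refine (CharP.charP_iff_prime_eq_zero hpf.out).mpr ?_
        rw [← map_natCast (Ideal.Quotient.mk 𝔫), Ideal.Quotient.eq_zero_iff_mem]
        exact hp𝔫
      let _ : Algebra (ZMod p) (R ⧸ 𝔫) := ZMod.algebra _ p
      have : Module.Finite ℤ (R ⧸ 𝔫) := inferInstance
      have : IsScalarTower ℤ (ZMod p) (R ⧸ 𝔫) := IsScalarTower.of_algebraMap_eq'
        (RingHom.ext_int _ _)
      have : Module.Finite (ZMod p) (R ⧸ 𝔫) := Module.Finite.of_restrictScalars_finite ℤ _ _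
      exact Module.finite_of_finite (ZMod p)
    have := Finite.isField_of_domain (R ⧸ 𝔫)
    exact Ideal.Quotient.maximal_of_isField _ this
  obtain ⟨O', i1, i2, i3, i4, i5, i6, i7, i8, i9, hinj, hpO, g, hg, hginj⟩ :=
    OrderDVR.exists_dvr_of_order p R 𝔫 hp𝔫
  have hginj' : Function.Injective g := hginj inferInstance
  refine ⟨O', i1, i2, i3, i4, i5, i6, i7, i8, i9, hinj, hpO, ?_, ?_⟩
  · refine ⟨residue O' (g ⟨ζ, hζR⟩), isPrimitiveRoot_residue ?_ ?_⟩
    · have h1 : IsPrimitiveRoot (⟨ζ, hζR⟩ : R) (p ^ 2 - 1) :=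
        IsPrimitiveRoot.of_map_of_injective (f := R.val) (by exact hζ) Subtype.val_injective
      exact h1.map_of_injective hginj'
    · intro h
      have h1 : (1 : ResidueField O') = 0 := by
        have h2 : ((p : ℕ) : ResidueField O') = 0 := by
          rw [← map_natCast (residue O'), residue_eq_zero_iff]; exact hpO
        have h3 : (((p ^ 2 - 1 : ℕ) : ResidueField O')) + 1 = (p : ResidueField O') ^ 2 := by
          have h4 : 1 ≤ p ^ 2 := Nat.one_le_pow _ _ hpf.out.pos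
          have h5 : ((p ^ 2 - 1 + 1 : ℕ) : ResidueField O') = ((p ^ 2 : ℕ) : ResidueField O') := by
            rw [Nat.sub_add_cancel h4]
          rwa [Nat.cast_add, Nat.cast_one, Nat.cast_pow] at h5
        rw [h, h2, zero_add] at h3
        rw [h3]; exact zero_pow two_ne_zero
      exact one_ne_zero h1
  · let χR : CuspForm.heckeAlgebra N 2 (↑S : Set ℕ) →+* R := χ.codRestrict R.toSubring hχR
    refine ⟨g.comp χR, fun ℓ hℓ hℓN hℓS => ?_⟩
    have hℓS' : ℓ ∉ S := fun h => hℓS (Finset.mem_coe.mpr h)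
    have hℓp : ℓ ≠ p := fun h => hℓS' (h ▸ hpS)
    have hgood : W.IsGoodPrimeFor ℓ := fun h => hℓS' (hΔS ℓ hℓ h)
    obtain ⟨a, ha, ham⟩ := hfa ℓ hℓ hgood hℓN hℓp
    have h1 : χR (CuspForm.heckeAlgebra.T hℓ hℓN hℓS) - (W.apOfModel ℓ : R) ∈ 𝔫 := by
      rw [Ideal.mem_comap, map_sub, map_intCast]
      convert ham using 2
      apply Subtype.ext
      rw [hj, ha]
      exact EigenCharOn.eigenCharOn_T _ hf hℓ hℓN hℓS
    rw [← hg, Ideal.mem_comap, map_sub, map_intCast] at h1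
    rw [RingHom.comp_apply, ← sub_eq_zero, ← map_intCast (residue O'), ← map_sub,
      residue_eq_zero_iff]
    exact h1

end Fermat.Agent.RT.Wiring
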