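import Fermat.Agent.CMP.S58Assembly
import Fermat.Agent.CMP.CharExtend
import Fermat.Agent.EllTate.S58Input
import Fermat.Prelude.Def_WeierstrassCurve_Mlc1RowStatement

/-!
# RT10 (helper28): from an eigensystem of `W` at almost all primes to the conclusion of S59

* `conductorLevel_of_almost` : an eigenform of cube-free level `N` (`p² ∤ N`) with
  `a_ℓ(f) = a_ℓ(W)` for almost all `ℓ` gives `W.IsModularModelOfLevel W.conductorLevel`.
* `mlc1_of_char` : the same from a character `χ : heckeAlgebra N 2 S →+* 𝒪` with values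
  `χ(T_ℓ) = a_ℓ(W)` for almost all `ℓ`.
-/

set_option autoImplicit false

open Polynomial IsLocalRing CongruenceSubgroup ModularFormClass

namespace Fermat.Agent.RT.Wiring

open Fermat.Agent.CMP Fermat.Agent.CMP.S58Assembly

/-- Level lowering to the conductor from the knowledge of almost all eigenvalues. -/
theorem conductorLevel_of_almost (h35 : S35Prop) (h36 : S36Prop)
    {W : WeierstrassCurve ℤ} (hss : W.IsSemistableModel) (hΔ : W.Δ ≠ 0) {N : ℕ} (hN0 : N ≠ 0)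
    (p : ℕ) [Fact p.Prime] (hp2 : p ≠ 2) (hirr : W.ModRepIsIrreducible p)
    (hp2N : ¬ p ^ 2 ∣ N) (hN3 : ∀ q : ℕ, q.Prime → ¬ q ^ 3 ∣ N)
    {f : CuspForm (Gamma0 N) 2} (hf : f.IsNormalizedEigenform) (D : Finset ℕ)
    (hfa : ∀ ℓ : ℕ, ℓ.Prime → ℓ ∉ D → qCoeff ⇑f ℓ = (W.apOfModel ℓ : ℂ)) :
    W.IsModularModelOfLevel W.conductorLevel := by
  classical
  have hT' := EllTate.tateInput hss hΔ
  obtain ⟨M, hMN, g, hg, hga⟩ := Oldform.exists_isNewform hN0 hf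
  have hM0 : M ≠ 0 := fun h => hN0 (by rw [h] at hMN; exact zero_dvd_iff.mp hMN)
  have : NeZero M := ⟨hM0⟩
  have hgW : ∀ ℓ : ℕ, ℓ.Prime → ℓ ∉ D ∪ N.primeFactors → qCoeff ⇑g ℓ = (W.apOfModel ℓ : ℂ) := by
    intro ℓ hℓ hℓN
    rw [Finset.mem_union, not_or] at hℓN
    have hℓN' : ¬ ℓ ∣ N := fun h => hℓN.2 (Nat.mem_primeFactors.mpr ⟨hℓ, h, hN0⟩)
    rw [hga ℓ hℓ hℓN']
    exact hfa ℓ hℓ hℓN.1
  have hgood := fun q hq hqΔ =>
    apOfModel_eq_and_dvd h35 hT' hg hΔ (D ∪ N.primeFactors) hgW q hq hqΔ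
  have h2 := fun q hq hqp =>
    factorization_ne_two h36 hT' hg hΔ (D ∪ N.primeFactors) hgW p hp2 hirr q hq hqp
  -- `M` is squarefree
  have hsq : ∀ q : ℕ, q.Prime → ¬ q ^ 2 ∣ M := by
    intro q hq h
    by_cases hqp : q = p
    · subst hqp
      exact hp2N (h.trans hMN)
    · refine h2 q hq hqp ?_
      have h3 : ¬ q ^ 3 ∣ M := fun h' => hN3 q hq (h'.trans hMN)
      have h4 := (hq.pow_dvd_iff_le_factorization hM0).mp h
      have h5 := mt (hq.pow_dvd_iff_le_factorization hM0).mpr h3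
      omega
  have hMsq : Squarefree M := by
    rw [Nat.squarefree_iff_prime_squarefree]
    intro q hq h
    exact hsq q hq (by rwa [pow_two])
  have hMdvd : M ∣ W.conductorLevel := by
    rw [← Nat.prod_primeFactors_of_squarefree hMsq]
    refine Finset.prod_primes_dvd _ (fun q hq => (Nat.prime_of_mem_primeFactors hq).prime) ?_
    intro q hq
    have hqp := Nat.prime_of_mem_primeFactors hq
    rw [WeierstrassCurve.prime_dvd_conductorLevel_iff W hΔ hqp]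
    by_contra hqΔ
    exact (hgood q hqp hqΔ).2 ⟨Nat.dvd_of_mem_primeFactors hq, hsq q hqp⟩
  have hMmod : W.IsModularModelOfLevel M :=
    ⟨g, hg.1, fun q hq hqW hqM => (hgood q hq hqW).1 hqM⟩
  exact Oldform.isModularModelOfLevel_of_dvd (NeZero.ne _) hMdvd hMmod

/-- The conclusion of S59 from modularity of conductor level. -/
theorem mlc1_of_conductorLevel {W : WeierstrassCurve ℤ} (hΔ : W.Δ ≠ 0)
    (h : W.IsModularModelOfLevel W.conductorLevel) :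
    Mlc1IsModularModelOfExactConductorLevel W :=
  ⟨W.conductorLevel, W.conductorLevel_pos, W.squarefree_conductorLevel,
    fun _ hq => W.prime_dvd_conductorLevel_iff hΔ hq, h⟩

/-- A character of an anemic Hecke algebra with values in a domain of characteristic zero, taking
integral values `a_ℓ ∈ ℤ` on the `T_ℓ`, gives a normalised eigenform with these eigenvalues. -/
theorem exists_eigenform_of_int_char {N : ℕ} [NeZero N] {S : Set ℕ} {𝒪 : Type} [CommRing 𝒪]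
    [CharZero 𝒪] (χ : CuspForm.heckeAlgebra N 2 S →+* 𝒪) (a : ℕ → ℤ)
    (hS : ∀ ℓ : ℕ, ℓ.Prime → ℓ ∣ N → ℓ ∈ S)
    (hχ : ∀ (ℓ : ℕ) (hℓ : ℓ.Prime) (hℓN : ¬ ℓ ∣ N) (hℓS : ℓ ∉ S),
      χ (CuspForm.heckeAlgebra.T hℓ hℓN hℓS) = (a ℓ : 𝒪)) :
    ∃ f : CuspForm (Gamma0 N) 2, f.IsNormalizedEigenform ∧
      ∀ ℓ : ℕ, ℓ.Prime → ℓ ∉ S → qCoeff ⇑f ℓ = (a ℓ : ℂ) := by
  have hr : ∀ t, χ t ∈ (Int.castRingHom 𝒪).range := by
    rintro ⟨T, hT⟩
    induction hT using Algebra.adjoin_induction with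
    | mem x hx =>
      rcases hx with ⟨ℓ, hℓ, hℓN, hℓS, rfl⟩ | ⟨q, hqN, hq, hqS, rfl⟩
      · exact ⟨a ℓ, (hχ ℓ hℓ hℓN hℓS).symm⟩
      · exact absurd (hS q hq hqN) hqS
    | algebraMap r => exact ⟨r, (map_intCast χ r).symm⟩
    | add x y hx hy h1 h2 => exact (map_add χ ⟨x, hx⟩ ⟨y, hy⟩) ▸ add_mem h1 h2
    | mul x y hx hy h1 h2 => exact (map_mul χ ⟨x, hx⟩ ⟨y, hy⟩) ▸ mul_mem h1 h2
  let χ1 : CuspForm.heckeAlgebra N 2 S →+* (Int.castRingHom 𝒪).range := χ.codRestrict _ hr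
  let e : ℤ ≃+* (Int.castRingHom 𝒪).range := RingEquiv.ofBijective
    (Int.castRingHom 𝒪).rangeRestrict ⟨fun x y h => by
      have h1 := congrArg Subtype.val h
      exact Int.cast_injective (α := 𝒪) h1, (Int.castRingHom 𝒪).rangeRestrict_surjective⟩
  obtain ⟨f, hf, hfa⟩ := CharExtend.exists_eigenform_of_char
    ((Int.castRingHom ℂ).comp ((e.symm : (Int.castRingHom 𝒪).range →+* ℤ).comp χ1))
  refine ⟨f, hf, fun ℓ hℓ hℓS => ?_⟩
  have hℓN : ¬ ℓ ∣ N := fun h => hℓS (hS ℓ hℓ h)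
  rw [hfa ℓ hℓ hℓN hℓS]
  have h2 : χ1 (CuspForm.heckeAlgebra.T hℓ hℓN hℓS) = e (a ℓ) := by
    apply Subtype.ext
    exact hχ ℓ hℓ hℓN hℓS
  rw [RingHom.comp_apply, RingHom.comp_apply, h2]
  have h3 : (e.symm : (Int.castRingHom 𝒪).range →+* ℤ) (e (a ℓ)) = a ℓ := e.symm_apply_apply _
  rw [h3]
  simp

/-- **The end of the proof of S59**: a character of the anemic Hecke algebra of a cube-free level
with the eigenvalues of `W`. -/
theorem mlc1_of_char (h35 : S35Prop) (h36 : S36Prop)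
    {W : WeierstrassCurve ℤ} (hss : W.IsSemistableModel) (hΔ : W.Δ ≠ 0) {N : ℕ} [NeZero N]
    (p : ℕ) [Fact p.Prime] (hp2 : p ≠ 2) (hirr : W.ModRepIsIrreducible p)
    (hp2N : ¬ p ^ 2 ∣ N) (hN3 : ∀ q : ℕ, q.Prime → ¬ q ^ 3 ∣ N) (S : Finset ℕ)
    (hS : ∀ ℓ : ℕ, ℓ.Prime → ℓ ∣ N → ℓ ∈ S) {𝒪 : Type} [CommRing 𝒪] [CharZero 𝒪]
    (χ : CuspForm.heckeAlgebra N 2 (↑S : Set ℕ) →+* 𝒪)
    (hχ : ∀ (ℓ : ℕ) (hℓ : ℓ.Prime) (hℓN : ¬ ℓ ∣ N) (hℓS : ℓ ∉ (↑S : Set ℕ)),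
      χ (CuspForm.heckeAlgebra.T hℓ hℓN hℓS) = (W.apOfModel ℓ : 𝒪)) :
    Mlc1IsModularModelOfExactConductorLevel W := by
  obtain ⟨f, hf, hfa⟩ := exists_eigenform_of_int_char χ W.apOfModel
    (fun ℓ hℓ h => Finset.mem_coe.mpr (hS ℓ hℓ h)) hχ
  exact mlc1_of_conductorLevel hΔ (conductorLevel_of_almost h35 h36 hss hΔ (NeZero.ne N) p hp2 hirr
    hp2N hN3 hf S fun ℓ hℓ hℓS => hfa ℓ hℓ fun h => hℓS (Finset.mem_coe.mp h))

end Fermat.Agent.RT.Wiring
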