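import Fermat.Agent.RT.Wiring.Levels
import Fermat.Agent.RT.Wiring.Base
import Fermat.Agent.RT.Wiring.Conductor

/-!
# RT10 (helper28): the conditional proof of S59

`s59_of : LevelOpt → MLT → S35Prop → S36Prop → S59`.
-/

set_option autoImplicit false

open Polynomial IsLocalRing CongruenceSubgroup ModularFormClass

namespace Fermat.Agent.RT.Wiring

open Fermat.Agent.CMP Fermat.Agent.CMP.S58Assembly

/-- The statement S59. -/
def S59Prop : Prop :=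
  ∀ (p : ℕ) (_hp : p = 3 ∨ p = 5)
    (W : WeierstrassCurve ℤ) (_hΔ : W.Δ ≠ 0) (_hW : W.IsSemistableModel)
    (_hirr : W.ModRepIsIrreducible p)
    (M₀ : ℕ) [NeZero M₀] (_hres₀ : W.IsResiduallyModularOfLevel p M₀)
    (_hM₀ : ¬ p ^ 2 ∣ M₀)
    (_hM₀3 : ∀ q : ℕ, q.Prime → q ≠ p → ¬ q ^ 3 ∣ M₀),
    Mlc1IsModularModelOfExactConductorLevel W

/-- **S59 from level optimisation, modularity lifting at `Nsig`, S35 and S36.** -/
theorem s59_of (hLevel : LevelOpt) (hMLT : MLT) (h35 : S35Prop) (h36 : S36Prop) : S59Prop := by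
  intro p hp W hΔ hW hirr M₀ _ hres₀ hM₀ hM₀3
  have hprime : p.Prime := by
    rcases hp with rfl | rfl
    · exact Nat.prime_three
    · exact Nat.prime_five
  have hp2 : p ≠ 2 := by
    rcases hp with rfl | rfl <;> norm_num
  have hpf : Fact p.Prime := ⟨hprime⟩
  have hN1 : NeZero (Nmin W p) := ⟨(Nmin_pos hprime).ne'⟩
  have hN2 : NeZero (Nsig W p) := ⟨(Nsig_pos hprime).ne'⟩
  have hres := hLevel p hp W hΔ hW hirr M₀ hres₀ hM₀ hM₀3
  obtain ⟨𝒪, i1, i2, i3, i4, i5, i6, i7, i8, i9, hinj, hpO, hζ, χ₀, hχ₀⟩ :=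
    exists_base p W hres (Sbad W p) p_mem_Sbad fun q hq h => (mem_Sbad hΔ).mpr (Or.inr ⟨hq, h⟩)
  obtain ⟨χ, hχ⟩ := hMLT p hp W hΔ hW hirr 𝒪 hpO hζ χ₀ hχ₀
  exact mlc1_of_char h35 h36 hW hΔ p hp2 hirr (not_sq_p_dvd_Nsig hprime)
    (fun q hq => not_cube_dvd_Nsig hprime hq) (Sbad W p)
    (fun ℓ hℓ h => mem_Sbad_of_dvd_Nsig hprime hℓ h) χ hχ

end Fermat.Agent.RT.Wiring
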