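import Fermat.Agent.RT.Wiring.EigBound
import Fermat.Agent.LR.EigenSymbol

/-!
# RT10 (helper28): the trivial bound `|a_q| < q + 1` for modular symbols
-/

set_option autoImplicit false

open CongruenceSubgroup
open scoped MatrixGroups

namespace Fermat.Agent.RT.Wiring.EigBound

open Fermat.Agent.LR Fermat.Agent.LR.PS

/-- **The trivial bound for eigensymbols** (not boundary symbols). -/
theorem norm_lt_of_eigensymbol {N : ℕ} [NeZero N]
    (hES : LinearMap.range (ModularCurve.periodHomPair N) =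
      ModularCurve.Period.parabolicHoms ℂ (Gamma0 N) ℂ)
    {x : Pairs ℂ} (hx : x ∈ MS (Gamma0 N) ℂ) (hnb : ¬ IsBoundary (Gamma0 N) x)
    {q : ℕ} (hq : q.Prime) (hqN : ¬ q ∣ N) {c : ℂ} (h : heckeT q x = c • x) : ‖c‖ < q + 1 := by
  obtain ⟨u, hu, hu'⟩ := exists_eigenvector_of_eigensymbol hES hx hnb {q} (fun _ => c)
    (fun ℓ hℓ _ => by
      rw [Set.mem_singleton_iff] at hℓ
      subst hℓ
      rw [symOp, if_neg hqN, h])
  have h1 := hu' q (Set.mem_singleton q) hq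
  rw [frmOp, dif_neg hqN] at h1
  exact norm_lt_of_heckeTLin_eq hu hq hqN h1

/-- `(q+1)² - c² ≠ 0`. -/
theorem sq_ne_of_eigensymbol {N : ℕ} [NeZero N]
    (hES : LinearMap.range (ModularCurve.periodHomPair N) =
      ModularCurve.Period.parabolicHoms ℂ (Gamma0 N) ℂ)
    {x : Pairs ℂ} (hx : x ∈ MS (Gamma0 N) ℂ) (hnb : ¬ IsBoundary (Gamma0 N) x)
    {q : ℕ} (hq : q.Prime) (hqN : ¬ q ∣ N) {c : ℂ} (h : heckeT q x = c • x) :
    ((q : ℂ) + 1) ^ 2 - c ^ 2 ≠ 0 :=
  sq_ne_of_norm_lt (norm_lt_of_eigensymbol hES hx hnb hq hqN h)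

end Fermat.Agent.RT.Wiring.EigBound
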