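import Fermat.Agent.RT.Wiring.MLTDefs
import Fermat.Agent.RT.Num.Uniq

/-!
# The final level (team RT, helper28)

`sig_level`: the deformation ring of the final problem maps onto the Hecke algebra of level `Nsig`.
`mu_comp_eq`: the two points of the deformation ring `D_Σ.R` attached to `χ₀` coincide.
-/

set_option autoImplicit false
set_option linter.unusedSectionVars false
set_option linter.style.haveILetI false

open Polynomial IsLocalRing CuspForm CongruenceSubgroup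

noncomputable section

namespace Fermat.Agent.RT.Wiring

open Fermat.Agent.DefCond Fermat.Agent.UDef Fermat.Agent.RT.TWBase Fermat.Agent.RT.MSHecke
  Fermat.Agent.LR

local notation "Γℚ" => (AlgebraicClosure ℚ ≃ₐ[ℚ] AlgebraicClosure ℚ)

section

variable {p : ℕ} [hp : Fact p.Prime] {W : WeierstrassCurve ℤ} (hΔ : W.Δ ≠ 0)
  [NeZero (Nmin W p)] [NeZero (Nsig W p)]
  {𝒪 : Type} [CommRing 𝒪] [IsDomain 𝒪] [IsDiscreteValuationRing 𝒪]
  [IsAdicComplete (maximalIdeal 𝒪) 𝒪] [Finite (ResidueField 𝒪)] [CharZero 𝒪]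
  [Algebra ℤ_[p] 𝒪] [Module.Finite ℤ_[p] 𝒪] [IsLocalHom (algebraMap ℤ_[p] 𝒪)]

/-- `θ` restricted to the level `Nsig`. -/
theorem ThetaW.restrW {θ : heckeAlgebra (Nmin W p) 2 (↑(Sbad W p) : Set ℕ) →+* ResidueField 𝒪}
    (h : ThetaW W θ) : ThetaW W (θ.comp (restrW W p)) := fun ℓ hℓ hℓN hℓS => by
  have hℓM : ¬ ℓ ∣ Nmin W p := fun h' => hℓN (h'.trans (Nmin_dvd_Nsig hp.out))
  rw [RingHom.comp_apply, restrW_T hℓ hℓN hℓM hℓS, h]

/-- **The final level.** -/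
theorem sig_level (h30 : Datum.S30Statement) (hTS : TypeSigProp)
    (hp2 : p ≠ 2) (hss : W.IsSemistableModel)
    (hirr : W.ModRepIsIrreducible p) (hp𝒪 : (p : 𝒪) ∈ maximalIdeal 𝒪)
    (θ : heckeAlgebra (Nsig W p) 2 (↑(Sbad W p) : Set ℕ) →+* ResidueField 𝒪)
    (hθ : ThetaW W θ) [Fact (HasIntegralStructure (Nsig W p) 2)] :
    ∃ (H : HeckeGaloisRepDatum (Nsig W p) (↑(Sbad W p) : Set ℕ) 𝒪 θ
        (heckeLocal (Nsig W p) (↑(Sbad W p) : Set ℕ) 𝒪 θ))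
      (D : GaloisRep.DeformationRingData 𝒪 (rhoBar W hΔ p 𝒪)
        (dCond (tsig W p) 𝒪 p (Sbad W p) (Smin W p)))
      (φ : D.R →ₐ[𝒪] heckeLocal (Nsig W p) (↑(Sbad W p) : Set ℕ) 𝒪 θ)
      (hφ : IsLocalHom (φ : D.R →+* heckeLocal (Nsig W p) (↑(Sbad W p) : Set ℕ) 𝒪 θ)),
      H.π = heckeLocal.π (Nsig W p) (↑(Sbad W p) : Set ℕ) 𝒪 θ ∧
      Function.Surjective φ ∧
      (D.ρ.baseChangeAlong (φ : D.R →+* _) hφ).IsEquiv H.ρ := by
  have hNS : ∀ q : ℕ, q.Prime → q ∣ Nsig W p → q ∈ Sbad W p := hNS_sig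
  have habs := rhoBar_isAbsolutelyIrreducible (W := W) (p := p) hΔ 𝒪 hp2 hss hirr
  obtain ⟨H, hHπ, hHdet⟩ := exists_datum_W hΔ h30 hp2 hss hirr hp𝒪 hθ subset_rfl hNS
  have htype := hTS p hp2 W hΔ hss hirr 𝒪 hp𝒪 θ hθ H hHπ hHdet
  have hfrob := hθ.charpoly_frob hΔ (p := p) subset_rfl
  have hbar : dCond (tsig W p) 𝒪 p (Sbad W p) (Smin W p)
      (GaloisRepAdic.ofResidualGaloisRep (rhoBar W hΔ p 𝒪)) := rhoBar_dCond hΔ 𝒪 hss _
  obtain ⟨D⟩ := nonempty_ringData_dCond 𝒪 (rhoBar W hΔ p 𝒪) habs hp.out hp2 (tsig W p)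
    (Sbad W p) (Smin W p) hbar
  obtain ⟨φ, hφs, hφ, he⟩ := exists_surj_of_datum D H hNS htype hfrob
  exact ⟨H, D, φ, hφ, hHπ, hφs, he⟩

end

end Fermat.Agent.RT.Wiring
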