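import Fermat.Agent.RT.Wiring.MinLevel
import Fermat.Agent.RT.Wiring.SigLevel

/-!
# The modularity lifting theorem from its parts (team RT, helper28)

* `PartsProp` : the facts about the eigensystem `χ₀` (multiplicity one, unit root) and the length
  inequality between the two deformation rings;
* `mlt_of` : `MLT`.
-/

set_option autoImplicit false
set_option linter.unusedSectionVars false
set_option linter.style.haveILetI false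

open Polynomial IsLocalRing CuspForm CongruenceSubgroup

noncomputable section

namespace Fermat.Agent.RT.Wiring

open Fermat.Agent.DefCond Fermat.Agent.UDef Fermat.Agent.RT.TWBase Fermat.Agent.RT.MSHecke
  Fermat.Agent.LR

local notation "Γℚ" => (AlgebraicClosure ℚ ≃ₐ[ℚ] AlgebraicClosure ℚ)

/-- **The remaining inputs of `MLT`**: `a` is the full eigensystem of the newform of `χ₀`. -/
def PartsProp : Prop :=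
  ∀ (p : ℕ) [Fact p.Prime], p ≠ 2 → ∀ (W : WeierstrassCurve ℤ) (hΔ : W.Δ ≠ 0),
    W.IsSemistableModel → W.ModRepIsIrreducible p →
    ∀ [NeZero (Nmin W p)] [NeZero (Nsig W p)]
      (𝒪 : Type) [CommRing 𝒪] [IsDomain 𝒪] [IsDiscreteValuationRing 𝒪]
      [IsAdicComplete (maximalIdeal 𝒪) 𝒪] [Finite (ResidueField 𝒪)] [CharZero 𝒪]
      [Algebra ℤ_[p] 𝒪] [Module.Finite ℤ_[p] 𝒪] [IsLocalHom (algebraMap ℤ_[p] 𝒪)],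
      (p : 𝒪) ∈ maximalIdeal 𝒪 →
      ∀ χ₀ : heckeAlgebra (Nmin W p) 2 (↑(Sbad W p) : Set ℕ) →+* 𝒪,
      ThetaW W ((residue 𝒪).comp χ₀) →
      ∀ (D : GaloisRep.DeformationRingData 𝒪 (rhoBar W hΔ p 𝒪)
          (dCond (tmin W p) 𝒪 p (Smin W p) (Smin W p)))
        (D' : GaloisRep.DeformationRingData 𝒪 (rhoBar W hΔ p 𝒪)
          (dCond (tsig W p) 𝒪 p (Sbad W p) (Smin W p)))
        (κ : D.R →ₐ[𝒪] 𝒪) (κ' : D'.R →ₐ[𝒪] 𝒪),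
        (∀ ℓ : ℕ, ℓ.Prime → ℓ ∉ Sbad W p → ∀ A : ValuationSubring (AlgebraicClosure ℚ),
          A.LiesOverPrime ℓ → ∀ σ : Γℚ, A.IsFrobeniusAt σ ℓ → κ (D.ρ.trace σ) = tOf χ₀ ℓ) →
        (∀ ℓ : ℕ, ℓ.Prime → ℓ ∉ Sbad W p → ∀ A : ValuationSubring (AlgebraicClosure ℚ),
          A.LiesOverPrime ℓ → ∀ σ : Γℚ, A.IsFrobeniusAt σ ℓ → κ' (D'.ρ.trace σ) = tOf χ₀ ℓ) →
        ∃ (K : Type) (_ : Field K) (_ : CharZero K) (j : 𝒪 →+* K) (a : ℕ → 𝒪),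
          Function.Injective j ∧ (∀ ℓ : ℕ, ℓ.Prime → ℓ ∉ Sbad W p → a ℓ = tOf χ₀ ℓ) ∧
          (∀ ε : ℤ, ε = 1 ∨ ε = -1 →
            Num.PTData j a (↑(Sbad W p) : Set ℕ) (Nmin W p) ε) ∧
          (¬ ((p : ℤ) ∣ W.Δ ∧ p ∣ padicValInt p W.Δ) →
            Module.length 𝒪 (RingHom.ker κ').Cotangent ≤
              Module.length 𝒪 (RingHom.ker κ).Cotangent +
                ∑ q ∈ Ssig W p, Ring.ord 𝒪 (Num.cq a q)) ∧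
          ((p : ℤ) ∣ W.Δ → p ∣ padicValInt p W.Δ →
            ∃ A : 𝒪, IsUnit A ∧ A ^ 2 - a p * A + p = 0 ∧ A ^ 2 - 1 ≠ 0 ∧
            Module.length 𝒪 (RingHom.ker κ').Cotangent ≤
              Module.length 𝒪 (RingHom.ker κ).Cotangent +
                (Ring.ord 𝒪 (A ^ 2 - 1) + ∑ q ∈ Ssig W p, Ring.ord 𝒪 (Num.cq a q)))

section

variable {p : ℕ} [hp : Fact p.Prime] {W : WeierstrassCurve ℤ}

theorem Nsig_eq_of_not (h : ¬ ((p : ℤ) ∣ W.Δ ∧ p ∣ padicValInt p W.Δ)) :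
    Nsig W p = Nmin W p * ∏ q ∈ Ssig W p, q ^ 2 := by
  have h1 : psig W p = pmin W p := by
    rw [psig, pmin]
    by_cases h2 : (p : ℤ) ∣ W.Δ
    · rw [if_pos h2, if_pos ⟨h2, fun h3 => h ⟨h2, h3⟩⟩]
    · rw [if_neg h2, if_neg fun h3 => h2 h3.1]
  rw [Nsig, Nmin, h1]

theorem Nsig_eq_of_peu (h1 : (p : ℤ) ∣ W.Δ) (h2 : p ∣ padicValInt p W.Δ) :
    Nsig W p = Nmin W p * p * ∏ q ∈ Ssig W p, q ^ 2 := by
  rw [Nsig, Nmin, psig, pmin, if_pos h1, if_neg fun h3 => h3.2 h2, one_mul, mul_comm p]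

theorem adm_Ssig : Num.Adm (↑(Sbad W p) : Set ℕ) (Nmin W p) (Ssig W p) := by
  intro q hq
  have hqp := prime_of_mem_Ssig hq
  refine ⟨hqp, fun h => ?_, ?_⟩
  · rcases (dvd_Nmin_iff hp.out hqp).mp h with h1 | h1
    · exact ne_of_mem_Ssig hq h1.1
    · exact not_mem_both h1 hq
  · rw [Finset.mem_coe, Sbad_eq, Finset.mem_union]
    exact Or.inr hq

theorem adm_Ssig_p :
    Num.Adm (↑(Sbad W p) : Set ℕ) (Nmin W p * p) (Ssig W p) := by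
  intro q hq
  obtain ⟨h1, h2, h3⟩ := adm_Ssig (W := W) (p := p) q hq
  refine ⟨h1, fun h => ?_, h3⟩
  rcases (Nat.Prime.dvd_mul h1).mp h with h4 | h4
  · exact h2 h4
  · exact ne_of_mem_Ssig hq ((Nat.prime_dvd_prime_iff_eq h1 hp.out).mp h4)

variable {𝒪 : Type} [CommRing 𝒪] [IsDomain 𝒪] [IsDiscreteValuationRing 𝒪]

/-- non-Eisenstein primes. -/
theorem goodSysS_W (hΔ : W.Δ ≠ 0) (hp2 : p ≠ 2) (hirr : W.ModRepIsIrreducible p)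
    (hp𝒪 : (p : 𝒪) ∈ maximalIdeal 𝒪) {a : ℕ → 𝒪} (S : Finset ℕ)
    (ha : ∀ ℓ : ℕ, ℓ.Prime → ℓ ∉ S → residue 𝒪 (a ℓ) = (W.apOfModel ℓ : ResidueField 𝒪)) :
    Num.GoodSysS (↑S : Set ℕ) p a := by
  intro M q hM hq
  obtain ⟨ℓ, hg, hℓS, -, hℓM, -, ht⟩ := IharaInj.exists_good hΔ hp.out hp2 hirr hM hq 1 one_pos S
  refine ⟨ℓ, hg, hℓM, fun h => hℓS (Finset.mem_coe.mp h), ?_⟩
  by_contra hn
  have h1 := (residue_eq_zero_iff _).mpr ((IsLocalRing.mem_maximalIdeal _).mpr hn)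
  have hp0 : ((p : ℕ) : ResidueField 𝒪) = 0 := by
    rw [← map_natCast (residue 𝒪), residue_eq_zero_iff]; exact hp𝒪
  have hc : CharP (ResidueField 𝒪) p := (CharP.charP_iff_prime_eq_zero hp.out).mpr hp0
  rw [map_sub, ha ℓ hg.1 hℓS, map_ofNat] at h1
  apply ht
  rw [← CharP.intCast_eq_zero_iff (ResidueField 𝒪) p]
  push_cast
  linear_combination -h1

end

/-- **`MLT` from its parts.** -/
theorem mlt_of (h30 : Datum.S30Statement) (h56 : S56Prop) (hTM : TypeMinProp)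
    (hTS : TypeSigProp) (hTW : TWInputProp) (hP : PartsProp) : MLT := by
  intro p hp hp35 W hΔ hss hirr _ _ 𝒪 _ _ _ _ _ _ _ _ _ hp𝒪 hζ χ₀ hχ₀
  have hp2 : p ≠ 2 := by
    rcases hp35 with rfl | rfl <;> norm_num
  have hI1 : Fact (HasIntegralStructure (Nmin W p) 2) := ⟨IntStr.hasIntegralStructure _ 2⟩
  have hI2 : Fact (HasIntegralStructure (Nsig W p) 2) := ⟨IntStr.hasIntegralStructure _ 2⟩
  have hθ : ThetaW W ((residue 𝒪).comp χ₀) := hχ₀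
  set θ : heckeAlgebra (Nmin W p) 2 (↑(Sbad W p) : Set ℕ) →+* ResidueField 𝒪 :=
    (residue 𝒪).comp χ₀ with hθdef
  set θ' : heckeAlgebra (Nsig W p) 2 (↑(Sbad W p) : Set ℕ) →+* ResidueField 𝒪 :=
    θ.comp (restrW W p) with hθ'def
  have hθ' : ThetaW W θ' := ThetaW.restrW hθ
  have hNS : ∀ q : ℕ, q.Prime → q ∣ Nmin W p → q ∈ Sbad W p := hNS_min
  have hNS' : ∀ q : ℕ, q.Prime → q ∣ Nsig W p → q ∈ Sbad W p := hNS_sig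
  obtain ⟨H, D, φ, hφ, hHπ, hφs, he, hCI, hfree⟩ :=
    min_level hΔ h30 h56 hTM hTW hp2 hss hirr hp𝒪 hζ χ₀ hθ
  obtain ⟨H', D', φ', hφ', hHπ', hφs', he'⟩ :=
    sig_level hΔ h30 hTS hp2 hss hirr hp𝒪 θ' hθ'
  -- the points
  obtain ⟨μ, hμ, hμtr⟩ := exists_lam D H φ hφ he χ₀ fun _ => rfl
  obtain ⟨μ', hμ', hμtr'⟩ := exists_lam D' H' φ' hφ' he' (χ₀.comp (restrW W p)) fun _ => rfl
  have hnot : ∀ {ℓ : ℕ}, ℓ.Prime → ℓ ∉ Sbad W p →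
      ¬ ℓ ∣ Nmin W p ∧ ¬ ℓ ∣ Nsig W p ∧ ℓ ∉ (↑(Sbad W p) : Set ℕ) := fun {ℓ} hℓ hℓS =>
    ⟨fun h => hℓS (hNS ℓ hℓ h), fun h => hℓS (hNS' ℓ hℓ h), fun h => hℓS (Finset.mem_coe.mp h)⟩
  have hκ : ∀ ℓ : ℕ, ℓ.Prime → ℓ ∉ Sbad W p → ∀ A : ValuationSubring (AlgebraicClosure ℚ),
      A.LiesOverPrime ℓ → ∀ σ : Γℚ, A.IsFrobeniusAt σ ℓ →
        (μ.comp φ) (D.ρ.trace σ) = tOf χ₀ ℓ := by
    intro ℓ hℓ hℓS A hA σ hσ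
    obtain ⟨h1, h2, h3⟩ := hnot hℓ hℓS
    rw [hμtr ℓ hℓ h1 h3 A hA σ hσ, tOf_eq χ₀ hℓ h1 h3]
  have hκ' : ∀ ℓ : ℕ, ℓ.Prime → ℓ ∉ Sbad W p → ∀ A : ValuationSubring (AlgebraicClosure ℚ),
      A.LiesOverPrime ℓ → ∀ σ : Γℚ, A.IsFrobeniusAt σ ℓ →
        (μ'.comp φ') (D'.ρ.trace σ) = tOf χ₀ ℓ := by
    intro ℓ hℓ hℓS A hA σ hσ
    obtain ⟨h1, h2, h3⟩ := hnot hℓ hℓS
    rw [hμtr' ℓ hℓ h2 h3 A hA σ hσ, RingHom.comp_apply, restrW_T hℓ h2 h1 h3, tOf_eq χ₀ hℓ h1 h3]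
  obtain ⟨K, iK, iK', j, a, hj, haT, hPT, hflat, hord⟩ :=
    hP p hp2 W hΔ hss hirr 𝒪 hp𝒪 χ₀ hθ D D' (μ.comp φ) (μ'.comp φ') hκ hκ'
  have hg : Num.GoodSysS (↑(Sbad W p) : Set ℕ) p a :=
    goodSysS_W hΔ hp2 hirr hp𝒪 (Sbad W p) fun ℓ hℓ hℓS => by
      obtain ⟨h1, h2, h3⟩ := hnot hℓ hℓS
      rw [haT ℓ hℓ hℓS, tOf_eq χ₀ hℓ h1 h3]
      exact hχ₀ ℓ hℓ h1 h3
  have ht : ∀ ℓ : ℕ, ℓ.Prime → ℓ ∉ (↑(Sbad W p) : Set ℕ) →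
      a ℓ - tOf χ₀ ℓ ∈ maximalIdeal 𝒪 := fun ℓ hℓ hℓS => by
    rw [haT ℓ hℓ fun h => hℓS (Finset.mem_coe.mpr h), sub_self]
    exact zero_mem _
  have hgenθ : ∀ ℓ : Idx (↑(Sbad W p) : Set ℕ),
      residue 𝒪 (tOf χ₀ ℓ.1) = θ (genS (Nmin W p) (↑(Sbad W p) : Set ℕ) ℓ) := fun ℓ => by
    obtain ⟨h1, h2, h3⟩ := hnot ℓ.1.2 fun h => ℓ.2 (Finset.mem_coe.mpr h)
    rw [genS_of_not_dvd _ _ ℓ h1, tOf_eq χ₀ ℓ.1.2 h1 h3]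
    rfl
  have hgenθ' : ∀ ℓ : Idx (↑(Sbad W p) : Set ℕ),
      residue 𝒪 (tOf χ₀ ℓ.1) = θ' (genS (Nsig W p) (↑(Sbad W p) : Set ℕ) ℓ) := fun ℓ => by
    obtain ⟨h1, h2, h3⟩ := hnot ℓ.1.2 fun h => ℓ.2 (Finset.mem_coe.mpr h)
    rw [genS_of_not_dvd _ _ ℓ h2, tOf_eq χ₀ ℓ.1.2 h1 h3, hθ'def, RingHom.comp_apply,
      restrW_T ℓ.1.2 h2 h1 h3]
    rfl
  have hμ1 : ∀ ℓ : Idx (↑(Sbad W p) : Set ℕ),
      μ (heckeLocal.π (Nmin W p) (↑(Sbad W p) : Set ℕ) 𝒪 θ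
        (genS (Nmin W p) (↑(Sbad W p) : Set ℕ) ℓ)) = a ℓ.1 := fun ℓ => by
    obtain ⟨h1, h2, h3⟩ := hnot ℓ.1.2 fun h => ℓ.2 (Finset.mem_coe.mpr h)
    rw [← hHπ, hμ, genS_of_not_dvd _ _ ℓ h1, haT ℓ.1 ℓ.1.2 fun h => ℓ.2 (Finset.mem_coe.mpr h),
      tOf_eq χ₀ ℓ.1.2 h1 h3]
  have hμ1' : ∀ ℓ : Idx (↑(Sbad W p) : Set ℕ),
      μ' (heckeLocal.π (Nsig W p) (↑(Sbad W p) : Set ℕ) 𝒪 θ'
        (genS (Nsig W p) (↑(Sbad W p) : Set ℕ) ℓ)) = a ℓ.1 := fun ℓ => by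
    obtain ⟨h1, h2, h3⟩ := hnot ℓ.1.2 fun h => ℓ.2 (Finset.mem_coe.mpr h)
    rw [← hHπ', hμ', genS_of_not_dvd _ _ ℓ h2, haT ℓ.1 ℓ.1.2 fun h => ℓ.2 (Finset.mem_coe.mpr h),
      tOf_eq χ₀ ℓ.1.2 h1 h3, RingHom.comp_apply, restrW_T ℓ.1.2 h2 h1 h3]
  have hNS1 : ∀ r : ℕ, r.Prime → r ∣ Nmin W p → r ∈ (↑(Sbad W p) : Set ℕ) :=
    fun r hr h => Finset.mem_coe.mpr (hNS r hr h)
  have hred : IsReduced (heckeLocal (Nmin W p) (↑(Sbad W p) : Set ℕ) 𝒪 θ) :=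
    isReduced_heckeLocal_W hNS
  have hinj : Function.Injective φ' := by
    by_cases hcase : (p : ℤ) ∣ W.Δ ∧ p ∣ padicValInt p W.Δ
    · obtain ⟨A, hAu, hA, hA1, hlen⟩ := hord hcase.1 hcase.2
      have hpN : ¬ p ∣ Nmin W p := fun h => ((p_dvd_Nmin_iff hp.out).mp h).2 hcase.2
      exact Num.injective_sigmaP hp2 hp𝒪 hNS1 hg ht hj hPT θ hgenθ hred φ hφs hCI hfree hμ1
        hpN (Finset.mem_coe.mpr p_mem_Sbad) hAu hA hA1 (Ssig W p) adm_Ssig_p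
        (Nsig_eq_of_peu hcase.1 hcase.2) θ' hgenθ' φ' hφs' hμ1' hlen
    · exact Num.injective_sigma hp2 hp𝒪 hNS1 hg ht hj hPT θ hgenθ hred φ hφs hCI hfree hμ1
        (Ssig W p) adm_Ssig (fun q hq => ne_of_mem_Ssig hq)
        (Nsig_eq_of_not hcase) θ' hgenθ' φ' hφs' hμ1' (hflat hcase)
  exact exists_char_of_bijective_W hΔ hss 𝒪 D' H' φ' hφ' he' ⟨hinj, hφs'⟩

end Fermat.Agent.RT.Wiring
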