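import Fermat.Agent.LOC.TauTorsion
import Fermat.Agent.RT.Wiring.TypeOf

/-!
# `τ` moves `E[p]` if `p ∤ v_p(Δ)` (team RT, helper28; from helper5's `tau_fixes_iff`)
-/

set_option autoImplicit false

open Polynomial IsLocalRing WeierstrassCurve WeierstrassCurve.Affine.Point
open scoped TensorProduct WeierstrassCurve.Affine

noncomputable section

namespace Fermat.Agent.RT.Wiring

local notation "Γℚ" => (AlgebraicClosure ℚ ≃ₐ[ℚ] AlgebraicClosure ℚ)

theorem rho_eq_one_of_baseChangeAlong {k k' : Type} [Field k] [Field k'] (ψ : k →+* k')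
    (ρ : ResidualGaloisRep k) {σ : Γℚ} (h : (ρ.baseChangeAlong ψ).ρ σ = 1) : ρ.ρ σ = 1 := by
  let _ : Algebra k k' := ψ.toAlgebra
  have h1 : (ρ.ρ σ).baseChange k' = 1 := h
  refine LinearMap.ext fun x => ?_
  have h2 := LinearMap.congr_fun h1 (1 ⊗ₜ[k] x)
  rw [LinearMap.baseChange_tmul, Module.End.one_apply] at h2
  have h3 : Function.Injective (fun x : ρ.V => (1 : k') ⊗ₜ[k] x) :=
    Module.FaithfullyFlat.tensorProduct_mk_injective (A := k) (B := k') ρ.V
  exact h3 h2

/-- **The input at `p`** for the types `strict`. -/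
theorem tauProp : TauProp := by
  intro p hp hp2 W hΔ hss _ 𝒪 _ _ _ _ hbad hndvd P hP
  obtain ⟨τ, hτ⟩ := PStep.exists_isTau hp.out hp2 hP
  refine ⟨τ, hτ, fun h1 => hndvd ?_⟩
  rw [← LOC.TauTorsion.tau_fixes_iff W hΔ hp.out hp2 (hss p hp.out hbad) hbad P hP hτ]
  have hcard := hcard_of (W := W) (p := p) hΔ
  have hker := hker_of (W := W) (p := p) hΔ
  obtain ⟨e⟩ := rhoBar_isEquiv hΔ 𝒪 hcard hker (zmodToResidue p 𝒪)
  have h2 : ((W.map (Int.castRingHom ℚ)).residualGaloisRepOf p hcard hker).ρ τ = 1 := by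
    refine rho_eq_one_of_baseChangeAlong (zmodToResidue p 𝒪) _ (LinearMap.ext fun y => ?_)
    have h3 := e.map_apply τ (e.toLinearEquiv.symm y)
    rw [h1, LinearEquiv.apply_symm_apply, Module.End.one_apply, LinearEquiv.apply_symm_apply] at h3
    exact h3.symm
  intro x hx
  have h3 := LinearMap.congr_fun h2 (⟨x, by
    rw [Submodule.mem_torsionBy_iff, Nat.cast_smul_eq_nsmul]; exact hx⟩ :
      Submodule.torsionBy ℤ ((W.map (Int.castRingHom ℚ))⁄(AlgebraicClosure ℚ)).Point p)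
  exact congrArg Subtype.val h3

end Fermat.Agent.RT.Wiring
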