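import Fermat.Agent.RT.Wiring.PartsDefs
import Fermat.Agent.RT.Wiring.TauOf
import Fermat.Agent.RT.Wiring.Top
import Fermat.Agent.RT.TWInput

/-!
# `MLT` and `S59` from the frozen statements (team RT, helper28)
-/

set_option autoImplicit false

open IsLocalRing

namespace Fermat.Agent.RT.Wiring

open Fermat.Agent.CMP Fermat.Agent.CMP.S58Assembly

/-- **`MLT`** from S30, S32, S33, S34, S35, S36, S56 and `PartsProp`. -/
theorem mlt_of_inputs (I : Typ.Inputs) (h36 : S36Prop) (h56 : S56Prop) (hP : PartsProp) : MLT :=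
  mlt_of I.s30 h56 (typeMinProp_of I tauProp) (typeSigProp_of I tauProp)
    (TWIn.twInputProp I h36 fun p _ hp2 W hΔ hss hirr 𝒪 _ _ _ _ _ _ _ _ _ _ =>
      tauProp p hp2 W hΔ hss hirr 𝒪) hP

/-- **S59** from level optimisation, the frozen statements and `PartsProp`. -/
theorem s59_of_inputs (I : Typ.Inputs) (h36 : S36Prop) (h56 : S56Prop) (hP : PartsProp)
    (hLevel : LevelOpt) : S59Prop :=
  s59_of hLevel (mlt_of_inputs I h36 h56 hP) I.s35 h36

end Fermat.Agent.RT.Wiring
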