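import Fermat.Agent.RT.Wiring.MLTDefs
import Fermat.Agent.RT.TW.Main

/-!
# The minimal level (team RT, helper28)

`min_level`: the deformation ring of the minimal problem is a complete intersection and the minimal
Hecke module is free over it.
-/

set_option autoImplicit false
set_option linter.unusedSectionVars false
set_option linter.style.haveILetI false

open Polynomial IsLocalRing CuspForm CongruenceSubgroup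

noncomputable section

namespace Fermat.Agent.RT.Wiring

open Fermat.Agent.DefCond Fermat.Agent.UDef Fermat.Agent.RT.TWBase Fermat.Agent.RT.MSHecke
  Fermat.Agent.LR

local notation "Γℚ" => (AlgebraicClosure ℚ ≃ₐ[ℚ] AlgebraicClosure ℚ)

section

variable {p : ℕ} [hp : Fact p.Prime] {W : WeierstrassCurve ℤ} (hΔ : W.Δ ≠ 0)
  [NeZero (Nmin W p)]
  {𝒪 : Type} [CommRing 𝒪] [IsDomain 𝒪] [IsDiscreteValuationRing 𝒪]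
  [IsAdicComplete (maximalIdeal 𝒪) 𝒪] [Finite (ResidueField 𝒪)] [CharZero 𝒪]
  [Algebra ℤ_[p] 𝒪] [Module.Finite ℤ_[p] 𝒪] [IsLocalHom (algebraMap ℤ_[p] 𝒪)]

/-- The trace of Frobenius acts as `T_ℓ`. -/
theorem trace_act {N : ℕ} [NeZero N] {S : Finset ℕ} [Fact (HasIntegralStructure N 2)]
    (hNS : ∀ q : ℕ, q.Prime → q ∣ N → q ∈ S)
    {θ : heckeAlgebra N 2 (↑S : Set ℕ) →+* ResidueField 𝒪}
    {ρbar : ResidualGaloisRep (ResidueField 𝒪)}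
    {𝒟 : ∀ ⦃A : Type⦄ [CommRing A] [IsLocalRing A] [Algebra 𝒪 A], GaloisRepAdic A → Prop}
    (D : GaloisRep.DeformationRingData 𝒪 ρbar 𝒟)
    (H : HeckeGaloisRepDatum N (↑S : Set ℕ) 𝒪 θ (heckeLocal N (↑S : Set ℕ) 𝒪 θ))
    (hπ : H.π = heckeLocal.π N (↑S : Set ℕ) 𝒪 θ)
    (φ : D.R →ₐ[𝒪] heckeLocal N (↑S : Set ℕ) 𝒪 θ)
    (hφ : IsLocalHom (φ : D.R →+* heckeLocal N (↑S : Set ℕ) 𝒪 θ))
    (he : (D.ρ.baseChangeAlong (φ : D.R →+* heckeLocal N (↑S : Set ℕ) 𝒪 θ) hφ).IsEquiv H.ρ)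
    {X : Submodule 𝒪 (Pairs 𝒪)}
    (Φ : heckeLocal N (↑S : Set ℕ) 𝒪 θ →ₐ[𝒪] Module.End 𝒪 X)
    (hΦ : ∀ (ℓ : Idx (↑S : Set ℕ)) (x : X),
      (Φ (heckeLocal.π N (↑S : Set ℕ) 𝒪 θ (genS N (↑S : Set ℕ) ℓ)) x : Pairs 𝒪) =
        heckeT (ℓ.1 : ℕ) x)
    (ℓ : ℕ) (hℓ : ℓ.Prime) (hℓS : ℓ ∉ S) (A : ValuationSubring (AlgebraicClosure ℚ))
    (hA : A.LiesOverPrime ℓ) (σ : Γℚ) (hσ : A.IsFrobeniusAt σ ℓ) (x : X) :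
    ((Φ.comp φ) (D.ρ.trace σ) x : Pairs 𝒪) = heckeT ℓ x := by
  have hℓN : ¬ ℓ ∣ N := fun h => hℓS (hNS ℓ hℓ h)
  have hℓS' : ℓ ∉ (↑S : Set ℕ) := fun h => hℓS (Finset.mem_coe.mp h)
  rw [AlgHom.comp_apply, map_trace_frob D H φ hφ he hℓ hℓN hℓS' hA hσ, hπ]
  have h := hΦ ⟨⟨ℓ, hℓ⟩, hℓS'⟩ x
  rwa [genS_of_not_dvd N _ ⟨⟨ℓ, hℓ⟩, hℓS'⟩ hℓN] at h

/-- **The minimal level.** -/
theorem min_level (h30 : Datum.S30Statement) (h56 : S56Prop) (hTM : TypeMinProp)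
    (hTW : TWInputProp) (hp2 : p ≠ 2) (hss : W.IsSemistableModel)
    (hirr : W.ModRepIsIrreducible p) (hp𝒪 : (p : 𝒪) ∈ maximalIdeal 𝒪)
    (hζ : ∃ ζ : ResidueField 𝒪, IsPrimitiveRoot ζ (p ^ 2 - 1))
    (χ₀ : heckeAlgebra (Nmin W p) 2 (↑(Sbad W p) : Set ℕ) →+* 𝒪)
    (hχ₀ : ThetaW W ((residue 𝒪).comp χ₀)) [Fact (HasIntegralStructure (Nmin W p) 2)] :
    ∃ (H : HeckeGaloisRepDatum (Nmin W p) (↑(Sbad W p) : Set ℕ) 𝒪 ((residue 𝒪).comp χ₀)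
        (heckeLocal (Nmin W p) (↑(Sbad W p) : Set ℕ) 𝒪 ((residue 𝒪).comp χ₀)))
      (D : GaloisRep.DeformationRingData 𝒪 (rhoBar W hΔ p 𝒪)
        (dCond (tmin W p) 𝒪 p (Smin W p) (Smin W p)))
      (φ : D.R →ₐ[𝒪] heckeLocal (Nmin W p) (↑(Sbad W p) : Set ℕ) 𝒪 ((residue 𝒪).comp χ₀))
      (hφ : IsLocalHom (φ : D.R →+*
        heckeLocal (Nmin W p) (↑(Sbad W p) : Set ℕ) 𝒪 ((residue 𝒪).comp χ₀))),
      H.π = heckeLocal.π (Nmin W p) (↑(Sbad W p) : Set ℕ) 𝒪 ((residue 𝒪).comp χ₀) ∧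
      Function.Surjective φ ∧
      (D.ρ.baseChangeAlong (φ : D.R →+* _) hφ).IsEquiv H.ρ ∧
      NC.IsCI 𝒪 D.R ∧
      Num.MinFree (↑(Sbad W p) : Set ℕ) (tOf χ₀) (Nmin W p) ((residue 𝒪).comp χ₀) φ := by
  set θ : heckeAlgebra (Nmin W p) 2 (↑(Sbad W p) : Set ℕ) →+* ResidueField 𝒪 :=
    (residue 𝒪).comp χ₀ with hθ
  have hNS : ∀ q : ℕ, q.Prime → q ∣ Nmin W p → q ∈ Sbad W p := hNS_min
  have hNS' : ∀ q : ℕ, q.Prime → q ∣ Nmin W p → q ∈ (↑(Sbad W p) : Set ℕ) :=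
    fun q hq h => Finset.mem_coe.mpr (hNS q hq h)
  have habs := rhoBar_isAbsolutelyIrreducible (W := W) (p := p) hΔ 𝒪 hp2 hss hirr
  obtain ⟨H, hHπ, hHdet⟩ := exists_datum_W hΔ h30 hp2 hss hirr hp𝒪 hχ₀ subset_rfl hNS
  have htype := hTM p hp2 W hΔ hss hirr 𝒪 hp𝒪 θ hχ₀ H hHπ hHdet
  have hfrob := hχ₀.charpoly_frob hΔ (p := p) subset_rfl
  have hres := datum_residual_isEquiv H hNS habs hfrob
  have hbar := dCond_ofResidual_of_datum H hres htype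
  obtain ⟨D⟩ := nonempty_ringData_dCond 𝒪 (rhoBar W hΔ p 𝒪) habs hp.out hp2 (tmin W p)
    (Smin W p) (Smin W p) hbar
  obtain ⟨φ, hφs, hφ, he⟩ := exists_surj_of_datum D H hNS htype hfrob
  have ht : ∀ (ℓ : ℕ) (hℓ : ℓ.Prime) (hℓN : ¬ ℓ ∣ Nmin W p)
      (hℓS : ℓ ∉ (↑(Sbad W p) : Set ℕ)),
      residue 𝒪 (tOf χ₀ ℓ) = θ (heckeAlgebra.T hℓ hℓN hℓS) := fun ℓ hℓ hℓN hℓS => by
    rw [tOf_eq χ₀ hℓ hℓN hℓS, hθ]; rfl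
  -- the module
  let M := Num.Mmin (↑(Sbad W p) : Set ℕ) (tOf χ₀) (Nmin W p)
  have hMb : Mb (Nmin W p) 1 (↑(Sbad W p) : Set ℕ) (tOf χ₀) = M := Mb_eq_MP
  have hnt : Nontrivial M := by
    rw [← hMb]
    exact nontrivial_Mb hNS' χ₀ (by norm_num) fun ℓ _ _ => rfl
  -- every action gives the conclusion
  have key : ∀ Φ : heckeLocal (Nmin W p) (↑(Sbad W p) : Set ℕ) 𝒪 θ →ₐ[𝒪] Module.End 𝒪 M,
      (∀ (ℓ : Idx (↑(Sbad W p) : Set ℕ)) (x : M),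
        (Φ (heckeLocal.π (Nmin W p) (↑(Sbad W p) : Set ℕ) 𝒪 θ
          (genS (Nmin W p) (↑(Sbad W p) : Set ℕ) ℓ)) x : Pairs 𝒪) = heckeT (ℓ.1 : ℕ) x) →
      NC.IsCI 𝒪 D.R ∧ @Module.Free D.R M _ _
        (Module.compHom _ ((Φ.comp φ : D.R →ₐ[𝒪] _) : D.R →+* Module.End 𝒪 M)) := by
    intro Φ hΦ
    obtain ⟨S, hS, hSp, hin⟩ := hTW p hp2 W hΔ hss hirr 𝒪 hp𝒪 hζ χ₀ hχ₀ D (Φ.comp φ)
      (fun ℓ hℓ hℓS A hA σ hσ x => trace_act hNS D H hHπ φ hφ he Φ hΦ ℓ hℓ hℓS A hA σ hσ x)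
    letI : Module D.R M :=
      Module.compHom _ ((Φ.comp φ : D.R →ₐ[𝒪] _) : D.R →+* Module.End 𝒪 M)
    have hsm : ∀ (r : D.R) (x : M), r • x = Φ (φ r) x := fun _ _ => rfl
    have htower : IsScalarTower 𝒪 D.R M := ⟨fun c r x => by
      rw [hsm, hsm, map_smul, map_smul, LinearMap.smul_apply]⟩
    have hp0 : (p : 𝒪) ≠ 0 := Nat.cast_ne_zero.mpr hp.out.ne_zero
    have hprimes : TW.TWPrimes (tmin W p) p (rhoBar W hΔ p 𝒪) S (Smin W p) :=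
      exists_TW_primes_W h56 hp2 hΔ hss hirr 𝒪 hp𝒪 hζ (rhoBar_HTW W hΔ hss p hp2 hirr 𝒪) S hSp
        (Smin_subset_Sbad.trans hS)
    obtain ⟨h1, -, -, h2, -⟩ := TW.main (M := M) hp.out hp2 hp𝒪 hp0 (tmin W p) habs
      (hS p_mem_Sbad) (Smin_subset_Sbad.trans hS) hbar D hprimes hin
    exact ⟨h1, h2⟩
  obtain ⟨ℓ₀, h1, h2, h3, h4⟩ := exists_nonEis_W (𝒪 := 𝒪) hΔ hp2 hss hirr hp𝒪 (Nmin W p)
    (Sbad W p)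
  obtain ⟨Φ, hΦ⟩ := exists_act_Mb (ε := 1) (t := tOf χ₀) hNS' θ ht
    ⟨ℓ₀, h1, fun h => h2 (Finset.mem_coe.mp h), h3, by
      have hN : ¬ ℓ₀ ∣ Nmin W p := fun h => h2 (hNS ℓ₀ h1 h)
      have hS' : ℓ₀ ∉ (↑(Sbad W p) : Set ℕ) := fun h => h2 (Finset.mem_coe.mp h)
      rw [ht ℓ₀ h1 hN hS', hχ₀ ℓ₀ h1 hN hS']
      exact h4⟩
  have hΦ' : ∃ Φ : heckeLocal (Nmin W p) (↑(Sbad W p) : Set ℕ) 𝒪 θ →ₐ[𝒪] Module.End 𝒪 M,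
      (∀ (ℓ : Idx (↑(Sbad W p) : Set ℕ)) (x : M),
        (Φ (heckeLocal.π (Nmin W p) (↑(Sbad W p) : Set ℕ) 𝒪 θ
          (genS (Nmin W p) (↑(Sbad W p) : Set ℕ) ℓ)) x : Pairs 𝒪) = heckeT (ℓ.1 : ℕ) x) := by
    rw [← hMb]
    refine ⟨Φ, fun ℓ x => ?_⟩
    have hN : ¬ (ℓ.1 : ℕ) ∣ Nmin W p := fun h => ℓ.2 (hNS' _ ℓ.1.2 h)
    rw [genS_of_not_dvd _ _ ℓ hN]
    exact hΦ _ ℓ.1.2 hN ℓ.2 x
  obtain ⟨Φ', hΦ'⟩ := hΦ'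
  exact ⟨H, D, φ, hφ, hHπ, hφs, he, (key Φ' hΦ').1, fun Φ hΦ => (key Φ hΦ).2⟩

end

end Fermat.Agent.RT.Wiring
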