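import Fermat.Agent.RT.Wiring.MLTOf
import Fermat.Agent.RT.PointSC

/-!
# The split of `PartsProp` (team RT, helper28)

* `IsNewformOf W p χ₀ g j a` : `g` is the newform of `χ₀`, it has level exactly `Nmin`, and `a` is
  its eigensystem with values in `𝒪`;
* `NewformProp` : such data exist;
* `LenFlatProp`, `LenOrdProp` : the length inequalities;
* `partsProp_of : NewformProp → LenFlatProp → LenOrdProp → PartsProp`.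
-/

set_option autoImplicit false
set_option linter.unusedSectionVars false
set_option linter.style.haveILetI false

open Polynomial IsLocalRing CuspForm CongruenceSubgroup ModularFormClass

noncomputable section

namespace Fermat.Agent.RT.Wiring

open Fermat.Agent.DefCond Fermat.Agent.UDef Fermat.Agent.RT.TWBase Fermat.Agent.RT.MSHecke
  Fermat.Agent.LR

local notation "Γℚ" => (AlgebraicClosure ℚ ≃ₐ[ℚ] AlgebraicClosure ℚ)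

/-- `g` is the newform attached to `χ₀` : its level is exactly `Nmin`, its eigenvalues (at all
primes) are `j (a ℓ)`, and `a ℓ = χ₀ (T_ℓ)` outside `Sbad`. -/
structure IsNewformOf (W : WeierstrassCurve ℤ) (p : ℕ) [NeZero (Nmin W p)] {𝒪 : Type}
    [CommRing 𝒪] (χ₀ : heckeAlgebra (Nmin W p) 2 (↑(Sbad W p) : Set ℕ) →+* 𝒪)
    (g : CuspForm (Gamma0 (Nmin W p)) 2) (j : 𝒪 →+* ℂ) (a : ℕ → 𝒪) : Prop where
  isNewform : g.IsNewform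
  inj : Function.Injective j
  coeff : ∀ ℓ : ℕ, ℓ.Prime → j (a ℓ) = qCoeff ⇑g ℓ
  eq_tOf : ∀ ℓ : ℕ, ℓ.Prime → ℓ ∉ Sbad W p → a ℓ = tOf χ₀ ℓ

/-- **(A)** the newform of `χ₀` has level `Nmin`. -/
def NewformProp : Prop :=
  ∀ (p : ℕ) [Fact p.Prime], p ≠ 2 → ∀ (W : WeierstrassCurve ℤ), W.Δ ≠ 0 →
    W.IsSemistableModel → W.ModRepIsIrreducible p →
    ∀ [NeZero (Nmin W p)]
      (𝒪 : Type) [CommRing 𝒪] [IsDomain 𝒪] [IsDiscreteValuationRing 𝒪]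
      [IsAdicComplete (maximalIdeal 𝒪) 𝒪] [Finite (ResidueField 𝒪)] [CharZero 𝒪]
      [Algebra ℤ_[p] 𝒪] [Module.Finite ℤ_[p] 𝒪] [IsLocalHom (algebraMap ℤ_[p] 𝒪)],
      (p : 𝒪) ∈ maximalIdeal 𝒪 →
      ∀ χ₀ : heckeAlgebra (Nmin W p) 2 (↑(Sbad W p) : Set ℕ) →+* 𝒪,
      ThetaW W ((residue 𝒪).comp χ₀) → ∃ g j a, IsNewformOf W p χ₀ g j a

/-- **(B)** the length inequality, without step at `p`. -/
def LenFlatProp : Prop :=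
  ∀ (p : ℕ) [Fact p.Prime], p ≠ 2 → ∀ (W : WeierstrassCurve ℤ) (hΔ : W.Δ ≠ 0),
    W.IsSemistableModel → W.ModRepIsIrreducible p →
    ∀ [NeZero (Nmin W p)]
      (𝒪 : Type) [CommRing 𝒪] [IsDomain 𝒪] [IsDiscreteValuationRing 𝒪]
      [IsAdicComplete (maximalIdeal 𝒪) 𝒪] [Finite (ResidueField 𝒪)] [CharZero 𝒪]
      [Algebra ℤ_[p] 𝒪] [Module.Finite ℤ_[p] 𝒪] [IsLocalHom (algebraMap ℤ_[p] 𝒪)],
      (p : 𝒪) ∈ maximalIdeal 𝒪 →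
      ∀ χ₀ : heckeAlgebra (Nmin W p) 2 (↑(Sbad W p) : Set ℕ) →+* 𝒪,
      ThetaW W ((residue 𝒪).comp χ₀) → ∀ g j a, IsNewformOf W p χ₀ g j a →
      ∀ (D : GaloisRep.DeformationRingData 𝒪 (rhoBar W hΔ p 𝒪)
          (dCond (tmin W p) 𝒪 p (Smin W p) (Smin W p)))
        (D' : GaloisRep.DeformationRingData 𝒪 (rhoBar W hΔ p 𝒪)
          (dCond (tsig W p) 𝒪 p (Sbad W p) (Smin W p)))
        (κ : D.R →ₐ[𝒪] 𝒪) (κ' : D'.R →ₐ[𝒪] 𝒪),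
        (∀ ℓ : ℕ, ℓ.Prime → ℓ ∉ Sbad W p → ∀ A : ValuationSubring (AlgebraicClosure ℚ),
          A.LiesOverPrime ℓ → ∀ σ : Γℚ, A.IsFrobeniusAt σ ℓ → κ (D.ρ.trace σ) = a ℓ) →
        (∀ ℓ : ℕ, ℓ.Prime → ℓ ∉ Sbad W p → ∀ A : ValuationSubring (AlgebraicClosure ℚ),
          A.LiesOverPrime ℓ → ∀ σ : Γℚ, A.IsFrobeniusAt σ ℓ → κ' (D'.ρ.trace σ) = a ℓ) →
        ¬ ((p : ℤ) ∣ W.Δ ∧ p ∣ padicValInt p W.Δ) →
        Module.length 𝒪 (RingHom.ker κ').Cotangent ≤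
          Module.length 𝒪 (RingHom.ker κ).Cotangent + ∑ q ∈ Ssig W p, Ring.ord 𝒪 (Num.cq a q)

/-- **(C)** the length inequality, with a step at `p` (here `p ∤ Nmin`, `tmin = flat`,
`tsig = ord`). -/
def LenOrdProp : Prop :=
  ∀ (p : ℕ) [Fact p.Prime], p ≠ 2 → ∀ (W : WeierstrassCurve ℤ) (hΔ : W.Δ ≠ 0),
    W.IsSemistableModel → W.ModRepIsIrreducible p →
    ∀ [NeZero (Nmin W p)]
      (𝒪 : Type) [CommRing 𝒪] [IsDomain 𝒪] [IsDiscreteValuationRing 𝒪]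
      [IsAdicComplete (maximalIdeal 𝒪) 𝒪] [Finite (ResidueField 𝒪)] [CharZero 𝒪]
      [Algebra ℤ_[p] 𝒪] [Module.Finite ℤ_[p] 𝒪] [IsLocalHom (algebraMap ℤ_[p] 𝒪)],
      (p : 𝒪) ∈ maximalIdeal 𝒪 →
      ∀ χ₀ : heckeAlgebra (Nmin W p) 2 (↑(Sbad W p) : Set ℕ) →+* 𝒪,
      ThetaW W ((residue 𝒪).comp χ₀) → ∀ g j a, IsNewformOf W p χ₀ g j a →
      ∀ (D : GaloisRep.DeformationRingData 𝒪 (rhoBar W hΔ p 𝒪)
          (dCond (tmin W p) 𝒪 p (Smin W p) (Smin W p)))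
        (D' : GaloisRep.DeformationRingData 𝒪 (rhoBar W hΔ p 𝒪)
          (dCond (tsig W p) 𝒪 p (Sbad W p) (Smin W p)))
        (κ : D.R →ₐ[𝒪] 𝒪) (κ' : D'.R →ₐ[𝒪] 𝒪),
        (∀ ℓ : ℕ, ℓ.Prime → ℓ ∉ Sbad W p → ∀ A : ValuationSubring (AlgebraicClosure ℚ),
          A.LiesOverPrime ℓ → ∀ σ : Γℚ, A.IsFrobeniusAt σ ℓ → κ (D.ρ.trace σ) = a ℓ) →
        (∀ ℓ : ℕ, ℓ.Prime → ℓ ∉ Sbad W p → ∀ A : ValuationSubring (AlgebraicClosure ℚ),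
          A.LiesOverPrime ℓ → ∀ σ : Γℚ, A.IsFrobeniusAt σ ℓ → κ' (D'.ρ.trace σ) = a ℓ) →
        (p : ℤ) ∣ W.Δ → p ∣ padicValInt p W.Δ → ¬ p ∣ Nmin W p →
        ∃ A : 𝒪, IsUnit A ∧ A ^ 2 - a p * A + p = 0 ∧
          (A ^ 2 - 1 ≠ 0 → Module.length 𝒪 (RingHom.ker κ').Cotangent ≤
            Module.length 𝒪 (RingHom.ker κ).Cotangent +
              (Ring.ord 𝒪 (A ^ 2 - 1) + ∑ q ∈ Ssig W p, Ring.ord 𝒪 (Num.cq a q)))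

/-- **`PartsProp` from its parts.** -/
theorem partsProp_of (hA : NewformProp) (hB : LenFlatProp) (hC : LenOrdProp) : PartsProp := by
  intro p hp hp2 W hΔ hss hirr _ _ 𝒪 _ _ _ _ _ _ _ _ _ hp𝒪 χ₀ hθ D D' κ κ' hκ hκ'
  obtain ⟨g, j, a, h⟩ := hA p hp2 W hΔ hss hirr 𝒪 hp𝒪 χ₀ hθ
  have hκ1 : ∀ ℓ : ℕ, ℓ.Prime → ℓ ∉ Sbad W p → ∀ A : ValuationSubring (AlgebraicClosure ℚ),
      A.LiesOverPrime ℓ → ∀ σ : Γℚ, A.IsFrobeniusAt σ ℓ → κ (D.ρ.trace σ) = a ℓ :=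
    fun ℓ hℓ hℓS A hA σ hσ => by rw [hκ ℓ hℓ hℓS A hA σ hσ, h.eq_tOf ℓ hℓ hℓS]
  have hκ1' : ∀ ℓ : ℕ, ℓ.Prime → ℓ ∉ Sbad W p → ∀ A : ValuationSubring (AlgebraicClosure ℚ),
      A.LiesOverPrime ℓ → ∀ σ : Γℚ, A.IsFrobeniusAt σ ℓ → κ' (D'.ρ.trace σ) = a ℓ :=
    fun ℓ hℓ hℓS A hA σ hσ => by rw [hκ' ℓ hℓ hℓS A hA σ hσ, h.eq_tOf ℓ hℓ hℓS]
  refine ⟨ℂ, inferInstance, inferInstance, j, a, h.inj, h.eq_tOf, fun ε hε => ?_, fun hc => ?_,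
    fun h1 h2 => ?_⟩
  · refine Point.ptData_of_isNewform' h.isNewform (Sbad W p).finite_toSet
      (fun q hq hqN => Finset.mem_coe.mpr (hNS_min q hq hqN)) (fun ℓ hℓ _ => h.coeff ℓ hℓ) ?_
    rcases hε with rfl | rfl <;> norm_num
  · exact hB p hp2 W hΔ hss hirr 𝒪 hp𝒪 χ₀ hθ g j a h D D' κ κ' hκ1 hκ1' hc
  · have hpN : ¬ p ∣ Nmin W p := fun h' => ((p_dvd_Nmin_iff hp.out).mp h').2 h2
    obtain ⟨A, hAu, hA2, hlen⟩ :=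
      hC p hp2 W hΔ hss hirr 𝒪 hp𝒪 χ₀ hθ g j a h D D' κ κ' hκ1 hκ1' h1 h2 hpN
    have hA1 : A ^ 2 - 1 ≠ 0 := by
      intro h0
      have h3 : (j A) ^ 2 - qCoeff ⇑g p * j A + p = 0 := by
        rw [← h.coeff p hp.out, ← map_pow, ← map_mul, ← map_sub, ← map_natCast j, ← map_add, hA2,
          map_zero]
      refine EigBound.sq_ne_one_of_norm_lt (Point.norm_qCoeff_lt h.isNewform hp.out hpN) h3 ?_
      have h4 := congrArg j h0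
      rw [map_sub, map_pow, map_one, map_zero, sub_eq_zero] at h4
      exact h4
    exact ⟨A, hAu, hA2, hA1, hlen hA1⟩

end Fermat.Agent.RT.Wiring
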