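import Fermat.Agent.Oldform
import Fermat.Agent.RT.Wiring.Levels

/-!
# RT10 (helper28): restriction of anemic Hecke algebras to a lower level

`restr h hS : heckeAlgebra N k S →+* heckeAlgebra M k S` for `M ∣ N` and `S` containing the primes
dividing `N`, with `restr (T_ℓ) = T_ℓ`.
-/

set_option autoImplicit false

open CongruenceSubgroup CuspForm

namespace Fermat.Agent.RT.Wiring

section Incl

variable {M N : ℕ} {k : ℤ}

theorem incl_injective (h : M ∣ N) : Function.Injective (Oldform.incl k h) := by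
  intro f g hfg
  apply DFunLike.coe_injective
  have := congrArg (fun F : CuspForm (Gamma0 N) k => (⇑F : _ → ℂ)) hfg
  exact this

theorem heckeTLin_incl (h : M ∣ N) {ℓ : ℕ} (hℓ : ℓ.Prime) (hℓN : ¬ ℓ ∣ N) (hℓM : ¬ ℓ ∣ M)
    (f : CuspForm (Gamma0 M) k) :
    heckeTLin k hℓ hℓN (Oldform.incl k h f) = Oldform.incl k h (heckeTLin k hℓ hℓM f) := by
  apply DFunLike.coe_injective
  rw [coe_heckeTLin_apply, Oldform.coe_incl, Oldform.coe_incl, coe_heckeTLin_apply]

end Incl

variable {M N : ℕ} [NeZero M] [NeZero N] {k : ℤ}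

theorem exists_restrict (h : M ∣ N) {S : Set ℕ} (hS : ∀ q : ℕ, q.Prime → q ∣ N → q ∈ S)
    (t : heckeAlgebra N k S) : ∃ t' : heckeAlgebra M k S, ∀ f : CuspForm (Gamma0 M) k,
      t.1 (Oldform.incl k h f) = Oldform.incl k h (t'.1 f) := by
  obtain ⟨T, hT⟩ := t
  induction hT using Algebra.adjoin_induction with
  | mem x hx =>
    rcases hx with ⟨ℓ, hℓ, hℓN, hℓS, rfl⟩ | ⟨q, hqN, hq, hqS, rfl⟩
    · have hℓM : ¬ ℓ ∣ M := fun h' => hℓN (h'.trans h)
      exact ⟨heckeAlgebra.T hℓ hℓM hℓS, fun f => heckeTLin_incl h hℓ hℓN hℓM f⟩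
    · exact absurd (hS q hq hqN) hqS
  | algebraMap r =>
    refine ⟨algebraMap ℤ _ r, fun f => ?_⟩
    change (algebraMap ℤ (Module.End ℂ (CuspForm (Gamma0 N) k)) r) _ =
      Oldform.incl k h ((algebraMap ℤ (Module.End ℂ (CuspForm (Gamma0 M) k)) r) f)
    rw [Module.algebraMap_end_apply, Module.algebraMap_end_apply]
    exact (map_zsmul (Oldform.incl k h) r f).symm
  | add x y hx hy h1 h2 =>
    obtain ⟨x', hx'⟩ := h1
    obtain ⟨y', hy'⟩ := h2
    refine ⟨x' + y', fun f => ?_⟩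
    change x _ + y _ = Oldform.incl k h (x'.1 f + y'.1 f)
    rw [map_add, ← hx', ← hy']
  | mul x y hx hy h1 h2 =>
    obtain ⟨x', hx'⟩ := h1
    obtain ⟨y', hy'⟩ := h2
    refine ⟨x' * y', fun f => ?_⟩
    change x (y _) = Oldform.incl k h (x'.1 (y'.1 f))
    have h3 : y (Oldform.incl k h f) = Oldform.incl k h (y'.1 f) := hy' f
    rw [h3]
    exact hx' _

theorem restrict_unique (h : M ∣ N) {S : Set ℕ} {t : heckeAlgebra N k S}
    {t' t'' : heckeAlgebra M k S}
    (h1 : ∀ f : CuspForm (Gamma0 M) k, t.1 (Oldform.incl k h f) = Oldform.incl k h (t'.1 f))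
    (h2 : ∀ f : CuspForm (Gamma0 M) k, t.1 (Oldform.incl k h f) = Oldform.incl k h (t''.1 f)) :
    t' = t'' := by
  apply Subtype.ext
  refine LinearMap.ext fun f => ?_
  exact incl_injective h ((h1 f).symm.trans (h2 f))

/-- Restriction of the anemic Hecke algebra of level `N` to the forms of level `M ∣ N`. -/
noncomputable def restr (h : M ∣ N) {S : Set ℕ} (hS : ∀ q : ℕ, q.Prime → q ∣ N → q ∈ S) :
    heckeAlgebra N k S →+* heckeAlgebra M k S where
  toFun t := (exists_restrict h hS t).choose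
  map_one' := restrict_unique h (exists_restrict h hS 1).choose_spec fun _ => rfl
  map_mul' x y := restrict_unique h (exists_restrict h hS (x * y)).choose_spec fun f => by
    change x.1 (y.1 _) = Oldform.incl k h ((exists_restrict h hS x).choose.1
      ((exists_restrict h hS y).choose.1 f))
    rw [(exists_restrict h hS y).choose_spec f, (exists_restrict h hS x).choose_spec]
  map_zero' := restrict_unique h (exists_restrict h hS 0).choose_spec fun f => by
    change (0 : CuspForm (Gamma0 N) k) = Oldform.incl k h 0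
    rw [map_zero]
  map_add' x y := restrict_unique h (exists_restrict h hS (x + y)).choose_spec fun f => by
    change x.1 _ + y.1 _ = Oldform.incl k h ((exists_restrict h hS x).choose.1 f +
      (exists_restrict h hS y).choose.1 f)
    rw [map_add, (exists_restrict h hS y).choose_spec f, (exists_restrict h hS x).choose_spec f]

theorem restr_spec (h : M ∣ N) {S : Set ℕ} (hS : ∀ q : ℕ, q.Prime → q ∣ N → q ∈ S)
    (t : heckeAlgebra N k S) (f : CuspForm (Gamma0 M) k) :
    t.1 (Oldform.incl k h f) = Oldform.incl k h ((restr h hS t).1 f) :=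
  (exists_restrict h hS t).choose_spec f

theorem restr_T (h : M ∣ N) {S : Set ℕ} (hS : ∀ q : ℕ, q.Prime → q ∣ N → q ∈ S) {ℓ : ℕ}
    (hℓ : ℓ.Prime) (hℓN : ¬ ℓ ∣ N) (hℓM : ¬ ℓ ∣ M) (hℓS : ℓ ∉ S) :
    restr h hS (heckeAlgebra.T (k := k) hℓ hℓN hℓS) = heckeAlgebra.T hℓ hℓM hℓS :=
  restrict_unique h (restr_spec h hS _) fun f => heckeTLin_incl h hℓ hℓN hℓM f

theorem restr_surjective (h : M ∣ N) {S : Set ℕ} (hS : ∀ q : ℕ, q.Prime → q ∣ N → q ∈ S) :
    Function.Surjective (restr (k := k) h hS) := by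
  rintro ⟨T, hT⟩
  induction hT using Algebra.adjoin_induction with
  | mem x hx =>
    rcases hx with ⟨ℓ, hℓ, hℓM, hℓS, rfl⟩ | ⟨q, hqM, hq, hqS, rfl⟩
    · have hℓN : ¬ ℓ ∣ N := fun h' => hℓS (hS ℓ hℓ h')
      exact ⟨_, restr_T h hS hℓ hℓN hℓM hℓS⟩
    · exact absurd (hS q hq (hqM.trans h)) hqS
  | algebraMap r => exact ⟨r, map_intCast _ r⟩
  | add x y hx hy h1 h2 =>
    obtain ⟨x', hx'⟩ := h1
    obtain ⟨y', hy'⟩ := h2
    exact ⟨x' + y', by rw [map_add, hx', hy']; rfl⟩
  | mul x y hx hy h1 h2 =>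
    obtain ⟨x', hx'⟩ := h1
    obtain ⟨y', hy'⟩ := h2
    exact ⟨x' * y', by rw [map_mul, hx', hy']; rfl⟩

end Fermat.Agent.RT.Wiring
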