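import Fermat.Agent.RT.Wiring.EDef
import Fermat.Agent.RT.Wiring.Restr

/-!
# RT10 (helper28): from `R_Σ ≅ T_Σ` to the character `χ`
-/

set_option autoImplicit false

open Polynomial IsLocalRing CuspForm

namespace Fermat.Agent.RT.Wiring

open Fermat.Agent.DefCond

local notation "Γℚ" => (AlgebraicClosure ℚ ≃ₐ[ℚ] AlgebraicClosure ℚ)

section

variable {𝒪 : Type} [CommRing 𝒪] [IsDomain 𝒪] [IsDiscreteValuationRing 𝒪]
  [IsAdicComplete (maximalIdeal 𝒪) 𝒪]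
  {ρbar : ResidualGaloisRep (ResidueField 𝒪)}
  {𝒟 : ∀ ⦃A : Type⦄ [CommRing A] [IsLocalRing A] [Algebra 𝒪 A], GaloisRepAdic A → Prop}

/-- the point of the deformation ring given by a deformation with values in `𝒪`. -/
theorem exists_point_of_deformation (D : GaloisRep.DeformationRingData 𝒪 ρbar 𝒟)
    (ρ : GaloisRepAdic 𝒪) (hρ : 𝒟 ρ)
    (hres : ρ.residual.IsEquiv (ρbar.baseChangeAlong (ResidueField.map (algebraMap 𝒪 𝒪)))) :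
    ∃ ψ : D.R →ₐ[𝒪] 𝒪, ∀ σ : Γℚ,
      LinearMap.charpoly (ρ.ρ σ) = (LinearMap.charpoly (D.ρ.ρ σ)).map (ψ : D.R →+* 𝒪) := by
  obtain ⟨ψ, ⟨hψ, ⟨e⟩⟩, -⟩ := D.universal 𝒪 (by
    intro x
    obtain ⟨y, rfl⟩ := residue_surjective x
    exact ⟨y, rfl⟩) ρ hρ hres
  exact ⟨ψ, fun σ => by rw [charpoly_equiv e σ, charpoly_baseChangeAlong]⟩

variable {N : ℕ} [NeZero N] {S : Set ℕ} {θ : heckeAlgebra N 2 S →+* ResidueField 𝒪}
  {T : Type} [CommRing T] [IsLocalRing T] [IsNoetherianRing T]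
  [IsAdicComplete (maximalIdeal T) T] [Algebra 𝒪 T] [IsLocalHom (algebraMap 𝒪 T)]
  [Module.Finite 𝒪 T] [Module.Free 𝒪 T]

/-- **If `R → T` is bijective then every deformation with values in `𝒪` is modular.** -/
theorem exists_char_of_bijective (D : GaloisRep.DeformationRingData 𝒪 ρbar 𝒟)
    (H : HeckeGaloisRepDatum N S 𝒪 θ T) (φ : D.R →ₐ[𝒪] T) (hφ : IsLocalHom (φ : D.R →+* T))
    (he : (D.ρ.baseChangeAlong (φ : D.R →+* T) hφ).IsEquiv H.ρ) (hbij : Function.Bijective φ)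
    (ρ : GaloisRepAdic 𝒪) (hρ : 𝒟 ρ)
    (hres : ρ.residual.IsEquiv (ρbar.baseChangeAlong (ResidueField.map (algebraMap 𝒪 𝒪)))) :
    ∃ χ : heckeAlgebra N 2 S →+* 𝒪, ∀ (ℓ : ℕ) (hℓ : ℓ.Prime) (hℓN : ¬ ℓ ∣ N) (hℓS : ℓ ∉ S),
      ∀ A : ValuationSubring (AlgebraicClosure ℚ), A.LiesOverPrime ℓ →
        ∀ σ : Γℚ, A.IsFrobeniusAt σ ℓ → LinearMap.charpoly (ρ.ρ σ) =
          X ^ 2 - C (χ (heckeAlgebra.T hℓ hℓN hℓS)) * X + C ((ℓ : 𝒪)) := by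
  obtain ⟨ψ, hψ⟩ := exists_point_of_deformation D ρ hρ hres
  let e : D.R ≃ₐ[𝒪] T := AlgEquiv.ofBijective φ hbij
  refine ⟨(ψ : D.R →+* 𝒪).comp ((e.symm : T →+* D.R).comp H.π), fun ℓ hℓ hℓN hℓS A hA σ hσ => ?_⟩
  have h1 : (LinearMap.charpoly (D.ρ.ρ σ)).map (φ : D.R →+* T) =
      X ^ 2 - C (H.π (heckeAlgebra.T hℓ hℓN hℓS)) * X + C ((ℓ : T)) := by
    obtain ⟨e'⟩ := he
    rw [← charpoly_baseChangeAlong (φ : D.R →+* T) hφ, ← charpoly_equiv e' σ]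
    exact H.charpoly_frob ℓ hℓ hℓN hℓS A hA σ hσ
  have h2 : LinearMap.charpoly (D.ρ.ρ σ) =
      X ^ 2 - C (e.symm (H.π (heckeAlgebra.T hℓ hℓN hℓS))) * X + C ((ℓ : D.R)) := by
    refine Polynomial.map_injective (φ : D.R →+* T) hbij.1 ?_
    rw [h1, Polynomial.map_add, Polynomial.map_sub, Polynomial.map_mul, Polynomial.map_pow,
      Polynomial.map_X, Polynomial.map_C, Polynomial.map_C, map_natCast (φ : D.R →+* T)]
    have h3 : (φ : D.R →+* T) (e.symm (H.π (heckeAlgebra.T hℓ hℓN hℓS))) =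
        H.π (heckeAlgebra.T hℓ hℓN hℓS) := e.apply_symm_apply _
    rw [h3]
  rw [hψ, h2, Polynomial.map_add, Polynomial.map_sub, Polynomial.map_mul, Polynomial.map_pow,
      Polynomial.map_X, Polynomial.map_C, Polynomial.map_C, map_natCast (ψ : D.R →+* 𝒪)]
  rfl

end

/-- **End of MLT**: if the map `R_Σ → T_Σ` is bijective then `W` has the required character. -/
theorem exists_char_of_bijective_W {p : ℕ} [hp : Fact p.Prime] {W : WeierstrassCurve ℤ}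
    (hΔ : W.Δ ≠ 0) (hss : W.IsSemistableModel) [NeZero (Nsig W p)]
    (𝒪 : Type) [CommRing 𝒪] [IsDomain 𝒪] [IsDiscreteValuationRing 𝒪]
    [IsAdicComplete (maximalIdeal 𝒪) 𝒪] [Finite (ResidueField 𝒪)] [CharZero 𝒪]
    [Algebra ℤ_[p] 𝒪] [IsLocalHom (algebraMap ℤ_[p] 𝒪)]
    (D : GaloisRep.DeformationRingData 𝒪 (rhoBar W hΔ p 𝒪)
      (dCond (tsig W p) 𝒪 p (Sbad W p) (Smin W p)))
    {θ : heckeAlgebra (Nsig W p) 2 (↑(Sbad W p) : Set ℕ) →+* ResidueField 𝒪}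
    {T : Type} [CommRing T] [IsLocalRing T] [IsNoetherianRing T]
    [IsAdicComplete (maximalIdeal T) T] [Algebra 𝒪 T] [IsLocalHom (algebraMap 𝒪 T)]
    [Module.Finite 𝒪 T] [Module.Free 𝒪 T]
    (H : HeckeGaloisRepDatum (Nsig W p) (↑(Sbad W p) : Set ℕ) 𝒪 θ T) (φ : D.R →ₐ[𝒪] T)
    (hφ : IsLocalHom (φ : D.R →+* T))
    (he : (D.ρ.baseChangeAlong (φ : D.R →+* T) hφ).IsEquiv H.ρ) (hbij : Function.Bijective φ) :
    ∃ χ : heckeAlgebra (Nsig W p) 2 (↑(Sbad W p) : Set ℕ) →+* 𝒪,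
      ∀ (ℓ : ℕ) (hℓ : ℓ.Prime) (hℓN : ¬ ℓ ∣ Nsig W p) (hℓS : ℓ ∉ (↑(Sbad W p) : Set ℕ)),
        χ (heckeAlgebra.T hℓ hℓN hℓS) = (W.apOfModel ℓ : 𝒪) := by
  obtain ⟨χ, hχ⟩ := exists_char_of_bijective D H φ hφ he hbij (rhoE W hΔ p 𝒪)
    (rhoE_dCond hΔ 𝒪 hss _) (rhoE_residual_isEquiv hΔ 𝒪)
  refine ⟨χ, fun ℓ hℓ hℓN hℓS => ?_⟩
  obtain ⟨A, hA⟩ := FrobExists.exists_liesOverPrime (AlgebraicClosure ℚ) hℓ
  obtain ⟨σ, hσ⟩ := FrobExists.exists_isFrobeniusAt A hℓ hA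
  have h1 := hχ ℓ hℓ hℓN hℓS A hA σ hσ
  obtain ⟨hℓp, hgood⟩ := not_mem_Sbad (p := p) hΔ hℓ fun h => hℓS (Finset.mem_coe.mpr h)
  rw [rhoE_charpoly_frob hΔ 𝒪 hℓ hℓp hgood A hA hσ] at h1
  exact (CMP.S58Assembly.eq_of_quad h1).symm

end Fermat.Agent.RT.Wiring
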